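/-
Schneider's theorem: denominators and conjugates of the Taylor coefficients (helper85).
-/
import Fermat.Agent.Corollaries.GS.Func

/-!
# The arithmetic of the Taylor coefficients

`P` is a sequence in a number field with the recurrence of the derivatives of `℘` at a half period,
`Q b` the corresponding sequence for the powers of `℘`.
-/

set_option autoImplicit false

open Finset NumberField

namespace Fermat.Agent.Cor.Sch

variable {K : Type} [Field K] [NumberField K]

/-- The recurrence of the derivatives of `℘` at a half period. -/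
structure Rec (h : K) (P : ℕ → K) (Q : ℕ → ℕ → K) : Prop where
  one : P 1 = 0
  succ : ∀ n, P (n + 2) = 6 * (∑ k ∈ range (n + 1), (n.choose k : K) * P k * P (n - k)) -
    if n = 0 then h else 0
  zero : ∀ n, Q 0 n = if n = 0 then 1 else 0
  pow : ∀ b n, Q (b + 1) n = ∑ k ∈ range (n + 1), (n.choose k : K) * Q b k * P (n - k)

variable {h : K} {P : ℕ → K} {Q : ℕ → ℕ → K}

omit [NumberField K] in
theorem isIntegral_P (R : Rec h P Q) {d : ℤ} (h0 : IsIntegral ℤ ((d : K) * P 0))
    (hh : IsIntegral ℤ ((d : K) * h)) (n : ℕ) : IsIntegral ℤ ((d : K) ^ (n + 1) * P n) := by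
  have hd : IsIntegral ℤ (d : K) := isIntegral_algebraMap (R := ℤ) (x := d)
  induction n using Nat.strong_induction_on with
  | _ n ih =>
    rcases n with _ | _ | n
    · simpa using h0
    · rw [zero_add, R.one, mul_zero]; exact isIntegral_zero
    · rw [R.succ, mul_sub]
      apply IsIntegral.sub
      · have e : (d : K) ^ (n + 1 + 1 + 1) * (6 * ∑ k ∈ range (n + 1),
            (n.choose k : K) * P k * P (n - k)) = ∑ k ∈ range (n + 1),
            ((6 * n.choose k : ℕ) : K) * (d * (((d : K) ^ (k + 1) * P k) *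
              ((d : K) ^ (n - k + 1) * P (n - k)))) := by
          rw [mul_sum, mul_sum]
          refine sum_congr rfl fun k hk => ?_
          have hk' : k ≤ n := Nat.lt_succ_iff.1 (mem_range.1 hk)
          have e1 : (d : K) ^ (n + 1 + 1 + 1) = d * ((d : K) ^ (k + 1) * (d : K) ^ (n - k + 1)) := by
            rw [← pow_add, ← pow_succ']
            congr 1; omega
          rw [e1]; push_cast; ring
        rw [e]
        apply IsIntegral.sum
        intro k hk
        have hk' : k ≤ n := Nat.lt_succ_iff.1 (mem_range.1 hk)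
        exact (isIntegral_natCast _).mul (hd.mul ((ih k (by omega)).mul (ih (n - k) (by omega))))
      · split_ifs with hn
        · have e : (d : K) ^ (n + 1 + 1 + 1) * h = (d : K) ^ (n + 2) * (d * h) := by ring
          rw [e]
          exact (hd.pow _).mul hh
        · rw [mul_zero]; exact isIntegral_zero

omit [NumberField K] in
theorem isIntegral_Q (R : Rec h P Q) {d : ℤ} (h0 : IsIntegral ℤ ((d : K) * P 0))
    (hh : IsIntegral ℤ ((d : K) * h)) (b n : ℕ) : IsIntegral ℤ ((d : K) ^ (n + b) * Q b n) := by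
  have hd : IsIntegral ℤ (d : K) := isIntegral_algebraMap (R := ℤ) (x := d)
  induction b generalizing n with
  | zero =>
    rw [R.zero]
    split_ifs with hn
    · rw [mul_one]; exact hd.pow _
    · rw [mul_zero]; exact isIntegral_zero
  | succ b ih =>
    have e : (d : K) ^ (n + (b + 1)) * Q (b + 1) n = ∑ k ∈ range (n + 1), (n.choose k : K) *
        (((d : K) ^ (k + b) * Q b k) * ((d : K) ^ (n - k + 1) * P (n - k))) := by
      rw [R.pow, mul_sum]
      refine sum_congr rfl fun k hk => ?_
      have hk' : k ≤ n := Nat.lt_succ_iff.1 (mem_range.1 hk)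
      have e1 : (d : K) ^ (n + (b + 1)) = (d : K) ^ (k + b) * (d : K) ^ (n - k + 1) := by
        rw [← pow_add]
        congr 1; omega
      rw [e1]; ring
    rw [e]
    apply IsIntegral.sum
    intro k _
    exact (isIntegral_natCast _).mul ((ih k).mul (isIntegral_P R h0 hh _))

theorem house_natCast (n : ℕ) : house (n : K) = n := by
  have := house_intCast (K := K) n
  push_cast at this
  rw [this, abs_of_nonneg (Nat.cast_nonneg n)]

/-- `C(n, k) k! (n - k)! = n!` in real numbers. -/
theorem choose_mul_real {n k : ℕ} (h : k ≤ n) :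
    (n.choose k : ℝ) * k.factorial * (n - k).factorial = n.factorial := by
  exact_mod_cast Nat.choose_mul_factorial_mul_factorial h

theorem house_P_le (R : Rec h P Q) {C : ℝ} (hC : 6 + house h + house (P 0) ≤ C) (n : ℕ) :
    house (P n) ≤ n.factorial * C ^ (n + 1) := by
  have hh0 : 0 ≤ house h := house_nonneg h
  have hP0 : 0 ≤ house (P 0) := house_nonneg _
  have hC0 : 0 < C := by linarith
  have hC1 : 1 ≤ C := by linarith
  induction n using Nat.strong_induction_on with
  | _ n ih =>
    rcases n with _ | _ | n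
    · simp only [Nat.factorial_zero, Nat.cast_one, one_mul, zero_add, pow_one]; linarith
    · rw [zero_add, R.one]
      have : house (0 : K) = 0 := by simpa using house_natCast (K := K) 0
      rw [this]; positivity
    · rw [R.succ]
      have h1 : house (∑ k ∈ range (n + 1), (n.choose k : K) * P k * P (n - k)) ≤
          (n + 1 : ℕ) * (n.factorial * C ^ (n + 2)) := by
        have := GS.house_sum_le (range (n + 1))
          (fun k => (n.choose k : K) * P k * P (n - k)) (X := n.factorial * C ^ (n + 2))
          (fun k hk => by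
            have hk' : k ≤ n := Nat.lt_succ_iff.1 (mem_range.1 hk)
            have h2 := GS.house_mul_le_mul (GS.house_mul_le_mul (house_natCast (K := K)
              (n.choose k)).le (ih k (by omega))) (ih (n - k) (by omega))
            refine h2.trans (le_of_eq ?_)
            rw [← choose_mul_real hk', show n + 2 = (k + 1) + (n - k + 1) by omega, pow_add]
            ring)
        rwa [card_range] at this
      have h6 : house (6 : K) = 6 := by exact_mod_cast house_natCast (K := K) 6
      have h2 : house (6 * ∑ k ∈ range (n + 1), (n.choose k : K) * P k * P (n - k)) ≤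
          6 * ((n + 1 : ℕ) * (n.factorial * C ^ (n + 2))) := GS.house_mul_le_mul h6.le h1
      have h3 : house (if n = 0 then h else (0 : K)) ≤ house h := by
        split_ifs
        · exact le_rfl
        · have : house (0 : K) = 0 := by simpa using house_natCast (K := K) 0
          rw [this]; exact hh0
      have h4 : house (6 * (∑ k ∈ range (n + 1), (n.choose k : K) * P k * P (n - k)) -
          if n = 0 then h else 0) ≤ 6 * ((n + 1 : ℕ) * (n.factorial * C ^ (n + 2))) + house h := by
        rw [sub_eq_add_neg]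
        refine (house_add_le _ _).trans (add_le_add h2 ?_)
        have : house (-(if n = 0 then h else (0 : K))) = house (if n = 0 then h else (0 : K)) := by
          simp only [house, map_neg, norm_neg]
        rw [this]; exact h3
      refine h4.trans ?_
      have h5 : (((n + 1 + 1).factorial : ℕ) : ℝ) = (n + 2) * ((n + 1 : ℕ) * n.factorial) := by
        rw [Nat.factorial_succ, Nat.factorial_succ]; push_cast; ring
      rw [h5]
      have h7 : (1 : ℝ) ≤ (n + 1 : ℕ) * n.factorial * C ^ (n + 2) := by
        have e1 : (1 : ℝ) ≤ (n + 1 : ℕ) := by exact_mod_cast Nat.succ_pos n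
        have e2 : (1 : ℝ) ≤ n.factorial := by
          exact_mod_cast Nat.succ_le_of_lt (Nat.factorial_pos n)
        have e3 : (1 : ℝ) ≤ C ^ (n + 2) := one_le_pow₀ hC1
        exact one_le_mul_of_one_le_of_one_le (one_le_mul_of_one_le_of_one_le e1 e2) e3
      have h8 : (n + 2 : ℝ) * ((n + 1 : ℕ) * n.factorial) * C ^ (n + 1 + 1 + 1) =
          ((n + 1 : ℕ) * n.factorial * C ^ (n + 2)) * ((n + 2) * C) := by
        rw [show n + 1 + 1 + 1 = (n + 2) + 1 by ring, pow_succ]; ring
      rw [h8]
      have h9 : (6 : ℝ) + house h ≤ (n + 2) * C := by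
        have : (0 : ℝ) ≤ n := Nat.cast_nonneg n
        nlinarith
      have h10 : 0 ≤ (n + 1 : ℕ) * (n.factorial : ℝ) * C ^ (n + 2) := by positivity
      calc 6 * ((n + 1 : ℕ) * (n.factorial * C ^ (n + 2))) + house h ≤
          ((n + 1 : ℕ) * n.factorial * C ^ (n + 2)) * (6 + house h) := by nlinarith
        _ ≤ _ := mul_le_mul_of_nonneg_left h9 h10

theorem house_Q_le (R : Rec h P Q) {C : ℝ} (hC : 6 + house h + house (P 0) ≤ C) (b n : ℕ) :
    house (Q b n) ≤ n.factorial * (2 * C) ^ (n + b) := by
  have hh0 : 0 ≤ house h := house_nonneg h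
  have hP0 : 0 ≤ house (P 0) := house_nonneg _
  have hC0 : 0 < C := by linarith
  have hC1 : 1 ≤ C := by linarith
  induction b generalizing n with
  | zero =>
    rw [R.zero]
    split_ifs with hn
    · have : house (1 : K) = 1 := by simpa using house_natCast (K := K) 1
      rw [this, hn]; simp
    · have : house (0 : K) = 0 := by simpa using house_natCast (K := K) 0
      rw [this]; positivity
  | succ b ih =>
    rw [R.pow]
    have h1 : ∀ k ∈ range (n + 1), house ((n.choose k : K) * Q b k * P (n - k)) ≤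
        n.factorial * C ^ (n + (b + 1)) * 2 ^ b * 2 ^ k := by
      intro k hk
      have hk' : k ≤ n := Nat.lt_succ_iff.1 (mem_range.1 hk)
      have h2 := GS.house_mul_le_mul (GS.house_mul_le_mul (house_natCast (K := K)
        (n.choose k)).le (ih k)) (house_P_le R hC (n - k))
      refine h2.trans (le_of_eq ?_)
      rw [← choose_mul_real hk', show n + (b + 1) = (k + b) + (n - k + 1) by omega,
        pow_add C (k + b) (n - k + 1), mul_pow (2 : ℝ) C (k + b), pow_add (2 : ℝ) k b]
      ring
    refine (house_sum_le_sum_house _ _).trans ((sum_le_sum h1).trans ?_)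
    rw [← mul_sum]
    have h3 : ∑ k ∈ range (n + 1), (2 : ℝ) ^ k ≤ 2 ^ (n + 1) := by
      rw [geom_sum_eq (by norm_num)]
      norm_num
    calc n.factorial * C ^ (n + (b + 1)) * 2 ^ b * ∑ k ∈ range (n + 1), (2 : ℝ) ^ k ≤
        n.factorial * C ^ (n + (b + 1)) * 2 ^ b * 2 ^ (n + 1) := by gcongr
      _ = n.factorial * (2 * C) ^ (n + (b + 1)) := by
        rw [mul_pow, show n + (b + 1) = b + (n + 1) by ring, pow_add 2 b (n + 1)]; ring

/-- The coefficients of the linear system. -/
noncomputable def E (v : ℕ → K) (Q : ℕ → ℕ → K) (j t i k : ℕ) : K :=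
  ∑ r ∈ range (t + 1), (t.choose r : K) * ((i.descFactorial r : K) * v j ^ (i - r)) * Q k (t - r)

omit [NumberField K] in
theorem isIntegral_E (R : Rec h P Q) {d : ℤ} (h0 : IsIntegral ℤ ((d : K) * P 0))
    (hh : IsIntegral ℤ ((d : K) * h)) {v : ℕ → K} (hv : ∀ j, IsIntegral ℤ ((d : K) * v j))
    (j : ℕ) {t i k D : ℕ} (hD : t + i + k ≤ D) : IsIntegral ℤ ((d : K) ^ D * E v Q j t i k) := by
  have hd : IsIntegral ℤ (d : K) := isIntegral_algebraMap (R := ℤ) (x := d)
  rw [E, mul_sum]
  apply IsIntegral.sum
  intro r hr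
  have hr' : r ≤ t := Nat.lt_succ_iff.1 (mem_range.1 hr)
  have e : (d : K) ^ D = (d : K) ^ (D - (i - r) - (t - r + k)) *
      ((d : K) ^ (i - r) * (d : K) ^ (t - r + k)) := by
    rw [← pow_add, ← pow_add]
    congr 1; omega
  have e2 : (d : K) ^ D * ((t.choose r : K) * ((i.descFactorial r : K) * v j ^ (i - r)) *
      Q k (t - r)) = (d : K) ^ (D - (i - r) - (t - r + k)) * ((t.choose r : K) *
        (i.descFactorial r : K)) * ((d * v j) ^ (i - r) * ((d : K) ^ (t - r + k) *
          Q k (t - r))) := by
    rw [e, mul_pow]; ring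
  rw [e2]
  exact ((hd.pow _).mul ((isIntegral_natCast _).mul (isIntegral_natCast _))).mul
    (((hv j).pow _).mul (isIntegral_Q R h0 hh _ _))

theorem house_E_le (R : Rec h P Q) {C V : ℝ} (hC : 6 + house h + house (P 0) ≤ C) (hV1 : 1 ≤ V)
    {v : ℕ → K} {j : ℕ} (hv : house (v j) ≤ V) {t i k D : ℕ} (hD : t + i + k ≤ D) :
    house (E v Q j t i k) ≤ t.factorial * (4 * C * V) ^ D := by
  have hh0 : 0 ≤ house h := house_nonneg h
  have hP0 : 0 ≤ house (P 0) := house_nonneg _
  have hC0 : 0 < C := by linarith
  have hC1 : 1 ≤ C := by linarith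
  have h1 : ∀ r ∈ range (t + 1), house ((t.choose r : K) * ((i.descFactorial r : K) *
      v j ^ (i - r)) * Q k (t - r)) ≤ t.factorial * (2 ^ i * V ^ i * (2 * C) ^ (t + k)) := by
    intro r hr
    have hr' : r ≤ t := Nat.lt_succ_iff.1 (mem_range.1 hr)
    have h2 := GS.house_mul_le_mul (GS.house_mul_le_mul (house_natCast (K := K)
      (t.choose r)).le (GS.house_mul_le_mul (house_natCast (K := K) (i.descFactorial r)).le
        (GS.house_pow_le_pow hv (i - r)))) (house_Q_le R hC k (t - r))
    refine h2.trans ?_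
    have e1 : ((i.descFactorial r : ℕ) : ℝ) = r.factorial * i.choose r := by
      rw [Nat.descFactorial_eq_factorial_mul_choose]; push_cast; rfl
    rw [e1]
    have e2 : (t.choose r : ℝ) * (r.factorial * i.choose r * V ^ (i - r)) *
        ((t - r).factorial * (2 * C) ^ (t - r + k)) =
        ((t.choose r : ℝ) * r.factorial * (t - r).factorial) *
          (i.choose r * V ^ (i - r) * (2 * C) ^ (t - r + k)) := by ring
    rw [e2, choose_mul_real hr']
    have e3 : (i.choose r : ℝ) ≤ 2 ^ i := by exact_mod_cast Nat.choose_le_two_pow i r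
    have e4 : V ^ (i - r) ≤ V ^ i := pow_le_pow_right₀ hV1 (Nat.sub_le _ _)
    have e5 : (2 * C) ^ (t - r + k) ≤ (2 * C) ^ (t + k) :=
      pow_le_pow_right₀ (by linarith) (by omega)
    gcongr
  have h2 := GS.house_sum_le (range (t + 1)) _ h1
  rw [card_range] at h2
  unfold E
  refine h2.trans ?_
  have h3 : ((t + 1 : ℕ) : ℝ) ≤ 2 ^ t := by exact_mod_cast Nat.succ_le_of_lt Nat.lt_two_pow_self
  have h4 : (2 : ℝ) ^ t * (2 ^ i * V ^ i * (2 * C) ^ (t + k)) ≤ (4 * C * V) ^ (t + i + k) := by
    have e1 : (2 : ℝ) ^ t ≤ 2 ^ (t + k) := pow_le_pow_right₀ (by norm_num) (by omega)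
    have e2 : (2 : ℝ) ^ (t + k) * (2 * C) ^ (t + k) = (4 * C) ^ (t + k) := by
      rw [← mul_pow]; ring
    have e3 : (4 * C) ^ (t + k) ≤ (4 * C * V) ^ (t + k) :=
      pow_le_pow_left₀ (by positivity) (by nlinarith) _
    have e4 : (2 : ℝ) ^ i * V ^ i ≤ (4 * C * V) ^ i := by
      rw [← mul_pow]
      exact pow_le_pow_left₀ (by positivity) (by nlinarith) _
    calc (2 : ℝ) ^ t * (2 ^ i * V ^ i * (2 * C) ^ (t + k)) ≤
        2 ^ (t + k) * (2 ^ i * V ^ i * (2 * C) ^ (t + k)) := by gcongr
      _ = (2 ^ i * V ^ i) * (2 ^ (t + k) * (2 * C) ^ (t + k)) := by ring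
      _ ≤ (4 * C * V) ^ i * (4 * C * V) ^ (t + k) := by
        rw [e2]
        exact mul_le_mul e4 e3 (by positivity) (by positivity)
      _ = (4 * C * V) ^ (t + i + k) := by rw [← pow_add]; congr 1; omega
  have h5 : (4 * C * V) ^ (t + i + k) ≤ (4 * C * V) ^ D :=
    pow_le_pow_right₀ (by nlinarith) hD
  calc ((t + 1 : ℕ) : ℝ) * (t.factorial * (2 ^ i * V ^ i * (2 * C) ^ (t + k))) ≤
      2 ^ t * (t.factorial * (2 ^ i * V ^ i * (2 * C) ^ (t + k))) := by gcongr
    _ = t.factorial * (2 ^ t * (2 ^ i * V ^ i * (2 * C) ^ (t + k))) := by ring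
    _ ≤ t.factorial * (4 * C * V) ^ D := by
      exact mul_le_mul_of_nonneg_left (h4.trans h5) (by positivity)

end Fermat.Agent.Cor.Sch
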