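/-
Schneider's theorem on the periods of elliptic curves: the cut (helper85).
-/
import Mathlib

/-!
# Schneider's theorem (1937): the cut

`L` a lattice in `ℂ` with algebraic invariants `g₂`, `g₃`: every non-zero period is transcendental.
Auxiliary functions: polynomials in `z` and `℘`, points `(j + 1/2) ω`.
-/

set_option autoImplicit false

namespace Fermat.Agent.Cor.Sch

/-- the points `(j + 1/2) ω` -/
noncomputable def pt (ω : ℂ) (j : ℕ) : ℂ := j * ω + ω / 2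

/-- a polynomial in `z` and `℘` -/
noncomputable def fn (L : PeriodPair) {a b : ℕ} (ξ : Fin a × Fin b → ℂ) (z : ℂ) : ℂ :=
  ∑ p, ξ p * (z ^ (p.1 : ℕ) * L.weierstrassP z ^ (p.2 : ℕ))

/-- (A) Schwarz's lemma for polynomials in `z` and `℘` -/
def SchwarzStmt : Prop := ∀ (L : PeriodPair) (ω : ℂ), ω ∈ L.lattice → ω / 2 ∉ L.lattice →
  ∀ m : ℕ, 0 < m → ∃ A : ℝ, 1 ≤ A ∧ ∀ (N a b s : ℕ) (ξ : Fin a × Fin b → ℂ) (B : ℝ), A ≤ N →
    (∀ p, ‖ξ p‖ ≤ B) → (∀ j < m, ∀ t < s, iteratedDeriv t (fn L ξ) (pt ω j) = 0) →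
    ∀ j < m, ‖iteratedDeriv s (fn L ξ) (pt ω j)‖ ≤
      s.factorial * (a * b * B) * (A * N) ^ (a + 18 * N ^ 2 * b) * (A / N) ^ (m * s)

/-- **Schneider's theorem** -/
def SchneiderStmt : Prop := ∀ L : PeriodPair, IsAlgebraic ℚ L.g₂ → IsAlgebraic ℚ L.g₃ →
  ∀ ω ∈ L.lattice, ω ≠ 0 → Transcendental ℚ ω

end Fermat.Agent.Cor.Sch
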