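/-
Schneider's theorem: the derivatives of ℘ at a half period (helper85).
-/
import Fermat.Agent.Corollaries.Sch.Defs

/-!
# The derivatives of `℘` at a half period
-/

set_option autoImplicit false

open Finset Filter Topology

namespace Fermat.Agent.Cor.Sch

variable {L : PeriodPair}

theorem countable_lattice (L : PeriodPair) : (L.lattice : Set ℂ).Countable := by
  have : Countable L.lattice := L.latticeEquivProd.toEquiv.countable_iff.2 inferInstance
  exact Set.countable_coe_iff.1 this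

theorem isPreconnected_compl (L : PeriodPair) : IsPreconnected ((L.lattice : Set ℂ)ᶜ) := by
  refine ((countable_lattice L).isConnected_compl_of_one_lt_rank ?_).isPreconnected
  rw [Complex.rank_real_complex]
  exact Cardinal.one_lt_two

theorem isOpen_compl (L : PeriodPair) : IsOpen ((L.lattice : Set ℂ)ᶜ) :=
  L.isClosed_lattice.isOpen_compl

/-- `℘` tends to infinity at `0`. -/
theorem tendsto_cobounded (L : PeriodPair) :
    Tendsto L.weierstrassP (𝓝[≠] 0) (Bornology.cobounded ℂ) := by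
  rw [tendsto_cobounded_iff_meromorphicOrderAt_neg (L.meromorphic_weierstrassP 0),
    L.order_weierstrassP 0 (zero_mem _)]
  decide

/-- Near `0` there are points outside of the lattice at which `℘` is large. -/
theorem exists_large (L : PeriodPair) (R : ℝ) : ∃ z : ℂ, z ∉ L.lattice ∧ R < ‖L.weierstrassP z‖ := by
  have h1 : ∀ᶠ z in 𝓝[≠] (0 : ℂ), R < ‖L.weierstrassP z‖ :=
    (tendsto_norm_cobounded_atTop.comp (tendsto_cobounded L)).eventually_gt_atTop R
  have h2 : ∀ᶠ z in 𝓝[≠] (0 : ℂ), z ∉ L.lattice := by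
    have h3 := L.compl_lattice_sdiff_singleton_mem_nhds 0
    filter_upwards [mem_nhdsWithin_of_mem_nhds h3, self_mem_nhdsWithin] with z hz hz0 hzL
    exact hz ⟨hzL, hz0⟩
  obtain ⟨z, hz1, hz2⟩ := (h1.and h2).exists
  exact ⟨z, hz2, hz1⟩

/-- The differential equation of second order. -/
theorem deriv_deriv (L : PeriodPair) {z : ℂ} (hz : z ∉ L.lattice) :
    deriv (deriv L.weierstrassP) z = 6 * L.weierstrassP z ^ 2 - L.g₂ / 2 := by
  have hP := L.analyticOnNhd_weierstrassP
  have hP1 : AnalyticOnNhd ℂ (deriv L.weierstrassP) ((L.lattice : Set ℂ)ᶜ) := hP.deriv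
  have hP2 : AnalyticOnNhd ℂ (deriv (deriv L.weierstrassP)) ((L.lattice : Set ℂ)ᶜ) := hP1.deriv
  set h : ℂ → ℂ := fun z => deriv (deriv L.weierstrassP) z - (6 * L.weierstrassP z ^ 2 - L.g₂ / 2)
    with hh
  have hhan : AnalyticOnNhd ℂ h ((L.lattice : Set ℂ)ᶜ) := by
    intro x hx
    have e1 := hP x hx
    have e2 := hP2 x hx
    fun_prop
  have hmul : ∀ z ∈ ((L.lattice : Set ℂ)ᶜ), deriv L.weierstrassP z * h z = 0 := by
    intro z hz
    have hev : (fun z => deriv L.weierstrassP z ^ 2) =ᶠ[𝓝 z] fun z =>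
        4 * L.weierstrassP z ^ 3 - L.g₂ * L.weierstrassP z - L.g₃ := by
      filter_upwards [(isOpen_compl L).mem_nhds hz] with w hw
      rw [L.deriv_weierstrassP]
      exact L.derivWeierstrassP_sq w hw
    have d0 : HasDerivAt L.weierstrassP (deriv L.weierstrassP z) z :=
      (hP z hz).differentiableAt.hasDerivAt
    have d1 : HasDerivAt (deriv L.weierstrassP) (deriv (deriv L.weierstrassP) z) z :=
      (hP1 z hz).differentiableAt.hasDerivAt
    have e1 := hev.deriv_eq
    rw [(d1.fun_pow 2).deriv, (((d0.fun_pow 3).const_mul 4).fun_sub (d0.const_mul L.g₂)).sub_const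
      L.g₃ |>.deriv] at e1
    simp only [hh, L.deriv_weierstrassP] at e1 ⊢
    norm_num at e1
    linear_combination e1 / 2
  rcases AnalyticOnNhd.eq_zero_or_eq_zero_of_mul_eq_zero hP1 hhan hmul
    (isPreconnected_compl L) with h1 | h1
  · -- `℘` would be constant
    exfalso
    obtain ⟨z1, hz1, -⟩ := exists_large L 0
    obtain ⟨z2, hz2, hz2'⟩ := exists_large L ‖L.weierstrassP z1‖
    have h2 : L.weierstrassP z1 = L.weierstrassP z2 :=
      (isOpen_compl L).is_const_of_deriv_eq_zero (isPreconnected_compl L)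
        L.differentiableOn_weierstrassP (fun z hz => h1 z hz) hz1 hz2
    rw [h2] at hz2'
    exact lt_irrefl _ hz2'
  · have := h1 z hz
    simp only [hh] at this
    exact sub_eq_zero.1 this

/-! ### Half periods -/

section Half

variable {ω : ℂ}

theorem natCast_mul_mem (hω : ω ∈ L.lattice) (j : ℕ) : (j : ℂ) * ω ∈ L.lattice := by
  rw [← nsmul_eq_mul]
  exact nsmul_mem hω j

theorem pt_notMem (hω : ω ∈ L.lattice) (h2 : ω / 2 ∉ L.lattice) (j : ℕ) : pt ω j ∉ L.lattice := by
  intro h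
  apply h2
  have := sub_mem h (natCast_mul_mem hω j)
  rwa [pt, add_sub_cancel_left] at this

theorem iteratedDeriv_pt (hω : ω ∈ L.lattice) (j n b : ℕ) :
    iteratedDeriv n (fun z => L.weierstrassP z ^ b) (pt ω j) =
      iteratedDeriv n (fun z => L.weierstrassP z ^ b) (ω / 2) := by
  have h1 := congrFun (iteratedDeriv_comp_add_const n (fun z => L.weierstrassP z ^ b) ((j : ℂ) * ω))
    (ω / 2)
  have h2 : (fun z => L.weierstrassP (z + (j : ℂ) * ω) ^ b) = fun z => L.weierstrassP z ^ b := by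
    funext z
    have := L.weierstrassP_add_coe z ⟨(j : ℂ) * ω, natCast_mul_mem hω j⟩
    rw [← this]
  rw [h2] at h1
  rw [h1, pt, add_comm]

theorem derivWeierstrassP_half (hω : ω ∈ L.lattice) : L.derivWeierstrassP (ω / 2) = 0 := by
  have h1 := L.derivWeierstrassP_neg (ω / 2)
  have h2 := L.derivWeierstrassP_sub_coe (ω / 2) ⟨ω, hω⟩
  have h3 : ω / 2 - ω = -(ω / 2) := by ring
  simp only [h3] at h2
  rw [h1] at h2
  exact self_eq_neg.1 h2.symm

/-- The sequence of the derivatives of `℘` at the half period. -/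
noncomputable def P (L : PeriodPair) (ω : ℂ) (n : ℕ) : ℂ := iteratedDeriv n L.weierstrassP (ω / 2)

/-- The derivatives of the powers of `℘` at the half period. -/
noncomputable def Pw (L : PeriodPair) (ω : ℂ) (b n : ℕ) : ℂ :=
  iteratedDeriv n (fun z => L.weierstrassP z ^ b) (ω / 2)

theorem contDiffAt_weierstrassP (h2 : ω / 2 ∉ L.lattice) (n : ℕ) :
    ContDiffAt ℂ n L.weierstrassP (ω / 2) :=
  (L.analyticOnNhd_weierstrassP _ h2).contDiffAt

theorem P_zero : P L ω 0 = L.weierstrassP (ω / 2) := by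
  rw [P, iteratedDeriv_zero]

theorem P_zero_eq (hω : ω ∈ L.lattice) (h2 : ω / 2 ∉ L.lattice) :
    4 * P L ω 0 ^ 3 - L.g₂ * P L ω 0 - L.g₃ = 0 := by
  have := L.derivWeierstrassP_sq (ω / 2) h2
  rw [derivWeierstrassP_half hω] at this
  rw [P_zero, ← this]
  ring

theorem P_one (hω : ω ∈ L.lattice) : P L ω 1 = 0 := by
  rw [P, iteratedDeriv_one, L.deriv_weierstrassP, derivWeierstrassP_half hω]

theorem P_succ_succ (h2 : ω / 2 ∉ L.lattice) (n : ℕ) : P L ω (n + 2) =
    6 * (∑ k ∈ range (n + 1), (n.choose k : ℂ) * P L ω k * P L ω (n - k)) -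
      if n = 0 then L.g₂ / 2 else 0 := by
  have h1 : P L ω (n + 2) = iteratedDeriv n (deriv (deriv L.weierstrassP)) (ω / 2) := by
    rw [P, iteratedDeriv_succ', iteratedDeriv_succ']
  have hev : deriv (deriv L.weierstrassP) =ᶠ[𝓝 (ω / 2)] fun z =>
      6 * (L.weierstrassP z * L.weierstrassP z) - L.g₂ / 2 := by
    filter_upwards [(isOpen_compl L).mem_nhds h2] with z hz
    rw [deriv_deriv L hz]; ring
  have hc := contDiffAt_weierstrassP h2 n
  rw [h1, hev.iteratedDeriv_eq, iteratedDeriv_fun_sub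
    ((contDiffAt_const (c := (6 : ℂ))).mul (hc.mul hc)) contDiffAt_const, iteratedDeriv_const_mul_field, iteratedDeriv_fun_mul hc hc,
    iteratedDeriv_const]
  rfl

theorem Pw_zero (n : ℕ) : Pw L ω 0 n = if n = 0 then 1 else 0 := by
  rw [Pw]
  simp only [pow_zero]
  rw [iteratedDeriv_const]

theorem Pw_succ (h2 : ω / 2 ∉ L.lattice) (b n : ℕ) : Pw L ω (b + 1) n =
    ∑ k ∈ range (n + 1), (n.choose k : ℂ) * Pw L ω b k * P L ω (n - k) := by
  have hc := contDiffAt_weierstrassP h2 n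
  rw [Pw]
  simp only [pow_succ]
  rw [iteratedDeriv_fun_mul (hc.pow b) hc]
  rfl

end Half

/-- The derivatives of the auxiliary function. -/
theorem iteratedDeriv_fn {ω : ℂ} (hω : ω ∈ L.lattice) (h2 : ω / 2 ∉ L.lattice) {a b : ℕ}
    (ξ : Fin a × Fin b → ℂ) (j t : ℕ) : iteratedDeriv t (fn L ξ) (pt ω j) =
      ∑ p, ξ p * ∑ r ∈ range (t + 1), (t.choose r : ℂ) *
        (((p.1 : ℕ).descFactorial r : ℂ) * pt ω j ^ ((p.1 : ℕ) - r)) * Pw L ω p.2 (t - r) := by
  have hP : ∀ n : ℕ, ContDiffAt ℂ n L.weierstrassP (pt ω j) := fun n =>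
    (L.analyticOnNhd_weierstrassP _ (pt_notMem hω h2 j)).contDiffAt
  have hz : ∀ (n i : ℕ), ContDiffAt ℂ n (fun z : ℂ => z ^ i) (pt ω j) := fun n i =>
    contDiffAt_id.pow i
  unfold fn
  rw [iteratedDeriv_fun_sum fun p _ =>
    ((contDiffAt_const (c := ξ p)).mul ((hz t p.1).mul ((hP t).pow p.2)))]
  refine sum_congr rfl fun p _ => ?_
  rw [iteratedDeriv_const_mul_field, iteratedDeriv_fun_mul (hz t p.1) ((hP t).pow p.2)]
  congr 1
  refine sum_congr rfl fun r _ => ?_
  rw [iteratedDeriv_pow, iteratedDeriv_pt hω, Pw]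

end Fermat.Agent.Cor.Sch
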