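/-
Schneider's theorem: z and ℘ are algebraically independent (helper85).
-/
import Fermat.Agent.Corollaries.Sch.Taylor

/-!
# The auxiliary function is not zero
-/

set_option autoImplicit false

open Finset Filter Topology

namespace Fermat.Agent.Cor.Sch

variable {L : PeriodPair}

theorem analyticOnNhd_fn (L : PeriodPair) {a b : ℕ} (ξ : Fin a × Fin b → ℂ) :
    AnalyticOnNhd ℂ (fn L ξ) ((L.lattice : Set ℂ)ᶜ) := by
  intro z hz
  have h1 := L.analyticOnNhd_weierstrassP z hz
  unfold fn
  refine Finset.analyticAt_fun_sum _ fun p _ => ?_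
  exact analyticAt_const.mul ((analyticAt_id.pow _).mul (h1.pow _))

lemma coeff_sum_C_mul_X_pow {n : ℕ} (c : Fin n → ℂ) (i : Fin n) :
    (∑ k : Fin n, Polynomial.C (c k) * Polynomial.X ^ (k : ℕ)).coeff i = c i := by
  classical
  rw [Polynomial.finsetSum_coeff, sum_eq_single i]
  · simp
  · intro k _ hk
    rw [Polynomial.coeff_C_mul_X_pow, if_neg]
    intro h
    exact hk (Fin.ext h.symm)
  · intro h; exact absurd (mem_univ _) h

/-- The auxiliary function is not zero: `z` and `℘` are algebraically independent. -/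
theorem exists_ne_zero {ω : ℂ} (hω : ω ∈ L.lattice) (h2 : ω / 2 ∉ L.lattice) {a b : ℕ}
    {ξ : Fin a × Fin b → ℂ} (hξ : ξ ≠ 0) (j : ℕ) : ∃ t, iteratedDeriv t (fn L ξ) (pt ω j) ≠ 0 := by
  classical
  by_contra hcon
  push Not at hcon
  have hω0 : ω ≠ 0 := by
    rintro rfl
    exact h2 (by simp)
  have hpt := pt_notMem hω h2 j
  have hzero : Set.EqOn (fn L ξ) 0 ((L.lattice : Set ℂ)ᶜ) := by
    refine (analyticOnNhd_fn L ξ).eqOn_zero_of_preconnected_of_eventuallyEq_zero
      (isPreconnected_compl L) hpt ?_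
    have h3 : analyticOrderAt (fn L ξ) (pt ω j) = ⊤ := by
      rw [ENat.eq_top_iff_forall_ge]
      intro n
      exact (natCast_le_analyticOrderAt_iff_iteratedDeriv_eq_zero
        (analyticOnNhd_fn L ξ _ hpt)).mpr fun k _ => hcon k
    exact analyticOrderAt_eq_top.1 h3
  -- the coefficients with respect to `z`
  have h3 : ∀ z ∉ L.lattice, ∀ i : Fin a, ∑ k : Fin b, ξ (i, k) * L.weierstrassP z ^ (k : ℕ) = 0 := by
    intro z hz i
    set p : Polynomial ℂ := ∑ i : Fin a,
      Polynomial.C (∑ k : Fin b, ξ (i, k) * L.weierstrassP z ^ (k : ℕ)) * Polynomial.X ^ (i : ℕ)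
      with hp
    have hroot : ∀ n : ℕ, p.IsRoot (z + n * ω) := by
      intro n
      have hn : z + n * ω ∉ L.lattice := by
        intro h
        apply hz
        have := sub_mem h (natCast_mul_mem hω n)
        rwa [add_sub_cancel_right] at this
      have h4 := hzero hn
      have h5 : L.weierstrassP (z + n * ω) = L.weierstrassP z :=
        L.weierstrassP_add_coe z ⟨(n : ℂ) * ω, natCast_mul_mem hω n⟩
      rw [fn, Fintype.sum_prod_type] at h4
      simp only [h5, Pi.zero_apply] at h4
      rw [Polynomial.IsRoot.def, hp, Polynomial.eval_finsetSum, ← h4]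
      refine sum_congr rfl fun i _ => ?_
      rw [Polynomial.eval_mul, Polynomial.eval_C, Polynomial.eval_pow, Polynomial.eval_X, sum_mul]
      exact sum_congr rfl fun k _ => by ring
    have hinf : Set.Infinite {x | p.IsRoot x} := by
      refine Set.infinite_of_injective_forall_mem (f := fun n : ℕ => z + n * ω) ?_ hroot
      intro n m hnm
      have h6 : (n : ℂ) * ω = m * ω := add_left_cancel hnm
      exact_mod_cast mul_right_cancel₀ hω0 h6
    have h7 := Polynomial.eq_zero_of_infinite_isRoot p hinf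
    rw [← coeff_sum_C_mul_X_pow (fun i : Fin a => ∑ k : Fin b, ξ (i, k) *
      L.weierstrassP z ^ (k : ℕ)) i, ← hp, h7, Polynomial.coeff_zero]
  apply hξ
  funext p
  obtain ⟨i, k⟩ := p
  set q : Polynomial ℂ := ∑ k : Fin b, Polynomial.C (ξ (i, k)) * Polynomial.X ^ (k : ℕ) with hq
  have h4 : ∀ z ∉ L.lattice, q.IsRoot (L.weierstrassP z) := by
    intro z hz
    rw [Polynomial.IsRoot.def, hq, Polynomial.eval_finsetSum, ← h3 z hz i]
    refine sum_congr rfl fun k _ => ?_
    rw [Polynomial.eval_mul, Polynomial.eval_C, Polynomial.eval_pow, Polynomial.eval_X]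
  have h5 : q = 0 := by
    by_contra hq0
    obtain ⟨z, hz, hlarge⟩ := exists_large L (∑ x ∈ q.roots.toFinset, ‖x‖)
    have h6 : L.weierstrassP z ∈ q.roots.toFinset := by
      rw [Multiset.mem_toFinset, Polynomial.mem_roots hq0]
      exact h4 z hz
    have h7 : ‖L.weierstrassP z‖ ≤ ∑ x ∈ q.roots.toFinset, ‖x‖ :=
      single_le_sum (f := fun x => ‖x‖) (fun _ _ => norm_nonneg _) h6
    linarith
  rw [← coeff_sum_C_mul_X_pow (fun k : Fin b => ξ (i, k)) k, ← hq, h5, Polynomial.coeff_zero]
  rfl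

end Fermat.Agent.Cor.Sch
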