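/-
Schneider's theorem: Siegel's lemma and the final estimate (helper85).
-/
import Fermat.Agent.Corollaries.Sch.NonZero
import Fermat.Agent.Corollaries.Sch.Coef

/-!
# Schneider's theorem: the main estimate
-/

set_option autoImplicit false

open Finset NumberField

namespace Fermat.Agent.Cor.Sch

variable {K : Type} [Field K] [NumberField K]

omit [NumberField K] in
/-- An algebraic integer given by its value. -/
theorem exists_ringOfInteger {x : K} (h : IsIntegral ℤ x) : ∃ y : 𝓞 K, algebraMap (𝓞 K) K y = x :=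
  ⟨⟨x, h⟩, rfl⟩

/-- The numerical part of the final estimate. -/
theorem numeric {D m N n s a b : ℕ} {Cs H A W : ℝ} (hm : m = 8 * D + 20)
    (hCs : 1 ≤ Cs) (hH : 1 ≤ H) (hA : 1 ≤ A) (hW : W = (256 * (Cs ^ 2 * (4 * (m : ℝ) ^ 2) * 4 *
      H ^ (4 * m + 4))) ^ D * A ^ (19 + m)) (ha : a = 2 * m * n) (hb : b = n) (hn : 2 * m ≤ n)
    (hs : n ^ 2 ≤ s) (hN : N = Nat.sqrt (Nat.sqrt s)) (hWN : W < N)
    (h1 : (1 : ℝ) ≤ ((a * b) * (s.factorial * H ^ (s + a + b) *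
      (Cs ^ 2 * (a * b) * (s.factorial * H ^ (s + a + b))))) ^ D *
      ((A * N) ^ (a + 18 * N ^ 2 * b) * (A / N) ^ (m * s))) : False := by
  have hm1 : 1 ≤ m := by omega
  have hn1 : 1 ≤ n := by omega
  have hs1 : 1 ≤ s := le_trans (Nat.one_le_pow _ _ hn1) hs
  have hns : n ≤ s := le_trans (Nat.le_self_pow (by norm_num) n) hs
  -- the fourth root
  have hN4 : N ^ 4 ≤ s := by
    have e1 : N ^ 2 ≤ Nat.sqrt s := by rw [hN]; exact Nat.sqrt_le' _
    calc N ^ 4 = (N ^ 2) ^ 2 := by ring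
      _ ≤ (Nat.sqrt s) ^ 2 := Nat.pow_le_pow_left e1 2
      _ ≤ s := Nat.sqrt_le' s
  have hW1 : 1 ≤ W := by
    rw [hW]
    have e1 : (1 : ℝ) ≤ (m : ℝ) ^ 2 := one_le_pow₀ (by exact_mod_cast hm1)
    have e2 : (1 : ℝ) ≤ Cs ^ 2 := one_le_pow₀ hCs
    have e3 : (1 : ℝ) ≤ H ^ (4 * m + 4) := one_le_pow₀ hH
    have e4 : (1 : ℝ) ≤ Cs ^ 2 * (4 * (m : ℝ) ^ 2) := one_le_mul_of_one_le_of_one_le e2 (by linarith)
    have e5 : (1 : ℝ) ≤ Cs ^ 2 * (4 * (m : ℝ) ^ 2) * 4 := by linarith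
    have e6 : (1 : ℝ) ≤ Cs ^ 2 * (4 * (m : ℝ) ^ 2) * 4 * H ^ (4 * m + 4) :=
      one_le_mul_of_one_le_of_one_le e5 e3
    exact one_le_mul_of_one_le_of_one_le (one_le_pow₀ (by linarith)) (one_le_pow₀ hA)
  have hN1' : (1 : ℝ) < N := by linarith
  have hN1 : 1 ≤ N := by
    have : 1 < N := by exact_mod_cast hN1'
    omega
  have hsN : s ≤ 16 * N ^ 4 := by
    have e1 : Nat.sqrt s < (N + 1) ^ 2 := by rw [hN]; exact Nat.lt_succ_sqrt' _
    have e2 : s < (Nat.sqrt s + 1) ^ 2 := Nat.lt_succ_sqrt' s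
    have e3 : Nat.sqrt s + 1 ≤ (2 * N) ^ 2 := by
      have : (N + 1) ^ 2 ≤ (2 * N) ^ 2 := Nat.pow_le_pow_left (by omega) 2
      omega
    calc s ≤ (Nat.sqrt s + 1) ^ 2 := e2.le
      _ ≤ ((2 * N) ^ 2) ^ 2 := Nat.pow_le_pow_left e3 2
      _ = 16 * N ^ 4 := by ring
  -- exponents
  have hexp1 : s + a + b ≤ (2 * m + 2) * s := by
    rw [ha, hb]
    have : 2 * m * n ≤ 2 * m * s := Nat.mul_le_mul_left _ hns
    nlinarith
  have hexp2 : a + 18 * N ^ 2 * b ≤ 19 * s := by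
    have e1 : a ≤ s := by
      rw [ha]
      calc 2 * m * n ≤ n * n := Nat.mul_le_mul_right _ hn
        _ = n ^ 2 := by ring
        _ ≤ s := hs
    have e2 : N ^ 2 * n ≤ s := by
      have e3 : (N ^ 2 * n) ^ 2 ≤ s ^ 2 := by
        calc (N ^ 2 * n) ^ 2 = N ^ 4 * n ^ 2 := by ring
          _ ≤ s * s := Nat.mul_le_mul hN4 hs
          _ = s ^ 2 := by ring
      exact (Nat.pow_le_pow_iff_left (by norm_num)).1 e3
    rw [hb]
    calc a + 18 * N ^ 2 * n = a + 18 * (N ^ 2 * n) := by ring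
      _ ≤ s + 18 * s := Nat.add_le_add e1 (Nat.mul_le_mul_left _ e2)
      _ = 19 * s := by ring
  have hfac : (s.factorial : ℝ) ≤ (16 * (N : ℝ) ^ 4) ^ s := by
    have e1 : s.factorial ≤ (16 * N ^ 4) ^ s :=
      (Nat.factorial_le_pow s).trans (Nat.pow_le_pow_left hsN s)
    exact_mod_cast e1
  have hab : ((a : ℝ) * b) ≤ 2 * m * s := by
    have e1 : a * b ≤ 2 * m * s := by
      rw [ha, hb]
      calc 2 * m * n * n = 2 * m * n ^ 2 := by ring
        _ ≤ 2 * m * s := Nat.mul_le_mul_left _ hs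
    exact_mod_cast e1
  have hs2 : (s : ℝ) ≤ 2 ^ s := by exact_mod_cast Nat.lt_two_pow_self.le
  have hab2 : ((a : ℝ) * b) ^ 2 ≤ (4 * (m : ℝ) ^ 2) ^ s * 4 ^ s := by
    have e0 : (0 : ℝ) ≤ (a : ℝ) * b := by positivity
    have e1 : (1 : ℝ) ≤ 4 * (m : ℝ) ^ 2 := by
      have : (1 : ℝ) ≤ (m : ℝ) ^ 2 := one_le_pow₀ (by exact_mod_cast hm1)
      linarith
    calc ((a : ℝ) * b) ^ 2 ≤ (2 * m * s) ^ 2 := pow_le_pow_left₀ e0 hab 2
      _ = (4 * (m : ℝ) ^ 2) * (s : ℝ) ^ 2 := by ring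
      _ ≤ (4 * (m : ℝ) ^ 2) ^ s * (2 ^ s) ^ 2 := by
        refine mul_le_mul (le_self_pow₀ e1 (by omega))
          (pow_le_pow_left₀ (Nat.cast_nonneg _) hs2 2) (by positivity) (by positivity)
      _ = (4 * (m : ℝ) ^ 2) ^ s * 4 ^ s := by
        rw [← pow_mul, mul_comm s 2, pow_mul]; norm_num
  set U : ℝ := Cs ^ 2 * (4 * (m : ℝ) ^ 2) * 4 * H ^ (4 * m + 4) with hU
  have hbr : ((a : ℝ) * b) * (s.factorial * H ^ (s + a + b) *
      (Cs ^ 2 * (a * b) * (s.factorial * H ^ (s + a + b)))) ≤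
      (256 * U) ^ s * ((N : ℝ) ^ 8) ^ s := by
    have e1 : Cs ^ 2 ≤ (Cs ^ 2) ^ s := le_self_pow₀ (one_le_pow₀ hCs) (by omega)
    have e2 : H ^ (s + a + b) ≤ H ^ ((2 * m + 2) * s) := pow_le_pow_right₀ hH hexp1
    calc ((a : ℝ) * b) * (s.factorial * H ^ (s + a + b) *
        (Cs ^ 2 * (a * b) * (s.factorial * H ^ (s + a + b)))) =
        Cs ^ 2 * ((a : ℝ) * b) ^ 2 * (s.factorial : ℝ) ^ 2 * (H ^ (s + a + b)) ^ 2 := by ring
      _ ≤ (Cs ^ 2) ^ s * ((4 * (m : ℝ) ^ 2) ^ s * 4 ^ s) * ((16 * (N : ℝ) ^ 4) ^ s) ^ 2 *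
          (H ^ ((2 * m + 2) * s)) ^ 2 := by gcongr
      _ = (256 * U) ^ s * ((N : ℝ) ^ 8) ^ s := by
        have e3 : (H ^ ((2 * m + 2) * s)) ^ 2 = (H ^ (4 * m + 4)) ^ s := by
          rw [← pow_mul, ← pow_mul]; congr 1; ring
        have e4 : ((16 * (N : ℝ) ^ 4) ^ s) ^ 2 = 256 ^ s * ((N : ℝ) ^ 8) ^ s := by
          rw [← pow_mul, mul_comm s 2, pow_mul, ← mul_pow]; congr 1; ring
        rw [e3, e4, hU, mul_pow, mul_pow, mul_pow, mul_pow]; ring
  have hAN : 1 ≤ A * N := by nlinarith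
  have hNpos : (0 : ℝ) < N := by linarith
  have hbr0 : 0 ≤ ((a : ℝ) * b) * (s.factorial * H ^ (s + a + b) *
      (Cs ^ 2 * (a * b) * (s.factorial * H ^ (s + a + b)))) := by positivity
  have h2 : (1 : ℝ) ≤ (W / N) ^ s := by
    calc (1 : ℝ) ≤ _ := h1
      _ ≤ ((256 * U) ^ s * ((N : ℝ) ^ 8) ^ s) ^ D * ((A * N) ^ (19 * s) * (A / N) ^ (m * s)) := by
        have e1 : (A * N) ^ (a + 18 * N ^ 2 * b) ≤ (A * N) ^ (19 * s) :=
          pow_le_pow_right₀ hAN hexp2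
        gcongr
      _ = (((256 * U) ^ D * A ^ (19 + m)) * ((N : ℝ) ^ (8 * D + 19) / N ^ m)) ^ s := by
        have e1 : ((256 * U) ^ s * ((N : ℝ) ^ 8) ^ s) ^ D = ((256 * U) ^ D * (N : ℝ) ^ (8 * D)) ^ s := by
          generalize 256 * U = X
          have f1 : (X ^ s) ^ D = (X ^ D) ^ s := by
            rw [← pow_mul, ← pow_mul, mul_comm s D]
          have f2 : (((N : ℝ) ^ 8) ^ s) ^ D = ((N : ℝ) ^ (8 * D)) ^ s := by
            rw [← pow_mul, ← pow_mul, ← pow_mul]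
            congr 1; ring
          rw [mul_pow, mul_pow, f1, f2]
        have e2 : (A * N) ^ (19 * s) = (A ^ 19 * (N : ℝ) ^ 19) ^ s := by
          rw [pow_mul, mul_pow]
        have e3 : (A / N) ^ (m * s) = (A ^ m / (N : ℝ) ^ m) ^ s := by
          rw [pow_mul, div_pow]
        rw [e1, e2, e3, ← mul_pow, ← mul_pow]
        congr 1
        rw [pow_add A, pow_add (N : ℝ)]
        ring
      _ = (W / N) ^ s := by
        congr 1
        have e1 : (N : ℝ) ^ m = (N : ℝ) ^ (8 * D + 19) * N := by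
          rw [← pow_succ]; congr 1
        rw [hW, e1]
        have : (N : ℝ) ^ (8 * D + 19) ≠ 0 := by positivity
        field_simp
  have h3 : (W / N) ^ s < 1 := by
    apply pow_lt_one₀ (by positivity) _ (by omega)
    rw [div_lt_one hNpos]
    exact hWN
  linarith

/-- The half period cannot lie in a number field. -/
theorem core (hA : SchwarzStmt) (σ : K →+* ℂ) {L : PeriodPair} {ω : ℂ} (hω : ω ∈ L.lattice)
    (h2 : ω / 2 ∉ L.lattice) {h : K} {P : ℕ → K} {Q : ℕ → ℕ → K} (R : Rec h P Q)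
    (hQ : ∀ b n, σ (Q b n) = Pw L ω b n) {w : K} (hw : σ w = ω / 2) : False := by
  classical
  obtain ⟨Cs, hCs1, hCs⟩ := GS.exists_siegel K
  obtain ⟨D, hDdef⟩ : ∃ D, D = Module.finrank ℚ K := ⟨_, rfl⟩
  have hD1 : 1 ≤ D := by rw [hDdef]; exact Module.finrank_pos
  obtain ⟨m, hm⟩ : ∃ m, m = 8 * D + 20 := ⟨_, rfl⟩
  have hm1 : 0 < m := by omega
  obtain ⟨A, hA1, hSch⟩ := hA L ω hω h2 m hm1
  -- denominators
  obtain ⟨d, hd0, hd⟩ := exists_integral_multiples ℤ ℚ ({P 0, h, w} : Finset K)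
  have hd' : ∀ x ∈ ({P 0, h, w} : Finset K), IsIntegral ℤ ((d : K) * x) := by
    intro x hx
    have := hd x hx
    rwa [zsmul_eq_mul] at this
  have hdP : IsIntegral ℤ ((d : K) * P 0) := hd' _ (by simp)
  have hdh : IsIntegral ℤ ((d : K) * h) := hd' _ (by simp)
  have hdw : IsIntegral ℤ ((d : K) * w) := hd' _ (by simp)
  obtain ⟨v, hv⟩ : ∃ v : ℕ → K, v = fun j => ((2 * j + 1 : ℕ) : K) * w := ⟨_, rfl⟩
  have hdv : ∀ j, IsIntegral ℤ ((d : K) * v j) := by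
    intro j
    have e : (d : K) * v j = ((2 * j + 1 : ℕ) : K) * (d * w) := by rw [hv]; ring
    rw [e]
    exact (isIntegral_natCast _).mul hdw
  have hσv : ∀ j, σ (v j) = pt ω j := by
    intro j
    rw [hv, pt]
    simp only [map_mul, map_natCast, hw]
    push_cast
    ring
  -- constants
  obtain ⟨C, hC⟩ : ∃ C, C = 6 + house h + house (P 0) := ⟨_, rfl⟩
  have hC1 : 1 ≤ C := by
    have e1 := house_nonneg h
    have e2 := house_nonneg (P 0)
    linarith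
  obtain ⟨V, hV⟩ : ∃ V, V = 1 + ∑ j ∈ range m, house (v j) := ⟨_, rfl⟩
  have hV1 : 1 ≤ V := by
    have : 0 ≤ ∑ j ∈ range m, house (v j) := sum_nonneg fun _ _ => house_nonneg _
    linarith
  have hVj : ∀ j < m, house (v j) ≤ V := by
    intro j hj
    have : house (v j) ≤ ∑ j ∈ range m, house (v j) :=
      single_le_sum (f := fun j => house (v j)) (fun _ _ => house_nonneg _) (mem_range.2 hj)
    linarith
  have hd1 : (1 : ℝ) ≤ |(d : ℝ)| := by exact_mod_cast Int.one_le_abs hd0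
  obtain ⟨H, hH⟩ : ∃ H, H = |(d : ℝ)| * (4 * C * V) := ⟨_, rfl⟩
  have h4CV : 1 ≤ 4 * C * V := by nlinarith
  have hH1 : 1 ≤ H := by rw [hH]; exact one_le_mul_of_one_le_of_one_le hd1 h4CV
  have hdH : |(d : ℝ)| ≤ H := by rw [hH]; exact le_mul_of_one_le_right (abs_nonneg _) h4CV
  obtain ⟨W, hW⟩ : ∃ W, W = (256 * (Cs ^ 2 * (4 * (m : ℝ) ^ 2) * 4 *
      H ^ (4 * m + 4))) ^ D * A ^ (19 + m) := ⟨_, rfl⟩
  -- parameters
  obtain ⟨r, hr⟩ := exists_nat_gt (W + A + 2 * m)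
  have hW0 : 0 ≤ W := by rw [hW]; positivity
  have hrm : 2 * m ≤ r := by
    have : (2 * m : ℝ) < r := by linarith
    exact_mod_cast this.le
  obtain ⟨n, hn⟩ : ∃ n, n = r ^ 2 := ⟨_, rfl⟩
  have hnm : 2 * m ≤ n := by
    rw [hn]; exact hrm.trans (Nat.le_self_pow (by norm_num) r)
  have hn1 : 1 ≤ n := by omega
  obtain ⟨a, ha⟩ : ∃ a, a = 2 * m * n := ⟨_, rfl⟩
  obtain ⟨b, hb⟩ : ∃ b, b = n := ⟨_, rfl⟩
  obtain ⟨T, hT⟩ : ∃ T, T = n ^ 2 := ⟨_, rfl⟩
  have hT1 : 1 ≤ T := by rw [hT]; exact Nat.one_le_pow _ _ hn1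
  -- the integral entries
  have hent : ∀ (t j i k : ℕ), ∃ y : 𝓞 K, algebraMap (𝓞 K) K y =
      (d : K) ^ (t + i + k) * E v Q j t i k := fun t j i k =>
    exists_ringOfInteger (isIntegral_E R hdP hdh hdv j le_rfl)
  have hent' : ∀ (S t j i k : ℕ), t ≤ S → i < a → k < b → ∃ y : 𝓞 K, algebraMap (𝓞 K) K y =
      (d : K) ^ (S + a + b) * E v Q j t i k := fun S t j i k h1 h2 h3 =>
    exists_ringOfInteger (isIntegral_E R hdP hdh hdv j (by omega))
  have hhouse : ∀ (S t j i k : ℕ), t ≤ S → i < a → k < b → j < m →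
      house ((d : K) ^ (S + a + b) * E v Q j t i k) ≤ t.factorial * H ^ (S + a + b) := by
    intro S t j i k h1 h2 h3 h4
    have e1 : house ((d : K) ^ (S + a + b)) ≤ |(d : ℝ)| ^ (S + a + b) := by
      refine GS.house_pow_le_pow ?_ _
      rw [house_intCast]; push_cast; exact le_rfl
    have e2 := GS.house_mul_le_mul e1 (house_E_le R hC.ge hV1 (hVj j h4)
      (t := t) (i := i) (k := k) (D := S + a + b) (by omega))
    refine e2.trans (le_of_eq ?_)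
    rw [hH, mul_pow]; ring
  choose! y hy using hent'
  obtain ⟨ξ, hξ0, hξ, hξB⟩ := hCs (Fin m × Fin T) (Fin a × Fin b) (m * T)
    (Nat.mul_pos hm1 hT1) (by simp) (by simp [ha, hb, hT]; ring)
    (fun e p => y T e.2 e.1 p.1 p.2) (T.factorial * H ^ (T + a + b))
    (one_le_mul_of_one_le_of_one_le (by exact_mod_cast Nat.succ_le_of_lt (Nat.factorial_pos T))
      (one_le_pow₀ hH1))
    (fun e p => by
      have h1 := hy T e.2 e.1 p.1 p.2 e.2.2.le p.1.2 p.2.2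
      change house (algebraMap (𝓞 K) K (y T e.2 e.1 p.1 p.2)) ≤ _
      rw [h1]
      refine (hhouse T e.2 e.1 p.1 p.2 e.2.2.le p.1.2 p.2.2 e.1.2).trans ?_
      have : ((e.2 : ℕ).factorial : ℝ) ≤ T.factorial := by
        exact_mod_cast Nat.factorial_le e.2.2.le
      gcongr)
  obtain ⟨B, hB⟩ : ∃ B, B = Cs ^ 2 * (2 * ((m * T : ℕ) : ℝ)) * (T.factorial * H ^ (T + a + b)) :=
    ⟨_, rfl⟩
  rw [← hB] at hξB
  obtain ⟨g, hg⟩ : ∃ g : Fin a × Fin b → ℂ, g = fun p => σ (ξ p : K) := ⟨_, rfl⟩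
  have hgB : ∀ p, ‖g p‖ ≤ B := fun p => by
    rw [hg]; exact (norm_embedding_le_house _ σ).trans (hξB p)
  have hg0 : g ≠ 0 := by
    intro h0
    apply hξ0
    funext p
    have h1 : σ (ξ p : K) = 0 := by
      have := congrFun h0 p
      rwa [hg] at this
    have h3 : (ξ p : K) = 0 := (map_eq_zero_iff σ σ.injective).1 h1
    exact_mod_cast h3
  -- the values of the derivatives
  have hval : ∀ j t, iteratedDeriv t (fn L g) (pt ω j) =
      σ (∑ p : Fin a × Fin b, (ξ p : K) * E v Q j t p.1 p.2) := by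
    intro j t
    rw [iteratedDeriv_fn hω h2, map_sum]
    refine sum_congr rfl fun p _ => ?_
    rw [map_mul, hg, E, map_sum]
    congr 1
    refine sum_congr rfl fun r _ => ?_
    rw [map_mul, map_mul, map_mul, map_natCast, map_natCast, map_pow, hσv, hQ]
  have hd0' : (d : ℂ) ≠ 0 := by exact_mod_cast hd0
  have hvan : ∀ j < m, ∀ t < T, iteratedDeriv t (fn L g) (pt ω j) = 0 := by
    intro j hj t ht
    have h1 := hξ (⟨j, hj⟩, ⟨t, ht⟩)
    have h3 : (d : K) ^ (T + a + b) * ∑ p : Fin a × Fin b, (ξ p : K) * E v Q j t p.1 p.2 = 0 := by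
      have h4 := congrArg (algebraMap (𝓞 K) K) h1
      rw [map_sum, map_zero] at h4
      rw [← h4, mul_sum]
      refine sum_congr rfl fun p _ => ?_
      rw [map_mul, hy T t j p.1 p.2 ht.le p.1.2 p.2.2]
      change _ = _ * (ξ p : K)
      ring
    have h5 := (mul_eq_zero.1 h3).resolve_left (pow_ne_zero _ (by exact_mod_cast hd0))
    rw [hval, h5, map_zero]
  -- the first non-vanishing derivative
  have hex : ∃ s, ∃ j < m, iteratedDeriv s (fn L g) (pt ω j) ≠ 0 := by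
    obtain ⟨s, hs⟩ := exists_ne_zero hω h2 hg0 0
    exact ⟨s, 0, hm1, hs⟩
  obtain ⟨j, hj, hne⟩ := Nat.find_spec hex
  have hmin : ∀ j < m, ∀ t < Nat.find hex, iteratedDeriv t (fn L g) (pt ω j) = 0 := by
    intro j hj t ht
    by_contra h
    exact Nat.find_min hex ht ⟨j, hj, h⟩
  have hTs : T ≤ Nat.find hex := by
    by_contra hlt
    push Not at hlt
    exact hne (hvan j hj _ hlt)
  obtain ⟨s, hs⟩ : ∃ s, s = Nat.find hex := ⟨_, rfl⟩
  rw [← hs] at hne hmin hTs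
  obtain ⟨N, hN⟩ : ∃ N, N = Nat.sqrt (Nat.sqrt s) := ⟨_, rfl⟩
  have hrN : r ≤ N := by
    rw [hN, Nat.le_sqrt', Nat.le_sqrt', ← hn, ← hT]
    exact hTs
  have hrN' : (r : ℝ) ≤ N := by exact_mod_cast hrN
  have hAN : A ≤ N := by
    have : (0 : ℝ) ≤ m := Nat.cast_nonneg m
    linarith
  have hWN : W < N := by
    have : (0 : ℝ) ≤ m := Nat.cast_nonneg m
    linarith
  have hbound := hSch N a b s g B hAN hgB hmin j hj
  -- the algebraic integer
  obtain ⟨η, hη⟩ : ∃ η : 𝓞 K, η = ∑ p : Fin a × Fin b, y s s j p.1 p.2 * ξ p := ⟨_, rfl⟩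
  have hηK : algebraMap (𝓞 K) K η = (d : K) ^ (s + a + b) *
      ∑ p : Fin a × Fin b, (ξ p : K) * E v Q j s p.1 p.2 := by
    rw [hη, map_sum, mul_sum]
    refine sum_congr rfl fun p _ => ?_
    rw [map_mul, hy s s j p.1 p.2 le_rfl p.1.2 p.2.2]
    change _ * (ξ p : K) = _
    ring
  have hση : σ (algebraMap (𝓞 K) K η) = (d : ℂ) ^ (s + a + b) *
      iteratedDeriv s (fn L g) (pt ω j) := by
    rw [hηK, map_mul, map_pow, map_intCast, hval]
  have hη0 : η ≠ 0 := by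
    intro h0
    rw [h0, map_zero, map_zero] at hση
    exact mul_ne_zero (pow_ne_zero _ hd0') hne hση.symm
  have hB0 : 0 ≤ B := by rw [hB]; positivity
  have hab : (2 * ((m * T : ℕ) : ℝ)) = (a : ℝ) * b := by
    rw [ha, hb, hT]; push_cast; ring
  have hBle : B ≤ Cs ^ 2 * ((a : ℝ) * b) * (s.factorial * H ^ (s + a + b)) := by
    rw [hB, hab]
    have e1 : (T.factorial : ℝ) ≤ s.factorial := by exact_mod_cast Nat.factorial_le hTs
    have e2 : H ^ (T + a + b) ≤ H ^ (s + a + b) := pow_le_pow_right₀ hH1 (by omega)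
    gcongr
  obtain ⟨M, hM⟩ : ∃ M : ℝ, M = ((a : ℝ) * b) * (s.factorial * H ^ (s + a + b) * B) := ⟨_, rfl⟩
  have hM0 : 0 ≤ M := by rw [hM]; positivity
  have hhouseη : house (algebraMap (𝓞 K) K η) ≤ M := by
    rw [hη, map_sum, hM]
    refine (GS.house_sum_le _ _ (X := s.factorial * H ^ (s + a + b) * B) fun p _ => ?_).trans ?_
    · rw [map_mul, hy s s j p.1 p.2 le_rfl p.1.2 p.2.2]
      exact GS.house_mul_le_mul (hhouse s s j p.1 p.2 le_rfl p.1.2 p.2.2 hj) (hξB p)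
    · rw [card_univ, Fintype.card_prod, Fintype.card_fin, Fintype.card_fin]
      push_cast
      exact le_rfl
  have hAN0 : 0 ≤ (A * N) ^ (a + 18 * N ^ 2 * b) * (A / N) ^ (m * s) := by positivity
  have hσle : ‖σ (algebraMap (𝓞 K) K η)‖ ≤ M * ((A * N) ^ (a + 18 * N ^ 2 * b) *
      (A / N) ^ (m * s)) := by
    rw [hση, norm_mul, norm_pow, Complex.norm_intCast, hM]
    calc |(d : ℝ)| ^ (s + a + b) * ‖iteratedDeriv s (fn L g) (pt ω j)‖ ≤
        H ^ (s + a + b) * (s.factorial * (a * b * B) * (A * N) ^ (a + 18 * N ^ 2 * b) *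
          (A / N) ^ (m * s)) :=
          mul_le_mul (pow_le_pow_left₀ (abs_nonneg _) hdH _) hbound (norm_nonneg _)
            (by positivity)
      _ = _ := by ring
  have hnorm := GS.one_le_norm_mul hη0 σ
  have h1 : (1 : ℝ) ≤ M ^ D * ((A * N) ^ (a + 18 * N ^ 2 * b) * (A / N) ^ (m * s)) := by
    calc (1 : ℝ) ≤ ‖σ (algebraMap (𝓞 K) K η)‖ * house (algebraMap (𝓞 K) K η) ^ (D - 1) := by
          rw [hDdef]; exact hnorm
      _ ≤ (M * ((A * N) ^ (a + 18 * N ^ 2 * b) * (A / N) ^ (m * s))) * M ^ (D - 1) :=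
          mul_le_mul hσle (pow_le_pow_left₀ (house_nonneg _) hhouseη _)
            (pow_nonneg (house_nonneg _) _) (by positivity)
      _ = M ^ (D - 1 + 1) * ((A * N) ^ (a + 18 * N ^ 2 * b) * (A / N) ^ (m * s)) := by
          rw [pow_succ]; ring
      _ = M ^ D * ((A * N) ^ (a + 18 * N ^ 2 * b) * (A / N) ^ (m * s)) := by
          rw [Nat.sub_add_cancel hD1]
  have hMle : M ≤ (a * b) * (s.factorial * H ^ (s + a + b) *
      (Cs ^ 2 * (a * b) * (s.factorial * H ^ (s + a + b)))) := by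
    rw [hM]
    gcongr
  refine numeric hm hCs1 hH1 hA1 hW ha hb hnm (by rw [← hT]; exact hTs) hN hWN
    (h1.trans ?_)
  exact mul_le_mul_of_nonneg_right (pow_le_pow_left₀ hM0 hMle _) hAN0

end Fermat.Agent.Cor.Sch
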