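/-
Schneider's theorem: the periods of elliptic curves (helper85).
-/
import Fermat.Agent.Corollaries.Sch.Core

/-!
# Schneider's theorem on the periods of elliptic curves

`schneiderStmt_of : SchwarzStmt → SchneiderStmt`.
-/

set_option autoImplicit false

open Finset

namespace Fermat.Agent.Cor.Sch

/-- Every non-zero period is a power of two times a period whose half is not a period. -/
theorem exists_half (L : PeriodPair) (n : ℕ) : ∀ x : L.lattice, x ≠ 0 →
    ((L.latticeBasis.repr x 0).natAbs + (L.latticeBasis.repr x 1).natAbs = n) →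
    ∃ k : ℕ, (x : ℂ) / 2 ^ k ∈ L.lattice ∧ (x : ℂ) / 2 ^ k / 2 ∉ L.lattice := by
  induction n using Nat.strong_induction_on with
  | _ n ih =>
    intro x hx hn
    by_cases h : (x : ℂ) / 2 ∈ L.lattice
    · set y : L.lattice := ⟨(x : ℂ) / 2, h⟩ with hy
      have hxy : x = (2 : ℤ) • y := by
        apply Subtype.ext
        rw [hy]
        push_cast
        rw [zsmul_eq_mul]
        push_cast
        ring
      have hy0 : y ≠ 0 := by
        intro h0
        apply hx
        rw [hxy, h0, smul_zero]
      have hrep : ∀ i, L.latticeBasis.repr x i = 2 * L.latticeBasis.repr y i := by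
        intro i
        rw [hxy, map_smul, Finsupp.smul_apply, smul_eq_mul]
      have hpos : 0 < (L.latticeBasis.repr y 0).natAbs + (L.latticeBasis.repr y 1).natAbs := by
        rw [Nat.pos_iff_ne_zero]
        intro h0
        apply hy0
        have e0 : L.latticeBasis.repr y 0 = 0 := by omega
        have e1 : L.latticeBasis.repr y 1 = 0 := by omega
        have e2 : L.latticeBasis.repr y = 0 := by
          ext i
          fin_cases i
          · exact e0
          · exact e1
        exact (LinearEquiv.map_eq_zero_iff _).1 e2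
      obtain ⟨k, hk1, hk2⟩ := ih _ (by
        rw [hrep 0, hrep 1, Int.natAbs_mul, Int.natAbs_mul] at hn
        have e2 : (2 : ℤ).natAbs = 2 := rfl
        rw [e2] at hn
        omega) y hy0 rfl
      have e : (y : ℂ) / 2 ^ k = (x : ℂ) / 2 ^ (k + 1) := by
        rw [hy, pow_succ']
        field_simp
      rw [e] at hk1 hk2
      exact ⟨k + 1, hk1, hk2⟩
    · exact ⟨0, by simp, by simpa using h⟩

/-- A root of `4 x³ - g x - h` with algebraic `g`, `h` is algebraic. -/
theorem isAlgebraic_of_cubic {x g h : ℂ} (hg : IsAlgebraic ℚ g) (hh : IsAlgebraic ℚ h)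
    (hx : 4 * x ^ 3 - g * x - h = 0) : IsAlgebraic ℚ x := by
  have h1 : IsAlgebraic (algebraicClosure ℚ ℂ) x := by
    refine ⟨Polynomial.C 4 * Polynomial.X ^ 3 -
      Polynomial.C (⟨g, mem_algebraicClosure_iff.2 hg⟩ : algebraicClosure ℚ ℂ) * Polynomial.X -
      Polynomial.C (⟨h, mem_algebraicClosure_iff.2 hh⟩ : algebraicClosure ℚ ℂ), ?_, ?_⟩
    · intro h0
      have h2 := congrArg (fun p => Polynomial.coeff p 3) h0
      simp only [Polynomial.coeff_sub, Polynomial.coeff_C_mul, Polynomial.coeff_X_pow,
        Polynomial.coeff_X, Polynomial.coeff_C, Polynomial.coeff_zero] at h2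
      norm_num at h2
    · simp only [map_sub, map_mul, map_pow, Polynomial.aeval_C, Polynomial.aeval_X]
      exact hx
  have h3 : Algebra.IsAlgebraic ℚ (algebraicClosure ℚ ℂ) := algebraicClosure.isAlgebraic ℚ ℂ
  exact h1.restrictScalars ℚ

/-- The case of a period whose half is not a period. -/
theorem transcendental_of_half (hA : SchwarzStmt) {L : PeriodPair} (hg₂ : IsAlgebraic ℚ L.g₂)
    (hg₃ : IsAlgebraic ℚ L.g₃) {ω : ℂ} (hω : ω ∈ L.lattice) (h2 : ω / 2 ∉ L.lattice) :
    Transcendental ℚ ω := by
  classical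
  intro halg
  have h2alg : IsAlgebraic ℚ (2 : ℂ) := by
    exact_mod_cast isAlgebraic_natCast (R := ℚ) (A := ℂ) 2
  have he : IsAlgebraic ℚ (P L ω 0) := isAlgebraic_of_cubic hg₂ hg₃ (P_zero_eq hω h2)
  have hw : IsAlgebraic ℚ (ω / 2) := by
    rw [div_eq_mul_inv]; exact halg.mul h2alg.inv
  have hh : IsAlgebraic ℚ (L.g₂ / 2) := by
    rw [div_eq_mul_inv]; exact hg₂.mul h2alg.inv
  obtain ⟨S, hS⟩ : ∃ S : Set ℂ, S = {ω / 2, L.g₂ / 2, P L ω 0} := ⟨_, rfl⟩
  have hfin : Finite S := by rw [hS]; exact Set.toFinite _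
  have hfd : FiniteDimensional ℚ (IntermediateField.adjoin ℚ S) := by
    apply IntermediateField.finiteDimensional_adjoin
    intro x hx
    rw [hS] at hx
    rcases hx with rfl | rfl | rfl
    · exact hw.isIntegral
    · exact hh.isIntegral
    · exact he.isIntegral
  have hnf : NumberField (IntermediateField.adjoin ℚ S) := ⟨⟩
  have hwS : ω / 2 ∈ IntermediateField.adjoin ℚ S :=
    IntermediateField.subset_adjoin _ _ (by rw [hS]; simp)
  have hhS : L.g₂ / 2 ∈ IntermediateField.adjoin ℚ S :=
    IntermediateField.subset_adjoin _ _ (by rw [hS]; simp)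
  have heS : P L ω 0 ∈ IntermediateField.adjoin ℚ S :=
    IntermediateField.subset_adjoin _ _ (by rw [hS]; simp)
  have hP : ∀ n, P L ω n ∈ IntermediateField.adjoin ℚ S := by
    intro n
    induction n using Nat.strong_induction_on with
    | _ n ih =>
      rcases n with _ | _ | n
      · exact heS
      · rw [zero_add, P_one hω]; exact zero_mem _
      · rw [P_succ_succ h2]
        refine sub_mem (mul_mem (ofNat_mem _ 6) (sum_mem fun k hk => ?_)) ?_
        · have hk' : k ≤ n := Nat.lt_succ_iff.1 (mem_range.1 hk)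
          exact mul_mem (mul_mem (natCast_mem _ _) (ih k (by omega))) (ih (n - k) (by omega))
        · split_ifs
          · exact hhS
          · exact zero_mem _
  have hQ : ∀ b n, Pw L ω b n ∈ IntermediateField.adjoin ℚ S := by
    intro b
    induction b with
    | zero =>
      intro n
      rw [Pw_zero]
      split_ifs
      · exact one_mem _
      · exact zero_mem _
    | succ b ih =>
      intro n
      rw [Pw_succ h2]
      exact sum_mem fun k _ => mul_mem (mul_mem (natCast_mem _ _) (ih k)) (hP _)
  have hrec : Rec (K := IntermediateField.adjoin ℚ S) ⟨L.g₂ / 2, hhS⟩ (fun n => ⟨P L ω n, hP n⟩)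
      (fun b n => ⟨Pw L ω b n, hQ b n⟩) := by
    refine ⟨Subtype.ext (P_one hω), fun n => ?_, fun n => ?_, fun b n => ?_⟩
    · apply (algebraMap (IntermediateField.adjoin ℚ S) ℂ).injective
      rw [map_sub, map_mul, map_sum]
      simp only [map_mul, map_natCast, map_ofNat, apply_ite
        (algebraMap (IntermediateField.adjoin ℚ S) ℂ), map_zero]
      exact P_succ_succ h2 n
    · apply (algebraMap (IntermediateField.adjoin ℚ S) ℂ).injective
      simp only [apply_ite (algebraMap (IntermediateField.adjoin ℚ S) ℂ), map_zero, map_one]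
      exact Pw_zero n
    · apply (algebraMap (IntermediateField.adjoin ℚ S) ℂ).injective
      rw [map_sum]
      simp only [map_mul, map_natCast]
      exact Pw_succ h2 b n
  exact core hA (algebraMap (IntermediateField.adjoin ℚ S) ℂ) hω h2 hrec (fun b n => rfl)
    (w := ⟨ω / 2, hwS⟩) rfl

/-- **Schneider's theorem** from the lemma of Schwarz. -/
theorem schneiderStmt_of (hA : SchwarzStmt) : SchneiderStmt := by
  intro L hg₂ hg₃ ω hω hω0 halg
  obtain ⟨k, hk1, hk2⟩ := exists_half L _ ⟨ω, hω⟩ (fun h => hω0 (congrArg Subtype.val h)) rfl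
  refine transcendental_of_half hA hg₂ hg₃ hk1 hk2 ?_
  have h2alg : IsAlgebraic ℚ (2 : ℂ) := by
    exact_mod_cast isAlgebraic_natCast (R := ℚ) (A := ℂ) 2
  change IsAlgebraic ℚ (ω / 2 ^ k)
  rw [div_eq_mul_inv]
  exact halg.mul (h2alg.pow k).inv

end Fermat.Agent.Cor.Sch
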