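import Fermat.Agent.Corollaries.Sch.Defs

/-!
# Schwarz's lemma for polynomials in `z` and `℘`
-/

set_option autoImplicit false

open Finset Filter Topology

namespace Fermat.Agent.Cor.Sch

namespace Schwarz

/-! ### Zeros of holomorphic functions on an open set -/

theorem exists_factor_one {V : Set ℂ} (hV : IsOpen V) {g : ℂ → ℂ} (hg : DifferentiableOn ℂ g V)
    {b : ℂ} (hb : b ∈ V) {r : ℕ} (h : (r : ℕ∞) ≤ analyticOrderAt g b) :
    ∃ G : ℂ → ℂ, DifferentiableOn ℂ G V ∧ ∀ z, g z = (z - b) ^ r * G z := by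
  classical
  obtain ⟨g₀, hg₀, hev⟩ := (natCast_le_analyticOrderAt (hg.analyticAt (hV.mem_nhds hb))).mp h
  refine ⟨fun z => if z = b then g₀ b else g z / (z - b) ^ r, ?_, ?_⟩
  · intro z hzV
    refine DifferentiableAt.differentiableWithinAt ?_
    by_cases hz : z = b
    · subst hz
      refine hg₀.differentiableAt.congr_of_eventuallyEq ?_
      filter_upwards [hev] with w hw
      by_cases hwb : w = z
      · simp [hwb]
      · rw [if_neg hwb, hw, smul_eq_mul, mul_div_cancel_left₀]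
        exact pow_ne_zero _ (sub_ne_zero.mpr hwb)
    · have h1 : DifferentiableAt ℂ (fun w => g w / (w - b) ^ r) z :=
        (hg.differentiableAt (hV.mem_nhds hzV)).div ((differentiableAt_id.sub_const b).pow r)
          (pow_ne_zero _ (sub_ne_zero.mpr hz))
      refine h1.congr_of_eventuallyEq ?_
      filter_upwards [isOpen_ne.mem_nhds hz] with w hw
      rw [if_neg hw]
  · intro z
    by_cases hz : z = b
    · subst hz
      have h1 := hev.self_of_nhds
      rw [smul_eq_mul] at h1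
      show g z = (z - z) ^ r * (if z = z then g₀ z else g z / (z - z) ^ r)
      rw [if_pos rfl]
      exact h1
    · show g z = (z - b) ^ r * (if z = b then g₀ b else g z / (z - b) ^ r)
      rw [if_neg hz, mul_div_cancel₀]
      exact pow_ne_zero _ (sub_ne_zero.mpr hz)

theorem exists_factor {V : Set ℂ} (hV : IsOpen V) {f : ℂ → ℂ} (hf : DifferentiableOn ℂ f V)
    {r : ℕ} {w : ℕ → ℂ} (hw : Function.Injective w) (S : Finset ℕ) (hwV : ∀ j ∈ S, w j ∈ V)
    (h : ∀ j ∈ S, (r : ℕ∞) ≤ analyticOrderAt f (w j)) :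
    ∃ G : ℂ → ℂ, DifferentiableOn ℂ G V ∧ ∀ z, f z = (∏ j ∈ S, (z - w j) ^ r) * G z := by
  classical
  induction S using Finset.induction_on with
  | empty => exact ⟨f, hf, fun z => by simp⟩
  | insert b S hb ih =>
    obtain ⟨G₁, hG₁, hfG⟩ := ih (fun j hj => hwV j (mem_insert_of_mem hj))
      fun j hj => h j (mem_insert_of_mem hj)
    have hbV := hwV b (mem_insert_self _ _)
    have h1 : (r : ℕ∞) ≤ analyticOrderAt G₁ (w b) := by
      have h2 := h b (mem_insert_self _ _)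
      have h3 : f = (fun z => ∏ j ∈ S, (z - w j) ^ r) * G₁ := funext hfG
      have hd : Differentiable ℂ fun z : ℂ => ∏ j ∈ S, (z - w j) ^ r := by
        fun_prop
      rw [h3, analyticOrderAt_mul (hd.analyticAt _) (hG₁.analyticAt (hV.mem_nhds hbV))] at h2
      have h4 : analyticOrderAt (fun z : ℂ => ∏ j ∈ S, (z - w j) ^ r) (w b) = 0 := by
        rw [(hd.analyticAt _).analyticOrderAt_eq_zero]
        rw [prod_ne_zero_iff]
        intro j hj
        refine pow_ne_zero _ (sub_ne_zero.mpr ?_)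
        intro hbj
        apply hb
        rw [hw hbj]
        exact hj
      rwa [h4, zero_add] at h2
    obtain ⟨G, hG, hG'⟩ := exists_factor_one hV hG₁ hbV h1
    refine ⟨G, hG, fun z => ?_⟩
    rw [hfG, hG', prod_insert hb]
    ring

/-! ### Coordinates -/

variable (L : PeriodPair)

/-- the first coordinate -/
noncomputable def cX : ℂ →ₗ[ℝ] ℝ := L.basis.coord 0

/-- the second coordinate -/
noncomputable def cY : ℂ →ₗ[ℝ] ℝ := L.basis.coord 1

/-- the maximum of the coordinates -/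
noncomputable def nm (z : ℂ) : ℝ := max |cX L z| |cY L z|

theorem continuous_nm : Continuous (nm L) := by
  have h1 : Continuous (cX L) := LinearMap.continuous_of_finiteDimensional _
  have h2 : Continuous (cY L) := LinearMap.continuous_of_finiteDimensional _
  exact h1.abs.max h2.abs

theorem eq_comb (z : ℂ) : z = cX L z * L.ω₁ + cY L z * L.ω₂ := by
  have h := L.basis.sum_repr z
  rw [Fin.sum_univ_two] at h
  simpa [cX, cY] using h.symm

theorem cX_comb (x y : ℝ) : cX L (x * L.ω₁ + y * L.ω₂) = x := by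
  have h1 : (x : ℂ) * L.ω₁ + y * L.ω₂ = x • L.basis 0 + y • L.basis 1 := by simp
  rw [h1, map_add, map_smul, map_smul, cX, Module.Basis.coord_apply, Module.Basis.coord_apply,
    Module.Basis.repr_self, Module.Basis.repr_self]
  simp

theorem cY_comb (x y : ℝ) : cY L (x * L.ω₁ + y * L.ω₂) = y := by
  have h1 : (x : ℂ) * L.ω₁ + y * L.ω₂ = x • L.basis 0 + y • L.basis 1 := by simp
  rw [h1, map_add, map_smul, map_smul, cY, Module.Basis.coord_apply, Module.Basis.coord_apply,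
    Module.Basis.repr_self, Module.Basis.repr_self]
  simp

theorem nm_comb (x y : ℝ) : nm L (x * L.ω₁ + y * L.ω₂) = max |x| |y| := by
  rw [nm, cX_comb, cY_comb]

theorem norm_le_nm (z : ℂ) : ‖z‖ ≤ nm L z * (‖L.ω₁‖ + ‖L.ω₂‖) := by
  conv_lhs => rw [eq_comb L z]
  refine (norm_add_le _ _).trans ?_
  rw [norm_mul, norm_mul, Complex.norm_real, Complex.norm_real, mul_add]
  exact add_le_add (mul_le_mul_of_nonneg_right (le_max_left _ _) (norm_nonneg _))
    (mul_le_mul_of_nonneg_right (le_max_right _ _) (norm_nonneg _))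

theorem exists_nm_le : ∃ C : ℝ, 1 ≤ C ∧ ∀ z, nm L z ≤ C * ‖z‖ := by
  refine ⟨1 + ‖(cX L).toContinuousLinearMap‖ + ‖(cY L).toContinuousLinearMap‖, ?_, fun z => ?_⟩
  · have := norm_nonneg (cX L).toContinuousLinearMap
    have := norm_nonneg (cY L).toContinuousLinearMap
    linarith
  · have h1 := (cX L).toContinuousLinearMap.le_opNorm z
    have h2 := (cY L).toContinuousLinearMap.le_opNorm z
    rw [LinearMap.coe_toContinuousLinearMap', Real.norm_eq_abs] at h1 h2
    have h3 := norm_nonneg (cX L).toContinuousLinearMap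
    have h4 := norm_nonneg (cY L).toContinuousLinearMap
    have h5 := norm_nonneg z
    have h6 := mul_nonneg h3 h5
    have h7 := mul_nonneg h4 h5
    refine max_le ?_ ?_ <;> nlinarith

/-- the function `℘` is bounded on the boundaries of the parallelograms -/
theorem exists_bound : ∃ M : ℝ, 1 ≤ M ∧ ∀ (N : ℕ) (z : ℂ), nm L z = N + 1 / 2 →
    ‖L.weierstrassP z‖ ≤ M := by
  have hK : IsCompact {z : ℂ | nm L z = 1 / 2} := by
    refine Metric.isCompact_of_isClosed_isBounded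
      (isClosed_eq (continuous_nm L) continuous_const) ?_
    refine (Metric.isBounded_closedBall (x := (0 : ℂ))
      (r := 1 / 2 * (‖L.ω₁‖ + ‖L.ω₂‖))).subset fun z hz => ?_
    rw [mem_closedBall_zero_iff]
    have := norm_le_nm L z
    rwa [Set.mem_ofPred_eq.mp hz] at this
  have hKL : {z : ℂ | nm L z = 1 / 2} ⊆ (L.lattice : Set ℂ)ᶜ := by
    intro z hz hzL
    obtain ⟨a, b, rfl⟩ := PeriodPair.mem_lattice.mp hzL
    have h1 := nm_comb L a b
    rw [Set.mem_ofPred_eq] at hz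
    push_cast at h1
    rw [h1] at hz
    have h2 : ((max |a| |b| : ℤ) : ℝ) = 1 / 2 := by
      push_cast
      exact hz
    have h3 : (2 * max |a| |b| : ℤ) = 1 := by
      have : (2 * ((max |a| |b| : ℤ) : ℝ)) = 1 := by rw [h2]; norm_num
      exact_mod_cast this
    omega
  obtain ⟨M, hM⟩ := hK.exists_bound_of_continuousOn
    (L.differentiableOn_weierstrassP.continuousOn.mono hKL)
  refine ⟨max 1 M, le_max_left _ _, fun N z hz => ?_⟩
  set a : ℤ := round (cX L z) with ha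
  set b : ℤ := round (cY L z) with hb
  have hl : (a : ℂ) * L.ω₁ + b * L.ω₂ ∈ L.lattice := PeriodPair.mem_lattice.mpr ⟨a, b, rfl⟩
  have h1 : L.weierstrassP (z - ((a : ℂ) * L.ω₁ + b * L.ω₂)) = L.weierstrassP z :=
    L.weierstrassP_sub_coe z ⟨_, hl⟩
  rw [← h1]
  refine (hM _ ?_).trans (le_max_right _ _)
  have h2 : z - ((a : ℂ) * L.ω₁ + b * L.ω₂) =
      ((cX L z - a : ℝ) : ℂ) * L.ω₁ + ((cY L z - b : ℝ) : ℂ) * L.ω₂ := by
    conv_lhs => rw [eq_comb L z]
    push_cast
    ring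
  rw [Set.mem_ofPred_eq, h2, nm_comb]
  have h3 : |cX L z - a| ≤ 1 / 2 := abs_sub_round _
  have h4 : |cY L z - b| ≤ 1 / 2 := abs_sub_round _
  have key : ∀ (x : ℝ) (k : ℤ), |x| = N + 1 / 2 → 1 / 2 ≤ |x - k| := by
    intro x k hx
    have h5 : |(|x| - |(k : ℝ)|)| ≤ |x - k| := abs_abs_sub_abs_le _ _
    refine le_trans ?_ h5
    rw [hx]
    have h6 : ((N : ℝ) + 1 / 2 - |(k : ℝ)|) = (((N : ℤ) - |k| : ℤ) : ℝ) + 1 / 2 := by
      push_cast
      ring
    rw [h6]
    rcases le_or_gt 0 ((N : ℤ) - |k|) with h7 | h7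
    · have h8 : (0 : ℝ) ≤ (((N : ℤ) - |k| : ℤ) : ℝ) := by exact_mod_cast h7
      rw [abs_of_nonneg (by linarith)]
      linarith
    · have h8 : (((N : ℤ) - |k| : ℤ) : ℝ) ≤ -1 := by
        have : (N : ℤ) - |k| ≤ -1 := by omega
        exact_mod_cast this
      rw [abs_of_nonpos (by linarith)]
      linarith
  refine le_antisymm (max_le h3 h4) ?_
  rw [nm] at hz
  rcases max_choice |cX L z| |cY L z| with h5 | h5
  · exact (key _ a (h5.symm.trans hz)).trans (le_max_left _ _)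
  · exact (key _ b (h5.symm.trans hz)).trans (le_max_right _ _)

/-! ### Clearing the denominators -/

/-- the lattice points with coordinates of absolute value at most `N` -/
noncomputable def lam (N : ℕ) : Finset ℂ :=
  ((Icc (-(N : ℤ)) N) ×ˢ (Icc (-(N : ℤ)) N)).image fun p => (p.1 : ℂ) * L.ω₁ + p.2 * L.ω₂

theorem card_lam_le (N : ℕ) : #(lam L N) ≤ (2 * N + 1) ^ 2 := by
  refine card_image_le.trans ?_
  rw [card_product, Int.card_Icc]
  have : ((N : ℤ) + 1 - -(N : ℤ)).toNat = 2 * N + 1 := by omega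
  rw [this, sq]

theorem mem_lattice_of_mem {N : ℕ} {z : ℂ} (hz : z ∈ lam L N) : z ∈ L.lattice := by
  obtain ⟨p, -, rfl⟩ := mem_image.mp hz
  exact PeriodPair.mem_lattice.mpr ⟨p.1, p.2, rfl⟩

theorem nm_le_of_mem {N : ℕ} {z : ℂ} (hz : z ∈ lam L N) : nm L z ≤ N := by
  obtain ⟨p, hp, rfl⟩ := mem_image.mp hz
  rw [mem_product, mem_Icc, mem_Icc] at hp
  have h1 := nm_comb L p.1 p.2
  push_cast at h1
  rw [h1]
  refine max_le ?_ ?_
  · rw [abs_le]
    exact ⟨by exact_mod_cast hp.1.1, by exact_mod_cast hp.1.2⟩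
  · rw [abs_le]
    exact ⟨by exact_mod_cast hp.2.1, by exact_mod_cast hp.2.2⟩

theorem mem_lam {N : ℕ} {z : ℂ} (hz : z ∈ L.lattice) (h : nm L z ≤ N + 1 / 2) : z ∈ lam L N := by
  obtain ⟨a, b, rfl⟩ := PeriodPair.mem_lattice.mp hz
  have h1 := nm_comb L a b
  push_cast at h1
  rw [h1] at h
  have key : ∀ k : ℤ, |(k : ℝ)| ≤ N + 1 / 2 → k ∈ Icc (-(N : ℤ)) N := by
    intro k hk
    have h2 : ((|k| : ℤ) : ℝ) < ((N + 1 : ℤ) : ℝ) := by
      push_cast
      linarith
    have h3 : |k| < (N : ℤ) + 1 := by exact_mod_cast h2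
    rw [mem_Icc]
    constructor
    · have := neg_abs_le k
      omega
    · have := le_abs_self k
      omega
  refine mem_image.mpr ⟨(a, b), mem_product.mpr ⟨key a ((le_max_left _ _).trans h),
    key b ((le_max_right _ _).trans h)⟩, rfl⟩

/-- the denominator -/
noncomputable def den (N : ℕ) (z : ℂ) : ℂ := ∏ μ ∈ lam L N, (z - μ) ^ 2

open scoped Classical in
/-- the function `℘` multiplied by the denominator -/
noncomputable def rr (N : ℕ) (z : ℂ) : ℂ :=
  if z ∈ lam L N then ∏ μ ∈ (lam L N).erase z, (z - μ) ^ 2 else L.weierstrassP z * den L N z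

theorem differentiableAt_rr {N : ℕ} {z : ℂ} (hz : z ∈ ((L.lattice : Set ℂ) \ lam L N)ᶜ) :
    DifferentiableAt ℂ (rr L N) z := by
  classical
  by_cases hzl : z ∈ lam L N
  · have hzL := mem_lattice_of_mem L hzl
    have h1 : DifferentiableAt ℂ (fun w => ((w - z) ^ 2 * L.weierstrassPExcept z w + 1 -
        (w - z) ^ 2 / z ^ 2) * ∏ μ ∈ (lam L N).erase z, (w - μ) ^ 2) z := by
      have h2 := (L.analyticAt_weierstrassPExcept z).differentiableAt
      fun_prop
    refine h1.congr_of_eventuallyEq ?_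
    have h3 : IsOpen (((lam L N).erase z : Finset ℂ) : Set ℂ)ᶜ :=
      (Finset.finite_toSet _).isClosed.isOpen_compl
    filter_upwards [h3.mem_nhds (by simp)] with w hw
    have hw' : w ∉ (lam L N).erase z := hw
    have h4 := L.ite_eq_one_sub_sq_mul_weierstrassP z hzL w
    rw [← h4]
    by_cases hwz : w = z
    · subst hwz
      rw [rr, if_pos hzl, if_pos rfl, one_mul]
    · rw [if_neg hwz, rr, if_neg (fun h => hw' (mem_erase.mpr ⟨hwz, h⟩)), den,
        ← mul_prod_erase _ _ hzl]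
      ring
  · have hzL : z ∉ L.lattice := fun h => hz ⟨h, hzl⟩
    have hopen : IsOpen (L.lattice : Set ℂ)ᶜ := L.isClosed_lattice.isOpen_compl
    have h1 : DifferentiableAt ℂ (fun w => L.weierstrassP w * den L N w) z := by
      have h2 := L.differentiableOn_weierstrassP.differentiableAt (hopen.mem_nhds hzL)
      unfold den
      fun_prop
    refine h1.congr_of_eventuallyEq ?_
    filter_upwards [hopen.mem_nhds hzL] with w hw
    rw [rr, if_neg fun h => hw (mem_lattice_of_mem L h)]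

variable {a b : ℕ}

/-- the holomorphic function -/
noncomputable def hh (N : ℕ) (ξ : Fin a × Fin b → ℂ) (z : ℂ) : ℂ :=
  ∑ p, ξ p * (z ^ (p.1 : ℕ) * (rr L N z ^ (p.2 : ℕ) * den L N z ^ (b - (p.2 : ℕ))))

theorem differentiableOn_hh (N : ℕ) (ξ : Fin a × Fin b → ℂ) :
    DifferentiableOn ℂ (hh L N ξ) ((L.lattice : Set ℂ) \ lam L N)ᶜ := by
  intro z hz
  refine DifferentiableAt.differentiableWithinAt ?_
  have h1 := differentiableAt_rr L hz
  have h2 : DifferentiableAt ℂ (den L N) z := by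
    unfold den
    fun_prop
  unfold hh
  fun_prop

theorem hh_eq {N : ℕ} (ξ : Fin a × Fin b → ℂ) {z : ℂ} (hz : z ∉ lam L N) :
    hh L N ξ z = fn L ξ z * den L N z ^ b := by
  rw [hh, fn, sum_mul]
  refine sum_congr rfl fun p _ => ?_
  have h1 : den L N z ^ b = den L N z ^ (p.2 : ℕ) * den L N z ^ (b - (p.2 : ℕ)) := by
    rw [← pow_add]
    congr 1
    have := p.2.isLt
    omega
  rw [rr, if_neg hz, h1, mul_pow]
  ring

theorem norm_den_le {N : ℕ} (hN : 1 ≤ N) {z : ℂ} {T : ℝ} (hT : 1 ≤ T)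
    (h : ∀ μ ∈ lam L N, ‖z - μ‖ ≤ T) : ‖den L N z‖ ≤ T ^ (18 * N ^ 2) := by
  rw [den, norm_prod]
  calc ∏ μ ∈ lam L N, ‖(z - μ) ^ 2‖ ≤ ∏ _μ ∈ lam L N, T ^ 2 := by
        refine prod_le_prod (fun _ _ => norm_nonneg _) fun μ hμ => ?_
        rw [norm_pow]
        exact pow_le_pow_left₀ (norm_nonneg _) (h μ hμ) _
    _ = T ^ (2 * #(lam L N)) := by rw [prod_const, ← pow_mul]
    _ ≤ T ^ (18 * N ^ 2) := by
        refine pow_le_pow_right₀ hT ?_
        have h1 := card_lam_le L N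
        nlinarith

theorem le_norm_den {N : ℕ} (hN : 1 ≤ N) {z : ℂ} {δ : ℝ} (hδ : 0 < δ) (hδ1 : δ ≤ 1)
    (h : ∀ μ ∈ lam L N, δ ≤ ‖z - μ‖) : δ ^ (18 * N ^ 2) ≤ ‖den L N z‖ := by
  rw [den, norm_prod]
  calc δ ^ (18 * N ^ 2) ≤ δ ^ (2 * #(lam L N)) := by
        refine pow_le_pow_of_le_one hδ.le hδ1 ?_
        have h1 := card_lam_le L N
        nlinarith
    _ = ∏ _μ ∈ lam L N, δ ^ 2 := by rw [prod_const, ← pow_mul]
    _ ≤ ∏ μ ∈ lam L N, ‖(z - μ) ^ 2‖ := by
        refine prod_le_prod (fun _ _ => by positivity) fun μ hμ => ?_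
        rw [norm_pow]
        exact pow_le_pow_left₀ hδ.le (h μ hμ) _

/-- the bound on the boundary -/
theorem norm_hh_le {N : ℕ} (hN : 1 ≤ N) {ξ : Fin a × Fin b → ℂ} {B : ℝ} (hB : ∀ p, ‖ξ p‖ ≤ B)
    {z : ℂ} {T M : ℝ} (hT : 1 ≤ T) (hM : 1 ≤ M) (hzT : ‖z‖ ≤ T)
    (h : ∀ μ ∈ lam L N, ‖z - μ‖ ≤ T) (hz : z ∉ lam L N) (hp : ‖L.weierstrassP z‖ ≤ M) :
    ‖hh L N ξ z‖ ≤ a * b * B * (T ^ a * (M ^ b * (T ^ (18 * N ^ 2)) ^ b)) := by
  rw [hh_eq L ξ hz, norm_mul, norm_pow]
  have h1 : ‖fn L ξ z‖ ≤ a * b * B * (T ^ a * M ^ b) := by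
    rw [fn]
    refine (norm_sum_le _ _).trans ?_
    calc ∑ p : Fin a × Fin b, ‖ξ p * (z ^ (p.1 : ℕ) * L.weierstrassP z ^ (p.2 : ℕ))‖ ≤
        ∑ _p : Fin a × Fin b, B * (T ^ a * M ^ b) := by
          refine sum_le_sum fun p _ => ?_
          rw [norm_mul, norm_mul, norm_pow, norm_pow]
          have h2 : ‖z‖ ^ (p.1 : ℕ) ≤ T ^ a :=
            (pow_le_pow_left₀ (norm_nonneg _) hzT _).trans (pow_le_pow_right₀ hT p.1.isLt.le)
          have h3 : ‖L.weierstrassP z‖ ^ (p.2 : ℕ) ≤ M ^ b :=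
            (pow_le_pow_left₀ (norm_nonneg _) hp _).trans (pow_le_pow_right₀ hM p.2.isLt.le)
          have hB0 : 0 ≤ B := (norm_nonneg _).trans (hB p)
          exact mul_le_mul (hB p) (mul_le_mul h2 h3 (by positivity) (by positivity))
            (by positivity) hB0
      _ = a * b * B * (T ^ a * M ^ b) := by
          rw [sum_const, card_univ, Fintype.card_prod, Fintype.card_fin, Fintype.card_fin,
            nsmul_eq_mul]
          push_cast
          ring
  have h4 := norm_den_le L hN hT h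
  have h5 : 0 ≤ a * b * B * (T ^ a * M ^ b) := (norm_nonneg _).trans h1
  calc ‖fn L ξ z‖ * ‖den L N z‖ ^ b ≤ (a * b * B * (T ^ a * M ^ b)) * (T ^ (18 * N ^ 2)) ^ b :=
        mul_le_mul h1 (pow_le_pow_left₀ (norm_nonneg _) h4 _) (by positivity) h5
    _ = _ := by ring

theorem norm_pt_le (ω : ℂ) {m j : ℕ} (hj : j < m) : ‖pt ω j‖ ≤ m * ‖ω‖ := by
  rw [pt]
  refine (norm_add_le _ _).trans ?_
  rw [norm_mul, norm_div, Complex.norm_natCast, Complex.norm_ofNat]
  have h1 : (j : ℝ) + 1 ≤ m := by exact_mod_cast hj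
  have h2 := norm_nonneg ω
  nlinarith

/-- the final inequality -/
theorem final_le {N m s a b : ℕ} (hN : 1 ≤ N) (hm : 0 < m) {A B c C₁ M W δ : ℝ} (hc : 1 ≤ c)
    (hC₁ : 1 ≤ C₁) (hM : 1 ≤ M) (hW : 1 ≤ W) (hδ0 : 0 < δ) (hδ1 : δ ≤ 1)
    (hA1 : c * M * δ⁻¹ ≤ A) (hA2 : 2 * C₁ * W * δ⁻¹ ≤ A) (hB : 0 ≤ a * b * B) :
    (s.factorial : ℝ) * (W ^ (m * s) * ((a * b * B * ((c * N) ^ a * (M ^ b *
      ((c * N) ^ (18 * N ^ 2)) ^ b))) / (N / (2 * C₁)) ^ (m * s)) / (δ ^ (18 * N ^ 2)) ^ b) /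
        δ ^ s ≤
      s.factorial * (a * b * B) * (A * N) ^ (a + 18 * N ^ 2 * b) * (A / N) ^ (m * s) := by
  have hNR : (1 : ℝ) ≤ N := by exact_mod_cast hN
  have hN0 : (0 : ℝ) < N := by linarith
  have hD : 1 ≤ δ⁻¹ := (one_le_inv₀ hδ0).mpr hδ1
  have hD0 : 0 < δ⁻¹ := by linarith
  have hcA : c ≤ A := by
    refine le_trans ?_ hA1
    have : 1 ≤ M * δ⁻¹ := one_le_mul_of_one_le_of_one_le hM hD
    rw [mul_assoc]
    exact le_mul_of_one_le_right (by linarith) this
  have hA0 : 0 ≤ A := by linarith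
  have h1 : (c * N) ^ a ≤ (A * N) ^ a :=
    pow_le_pow_left₀ (by positivity) (mul_le_mul_of_nonneg_right hcA hN0.le) _
  have h2 : M ^ b * ((c * N) ^ (18 * N ^ 2)) ^ b * δ⁻¹ ^ (18 * N ^ 2 * b) ≤
      (A * N) ^ (18 * N ^ 2 * b) := by
    have h3 : M ^ b ≤ M ^ (18 * N ^ 2 * b) := by
      refine pow_le_pow_right₀ hM ?_
      have : 1 ≤ 18 * N ^ 2 := by nlinarith
      nlinarith
    calc M ^ b * ((c * N) ^ (18 * N ^ 2)) ^ b * δ⁻¹ ^ (18 * N ^ 2 * b) ≤
        M ^ (18 * N ^ 2 * b) * ((c * N) ^ (18 * N ^ 2)) ^ b * δ⁻¹ ^ (18 * N ^ 2 * b) := by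
          gcongr
      _ = (c * M * δ⁻¹ * N) ^ (18 * N ^ 2 * b) := by
          rw [← pow_mul, ← mul_pow, ← mul_pow]
          congr 1
          ring
      _ ≤ (A * N) ^ (18 * N ^ 2 * b) :=
          pow_le_pow_left₀ (by positivity) (mul_le_mul_of_nonneg_right hA1 hN0.le) _
  have h3 : W ^ (m * s) / (N / (2 * C₁)) ^ (m * s) * δ⁻¹ ^ s ≤ (A / N) ^ (m * s) := by
    have h4 : δ⁻¹ ^ s ≤ δ⁻¹ ^ (m * s) :=
      pow_le_pow_right₀ hD (Nat.le_mul_of_pos_left s hm)
    calc W ^ (m * s) / (N / (2 * C₁)) ^ (m * s) * δ⁻¹ ^ s ≤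
        W ^ (m * s) / (N / (2 * C₁)) ^ (m * s) * δ⁻¹ ^ (m * s) := by gcongr
      _ = (2 * C₁ * W * δ⁻¹ / N) ^ (m * s) := by
          rw [← div_pow, ← mul_pow]
          congr 1
          field_simp
      _ ≤ (A / N) ^ (m * s) :=
          pow_le_pow_left₀ (by positivity) (div_le_div_of_nonneg_right hA2 hN0.le) _
  have e : (s.factorial : ℝ) * (W ^ (m * s) * ((a * b * B * ((c * N) ^ a * (M ^ b *
      ((c * N) ^ (18 * N ^ 2)) ^ b))) / (N / (2 * C₁)) ^ (m * s)) / (δ ^ (18 * N ^ 2)) ^ b) /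
        δ ^ s = s.factorial * (a * b * B) * ((c * N) ^ a * (M ^ b * ((c * N) ^ (18 * N ^ 2)) ^ b *
          δ⁻¹ ^ (18 * N ^ 2 * b))) * (W ^ (m * s) / (N / (2 * C₁)) ^ (m * s) * δ⁻¹ ^ s) := by
    rw [inv_pow, inv_pow, ← pow_mul δ]
    ring
  rw [e, pow_add]
  refine mul_le_mul ?_ h3 (by positivity) (by positivity)
  refine mul_le_mul_of_nonneg_left ?_ (by positivity)
  exact mul_le_mul h1 h2 (by positivity) (by positivity)

end Schwarz

open Schwarz

/-- **(A)** Schwarz's lemma for polynomials in `z` and `℘` -/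
theorem schwarzStmt : SchwarzStmt := by
  classical
  intro L ω hω hω2 m hm
  have hω0 : ω ≠ 0 := by
    rintro rfl
    apply hω2
    simp
  obtain ⟨C₁, hC₁, hnm⟩ := exists_nm_le L
  obtain ⟨M, hM, hbd⟩ := exists_bound L
  have hLo : IsOpen (L.lattice : Set ℂ)ᶜ := L.isClosed_lattice.isOpen_compl
  -- the distance of the points from the lattice
  obtain ⟨δ, hδ0, hδ1, hδ⟩ : ∃ δ : ℝ, 0 < δ ∧ δ ≤ 1 ∧ ∀ l ∈ L.lattice, 2 * δ ≤ ‖ω / 2 - l‖ := by
    obtain ⟨ε, hε, hball⟩ := Metric.isOpen_iff.mp hLo (ω / 2) hω2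
    refine ⟨min 1 (ε / 2), by positivity, min_le_left _ _, fun l hl => ?_⟩
    by_contra h2
    push Not at h2
    have h3 : l ∈ Metric.ball (ω / 2) ε := by
      rw [mem_ball_iff_norm']
      have : min 1 (ε / 2) ≤ ε / 2 := min_le_right _ _
      linarith
    exact hball h3 hl
  have hptL : ∀ (j : ℕ) (l : ℂ), l ∈ L.lattice → 2 * δ ≤ ‖pt ω j - l‖ := by
    intro j l hl
    have h1 : pt ω j - l = ω / 2 - (l - j * ω) := by
      rw [pt]
      ring
    rw [h1]
    refine hδ _ (L.lattice.sub_mem hl ?_)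
    have := L.lattice.smul_mem (j : ℤ) hω
    simpa using this
  have hptN : ∀ j : ℕ, pt ω j ∉ L.lattice := by
    intro j h
    have := hptL j _ h
    rw [sub_self, norm_zero] at this
    linarith
  have hinj : Function.Injective (pt ω) := by
    intro i j hij
    rw [pt, pt] at hij
    have h1 : (i : ℂ) * ω = j * ω := add_right_cancel hij
    exact_mod_cast mul_right_cancel₀ hω0 h1
  have hC₂ : 0 ≤ ‖L.ω₁‖ + ‖L.ω₂‖ := by positivity
  set c : ℝ := 1 + 3 * (‖L.ω₁‖ + ‖L.ω₂‖) with hc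
  have hc1 : 1 ≤ c := by linarith
  have hmω : 0 ≤ m * ‖ω‖ := by positivity
  set W : ℝ := 2 * (m * ‖ω‖) + 1 with hW
  have hW1 : 1 ≤ W := by linarith
  have hD : 1 ≤ δ⁻¹ := (one_le_inv₀ hδ0).mpr hδ1
  have p1 : 0 ≤ c * M * δ⁻¹ := by positivity
  have p2 : 0 ≤ 2 * C₁ * W * δ⁻¹ := by positivity
  have p3 : 0 ≤ 2 * C₁ * W := by positivity
  refine ⟨1 + c * M * δ⁻¹ + 2 * C₁ * W * δ⁻¹ + 2 * C₁ * W, by linarith,
    fun N a b s ξ B hAN hB hzero j hj => ?_⟩
  have hNR : (1 : ℝ) ≤ N := by linarith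
  have hN : 1 ≤ N := by exact_mod_cast hNR
  have hN0 : (0 : ℝ) < N := by linarith
  have hNW : 2 * C₁ * W ≤ N := by linarith
  have hB0 : 0 ≤ a * b * B := by
    rcases Nat.eq_zero_or_pos a with h | ha
    · simp [h]
    rcases Nat.eq_zero_or_pos b with h | hb
    · simp [h]
    have := (norm_nonneg _).trans (hB (⟨0, ha⟩, ⟨0, hb⟩))
    positivity
  set V : Set ℂ := ((L.lattice : Set ℂ) \ lam L N)ᶜ with hV
  have hVo : IsOpen V := L.isOpen_compl_lattice_sdiff
  set U : Set ℂ := {z | nm L z < N + 1 / 2} with hU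
  have hUb : Bornology.IsBounded U := by
    refine (Metric.isBounded_closedBall (x := (0 : ℂ))
      (r := (N + 1 / 2) * (‖L.ω₁‖ + ‖L.ω₂‖))).subset fun z hz => ?_
    rw [mem_closedBall_zero_iff]
    refine (norm_le_nm L z).trans (mul_le_mul_of_nonneg_right ?_ hC₂)
    exact le_of_lt hz
  have hcl : closure U ⊆ V := by
    intro z hz hz2
    have h1 := closure_lt_subset_le (continuous_nm L) continuous_const hz
    exact hz2.2 (mem_lam L hz2.1 h1)
  have hptV : ∀ i : ℕ, pt ω i ∈ V := fun i h => hptN i h.1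
  have hfD : DifferentiableOn ℂ (fn L ξ) (L.lattice : Set ℂ)ᶜ := by
    intro z hz
    refine DifferentiableAt.differentiableWithinAt ?_
    have h2 := L.differentiableOn_weierstrassP.differentiableAt (hLo.mem_nhds hz)
    unfold fn
    fun_prop
  -- the factorisation
  obtain ⟨G, hG, hfac⟩ := exists_factor hVo (differentiableOn_hh L N ξ) hinj (range m)
    (r := s) (fun i _ => hptV i) (fun i hi => by
      have hfa : AnalyticAt ℂ (fn L ξ) (pt ω i) := hfD.analyticAt (hLo.mem_nhds (hptN i))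
      have hda : AnalyticAt ℂ (fun z => den L N z ^ b) (pt ω i) := by
        refine Differentiable.analyticAt ?_ _
        unfold den
        fun_prop
      have h1 : (s : ℕ∞) ≤ analyticOrderAt (fn L ξ) (pt ω i) :=
        (natCast_le_analyticOrderAt_iff_iteratedDeriv_eq_zero hfa).mpr
          (hzero i (mem_range.mp hi))
      have h2 : hh L N ξ =ᶠ[𝓝 (pt ω i)] fn L ξ * fun z => den L N z ^ b := by
        filter_upwards [hLo.mem_nhds (hptN i)] with w hw
        rw [hh_eq L ξ fun h => hw (mem_lattice_of_mem L h), Pi.mul_apply]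
      rw [analyticOrderAt_congr h2, analyticOrderAt_mul hfa hda]
      exact h1.trans le_self_add)
  -- the boundary
  set MH : ℝ := a * b * B * ((c * N) ^ a * (M ^ b * ((c * N) ^ (18 * N ^ 2)) ^ b)) with hMH
  have hMH0 : 0 ≤ MH := by positivity
  have hbdry : ∀ z ∈ frontier U, ‖G z‖ ≤ MH / (N / (2 * C₁)) ^ (m * s) := by
    intro z hz
    have hz1 : nm L z = N + 1 / 2 := frontier_lt_subset_eq (continuous_nm L) continuous_const hz
    have hzn : ‖z‖ ≤ c * N := by
      have := norm_le_nm L z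
      rw [hz1] at this
      nlinarith
    have hzl : z ∉ lam L N := by
      intro h
      have := nm_le_of_mem L h
      linarith
    have hzμ : ∀ μ ∈ lam L N, ‖z - μ‖ ≤ c * N := by
      intro μ hμ
      have h1 := norm_le_nm L z
      have h2 := norm_le_nm L μ
      have h3 := nm_le_of_mem L hμ
      have h4 := norm_sub_le z μ
      rw [hz1] at h1
      have h5 : nm L μ * (‖L.ω₁‖ + ‖L.ω₂‖) ≤ N * (‖L.ω₁‖ + ‖L.ω₂‖) :=
        mul_le_mul_of_nonneg_right h3 hC₂
      nlinarith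
    have h1 := norm_hh_le L hN hB (one_le_mul_of_one_le_of_one_le hc1 hNR) hM hzn hzμ hzl
      (hbd N z hz1)
    have h2 : (N / (2 * C₁)) ^ (m * s) ≤ ‖∏ i ∈ range m, (z - pt ω i) ^ s‖ := by
      rw [norm_prod]
      calc ((N : ℝ) / (2 * C₁)) ^ (m * s) = ∏ _i ∈ range m, ((N : ℝ) / (2 * C₁)) ^ s := by
            rw [prod_const, card_range, ← pow_mul, mul_comm s m]
        _ ≤ ∏ i ∈ range m, ‖(z - pt ω i) ^ s‖ := by
            refine prod_le_prod (fun _ _ => by positivity) fun i hi => ?_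
            rw [norm_pow]
            refine pow_le_pow_left₀ (by positivity) ?_ _
            have h3 := norm_sub_norm_le z (pt ω i)
            have h4 := norm_pt_le ω (mem_range.mp hi)
            have h5 := hnm z
            rw [hz1] at h5
            have h6 : (N : ℝ) / (2 * C₁) * (2 * C₁) = N := by field_simp
            have h7 : 0 < (N : ℝ) / (2 * C₁) := by positivity
            by_contra h8
            push Not at h8
            have h9 : ‖z‖ < N / (2 * C₁) + W := by linarith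
            have h10 : C₁ * ‖z‖ < C₁ * (N / (2 * C₁) + W) :=
              mul_lt_mul_of_pos_left h9 (by linarith)
            have h11 : C₁ * (N / (2 * C₁) + W) = N / 2 + C₁ * W := by
              field_simp
            nlinarith
    rw [hfac z, norm_mul] at h1
    rw [le_div_iff₀ (by positivity), mul_comm]
    exact (mul_le_mul_of_nonneg_right h2 (norm_nonneg _)).trans h1
  have hGd : DiffContOnCl ℂ G U := (hG.mono hcl).diffContOnCl
  have hmax : ∀ z ∈ closure U, ‖G z‖ ≤ MH / (N / (2 * C₁)) ^ (m * s) := fun z hz =>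
    Complex.norm_le_of_forall_mem_frontier_norm_le hUb hGd hbdry hz
  -- Cauchy's estimate
  have hball : ∀ z : ℂ, ‖z - pt ω j‖ ≤ δ → ∀ l ∈ L.lattice, δ ≤ ‖z - l‖ := by
    intro z hz l hl
    have h1 := hptL j l hl
    have h2 : ‖pt ω j - l‖ ≤ ‖z - pt ω j‖ + ‖z - l‖ := by
      have := norm_sub_le (z - l) (z - pt ω j)
      rw [sub_sub_sub_cancel_left] at this
      linarith
    linarith
  have hCau := Complex.norm_iteratedDeriv_le_of_forall_mem_sphere_norm_le (n := s) (c := pt ω j)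
    (R := δ) (C := W ^ (m * s) * (MH / (N / (2 * C₁)) ^ (m * s)) / (δ ^ (18 * N ^ 2)) ^ b)
    (f := fn L ξ) hδ0 ((hfD.mono fun z hz hzL => by
      have hz' : ‖z - pt ω j‖ ≤ δ := by
        have := Metric.closure_ball_subset_closedBall hz
        rwa [mem_closedBall_iff_norm] at this
      have := hball z hz' z hzL
      rw [sub_self, norm_zero] at this
      linarith).diffContOnCl) (fun z hz => by
      have hz' : ‖z - pt ω j‖ = δ := mem_sphere_iff_norm.mp hz
      have hzlat := hball z hz'.le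
      have hzn : ‖z‖ ≤ m * ‖ω‖ + 1 := by
        have h1 := norm_add_le (z - pt ω j) (pt ω j)
        rw [sub_add_cancel, hz'] at h1
        have h2 := norm_pt_le ω hj
        linarith
      have hzL : z ∉ L.lattice := by
        intro h
        have := hzlat z h
        rw [sub_self, norm_zero] at this
        linarith
      have hzU : z ∈ closure U := by
        refine subset_closure ?_
        show nm L z < N + 1 / 2
        have h1 := hnm z
        have h2 : C₁ * ‖z‖ ≤ C₁ * W := mul_le_mul_of_nonneg_left (by linarith) (by linarith)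
        have h3 : 0 ≤ C₁ * W := by positivity
        linarith
      have h1 := hmax z hzU
      have h2 : ‖∏ i ∈ range m, (z - pt ω i) ^ s‖ ≤ W ^ (m * s) := by
        rw [norm_prod]
        calc ∏ i ∈ range m, ‖(z - pt ω i) ^ s‖ ≤ ∏ _i ∈ range m, W ^ s := by
              refine prod_le_prod (fun _ _ => norm_nonneg _) fun i hi => ?_
              rw [norm_pow]
              refine pow_le_pow_left₀ (norm_nonneg _) ?_ _
              have h3 := norm_sub_le z (pt ω i)
              have h4 := norm_pt_le ω (mem_range.mp hi)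
              linarith
          _ = W ^ (m * s) := by rw [prod_const, card_range, ← pow_mul, mul_comm]
      have h3 := hh_eq L ξ (N := N) (z := z) fun h => hzL (mem_lattice_of_mem L h)
      have h4 : δ ^ (18 * N ^ 2) ≤ ‖den L N z‖ :=
        le_norm_den L hN hδ0 hδ1 fun μ hμ => hzlat μ (mem_lattice_of_mem L hμ)
      have h5 : (δ ^ (18 * N ^ 2)) ^ b ≤ ‖den L N z‖ ^ b :=
        pow_le_pow_left₀ (by positivity) h4 _
      rw [le_div_iff₀ (by positivity)]
      calc ‖fn L ξ z‖ * (δ ^ (18 * N ^ 2)) ^ b ≤ ‖fn L ξ z‖ * ‖den L N z‖ ^ b :=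
            mul_le_mul_of_nonneg_left h5 (norm_nonneg _)
        _ = ‖hh L N ξ z‖ := by rw [h3, norm_mul, norm_pow]
        _ = ‖∏ i ∈ range m, (z - pt ω i) ^ s‖ * ‖G z‖ := by rw [hfac z, norm_mul]
        _ ≤ W ^ (m * s) * (MH / (N / (2 * C₁)) ^ (m * s)) :=
            mul_le_mul h2 h1 (norm_nonneg _) (by positivity))
  refine hCau.trans ?_
  exact final_le hN hm hc1 hC₁ hM hW1 hδ0 hδ1 (by linarith) (by linarith) hB0

end Fermat.Agent.Cor.Sch
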