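/-
Schneider's theorem: the periods of elliptic curves are transcendental (helper85, helper32).
-/
import Fermat.Agent.Corollaries.Sch.Main
import Fermat.Agent.Corollaries.Sch.Schwarz

/-!
# Schneider's theorem (1937)

* `schneider`: if the invariants `g₂`, `g₃` of a lattice are algebraic, then every non-zero period is
  transcendental;
* `transcendental_invariant`: a lattice with a non-zero algebraic period (for example `ℤ + ℤ τ`) has a
  transcendental invariant `g₂` or `g₃`;
* `gauss_G₄`: the sum `∑ λ ^ (-4)` over the non-zero Gaussian integers is transcendental.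
-/

set_option autoImplicit false

namespace Fermat.Agent.Cor.Sch

theorem schneiderStmt : SchneiderStmt := schneiderStmt_of schwarzStmt

/-- **Schneider's theorem** (1937): the non-zero periods of a lattice with algebraic invariants
`g₂`, `g₃` are transcendental. -/
theorem schneider {L : PeriodPair} (hg₂ : IsAlgebraic ℚ L.g₂) (hg₃ : IsAlgebraic ℚ L.g₃) {ω : ℂ}
    (hω : ω ∈ L.lattice) (h0 : ω ≠ 0) : Transcendental ℚ ω :=
  schneiderStmt L hg₂ hg₃ ω hω h0

/-- A lattice with a non-zero algebraic period has a transcendental invariant. -/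
theorem transcendental_invariant {L : PeriodPair} {ω : ℂ} (hω : ω ∈ L.lattice) (h0 : ω ≠ 0)
    (halg : IsAlgebraic ℚ ω) : Transcendental ℚ L.g₂ ∨ Transcendental ℚ L.g₃ := by
  by_contra h
  rw [not_or, Transcendental, Transcendental, not_not, not_not] at h
  exact schneider h.1 h.2 hω h0 halg

/-- The lattice of the Gaussian integers. -/
noncomputable def gauss : PeriodPair where
  ω₁ := 1
  ω₂ := Complex.I
  indep := by
    rw [LinearIndependent.pair_iff]
    intro a b h
    have h1 := congrArg Complex.re h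
    have h2 := congrArg Complex.im h
    simp at h1 h2
    exact ⟨h1, h2⟩

theorem mem_gauss {x : ℂ} : x ∈ gauss.lattice ↔ ∃ m n : ℤ, (m : ℂ) + n * Complex.I = x := by
  rw [PeriodPair.mem_lattice]
  simp [gauss]

theorem I_mul_mem {x : ℂ} (hx : x ∈ gauss.lattice) : Complex.I * x ∈ gauss.lattice := by
  rw [mem_gauss] at hx ⊢
  obtain ⟨m, n, rfl⟩ := hx
  refine ⟨-n, m, ?_⟩
  push_cast
  linear_combination (-(n : ℂ)) * Complex.I_mul_I

/-- Multiplication by `i` on the lattice. -/
noncomputable def mulI : gauss.lattice ≃ gauss.lattice where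
  toFun x := ⟨Complex.I * x, I_mul_mem x.2⟩
  invFun x := ⟨-(Complex.I * x), neg_mem (I_mul_mem x.2)⟩
  left_inv x := by
    apply Subtype.ext
    change -(Complex.I * (Complex.I * (x : ℂ))) = x
    rw [← mul_assoc, Complex.I_mul_I]; ring
  right_inv x := by
    apply Subtype.ext
    change Complex.I * -(Complex.I * (x : ℂ)) = x
    rw [mul_neg, ← mul_assoc, Complex.I_mul_I]; ring

theorem gauss_g₃ : gauss.g₃ = 0 := by
  have h1 : gauss.G 6 = -gauss.G 6 := by
    unfold PeriodPair.G
    conv_lhs => rw [← mulI.tsum_eq]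
    rw [← tsum_neg]
    refine tsum_congr fun x => ?_
    change ((Complex.I * (x : ℂ)) ^ 6)⁻¹ = -((x : ℂ) ^ 6)⁻¹
    have h2 : Complex.I ^ 6 = -1 := by
      rw [show (6 : ℕ) = 2 * 3 by norm_num, pow_mul, Complex.I_sq]; norm_num
    rw [mul_pow, h2, neg_one_mul, inv_neg]
  have h2 : gauss.G 6 = 0 := self_eq_neg.1 h1
  rw [PeriodPair.g₃, h2, mul_zero]

theorem gauss_g₂ : Transcendental ℚ gauss.g₂ := by
  have h1 : (1 : ℂ) ∈ gauss.lattice := mem_gauss.2 ⟨1, 0, by simp⟩
  rcases transcendental_invariant h1 one_ne_zero isAlgebraic_one with h | h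
  · exact h
  · rw [gauss_g₃] at h
    exact absurd isAlgebraic_zero h

/-- The sum of the numbers `λ ^ (-4)` over the non-zero Gaussian integers `λ = m + n i` is
transcendental. -/
theorem gauss_G₄ : Transcendental ℚ (∑' p : ℤ × ℤ, (((p.1 : ℂ) + p.2 * Complex.I) ^ 4)⁻¹) := by
  intro h
  apply gauss_g₂
  have h1 : gauss.G 4 = ∑' p : ℤ × ℤ, (((p.1 : ℂ) + p.2 * Complex.I) ^ 4)⁻¹ := by
    unfold PeriodPair.G
    rw [← gauss.latticeEquivProd.symm.toEquiv.tsum_eq]
    refine tsum_congr fun p => ?_
    congr 2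
    change ((gauss.latticeEquivProd.symm p : gauss.lattice) : ℂ) = _
    rw [PeriodPair.latticeEquiv_symm_apply]
    simp [gauss]
  rw [PeriodPair.g₂, h1]
  exact (isAlgebraic_natCast (R := ℚ) (A := ℂ) 60).mul h

end Fermat.Agent.Cor.Sch
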