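/-
The values of the Gamma function at `1/4` and `1/3` (helper85).
-/
import Fermat.Agent.Corollaries.Sch.Final
import Fermat.Agent.Moduli.Eisen
import Fermat.Agent.Corollaries.Kron.EtaVal

/-!
# Transcendence of `Γ(1/4)⁴ / π` and `Γ(1/3)³ / π`

`j` is Klein's invariant `E₄³ / Δ` (`JLevelOne.jFun`), `η` the Dedekind eta function.

* `pi_mul_eta_sq`: if `j(τ)` is algebraic then `π η(τ)²` is transcendental;
* `pi_mul_norm_eta_sq`: if moreover `2 Re τ` is an integer then `π |η(τ)|²` is transcendental;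
* `gamma_quarter`: `Γ(1/4)⁴ / π` is transcendental;
* `gamma_third`: `Γ(1/3)³ / π` is transcendental;
* `lemniscate`, `equianharmonic`: `∫₀¹ dt / √(1 - t⁴)` and `∫₀¹ dt / √(1 - t³)` are transcendental.
-/

set_option autoImplicit false

open UpperHalfPlane ModularForm EisensteinSeries

open scoped PeriodPair

namespace Fermat.Agent.Cor.Sch

open Fermat.Agent.Moduli Fermat.Agent.JLevelOne

theorem disc_mkPP (τ : ℍ) :
    (mkPP 1 one_ne_zero τ).g₂ ^ 3 - 27 * (mkPP 1 one_ne_zero τ).g₃ ^ 2 =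
      (2 * (Real.pi : ℂ)) ^ 12 * eta τ ^ 24 := by
  have hd : discriminant τ = (E₄ τ ^ 3 - E₆ τ ^ 2) / 1728 := discriminant_eq_E₄_cube_sub_E₆_sq τ
  have he : discriminant τ = eta τ ^ 24 := rfl
  rw [g₂_mkPP, g₃_mkPP, ← he, hd]
  ring

theorem isAlgebraic_of_pow {x : ℂ} {n : ℕ} (hn : 0 < n) (h : IsAlgebraic ℚ (x ^ n)) :
    IsAlgebraic ℚ x := h.of_pow hn

/-- If `j(τ)` and `(π η(τ)²)¹²` are algebraic, so are the invariants of the lattice `ℤ + ℤ τ`. -/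
theorem algebraic_of_eta (τ : ℍ) (hj : IsAlgebraic ℚ (jFun τ))
    (he : IsAlgebraic ℚ (((Real.pi : ℂ) * eta τ ^ 2) ^ 12)) :
    IsAlgebraic ℚ (mkPP 1 one_ne_zero τ).g₂ ∧ IsAlgebraic ℚ (mkPP 1 one_ne_zero τ).g₃ := by
  have hD : IsAlgebraic ℚ ((2 * (Real.pi : ℂ)) ^ 12 * eta τ ^ 24) := by
    have h1 : (2 * (Real.pi : ℂ)) ^ 12 * eta τ ^ 24 =
        ((4096 : ℕ) : ℂ) * (((Real.pi : ℂ) * eta τ ^ 2) ^ 12) := by
      push_cast; ring
    rw [h1]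
    exact (isAlgebraic_natCast 4096).mul he
  have hj1 : jFun τ * discriminant τ = E₄ τ ^ 3 := jFun_mul_discriminant τ
  have he1 : discriminant τ = eta τ ^ 24 := rfl
  have h2 : (mkPP 1 one_ne_zero τ).g₂ ^ 3 =
      jFun τ * ((2 * (Real.pi : ℂ)) ^ 12 * eta τ ^ 24) * (((1728 : ℕ) : ℂ))⁻¹ := by
    rw [g₂_mkPP, ← he1]
    push_cast
    linear_combination (-(2 * (Real.pi : ℂ)) ^ 12 / 1728) * hj1
  have h3 : IsAlgebraic ℚ ((mkPP 1 one_ne_zero τ).g₂ ^ 3) := by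
    rw [h2]
    exact (hj.mul hD).mul (isAlgebraic_natCast 1728).inv
  refine ⟨isAlgebraic_of_pow (by norm_num) h3, ?_⟩
  have h4 : (mkPP 1 one_ne_zero τ).g₃ ^ 2 =
      ((mkPP 1 one_ne_zero τ).g₂ ^ 3 - (2 * (Real.pi : ℂ)) ^ 12 * eta τ ^ 24) *
        (((27 : ℕ) : ℂ))⁻¹ := by
    have := disc_mkPP τ
    push_cast
    linear_combination (-1 / 27 : ℂ) * this
  have h5 : IsAlgebraic ℚ ((mkPP 1 one_ne_zero τ).g₃ ^ 2) := by
    rw [h4]
    exact (h3.sub hD).mul (isAlgebraic_natCast 27).inv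
  exact isAlgebraic_of_pow (by norm_num) h5

theorem one_mem_mkPP (τ : ℍ) : (1 : ℂ) ∈ (mkPP 1 one_ne_zero τ).lattice :=
  mem_mkPP.2 ⟨1, 0, by simp⟩

/-- **If `j(τ)` is algebraic then `π η(τ)²` is transcendental.** -/
theorem pi_mul_eta_sq (τ : ℍ) (hj : IsAlgebraic ℚ (jFun τ)) :
    Transcendental ℚ ((Real.pi : ℂ) * eta τ ^ 2) := by
  intro h
  obtain ⟨h2, h3⟩ := algebraic_of_eta τ hj (h.pow 12)
  exact schneider h2 h3 (one_mem_mkPP τ) one_ne_zero isAlgebraic_one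

/-! ### Real lattices -/

theorem conj_G (L : PeriodPair) (hL : ∀ x ∈ L.lattice, (starRingEnd ℂ) x ∈ L.lattice) (n : ℕ) :
    (starRingEnd ℂ) (L.G n) = L.G n := by
  let e : L.lattice ≃ L.lattice :=
    { toFun := fun x => ⟨(starRingEnd ℂ) x, hL x x.2⟩
      invFun := fun x => ⟨(starRingEnd ℂ) x, hL x x.2⟩
      left_inv := fun x => Subtype.ext (Complex.conj_conj _)
      right_inv := fun x => Subtype.ext (Complex.conj_conj _) }
  unfold PeriodPair.G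
  rw [Complex.conj_tsum]
  conv_rhs => rw [← e.tsum_eq]
  refine tsum_congr fun x => ?_
  rw [map_inv₀, map_pow]
  rfl

theorem conj_mem_mkPP (τ : ℍ) {m : ℤ} (hm : 2 * τ.re = m) (x : ℂ)
    (hx : x ∈ (mkPP 1 one_ne_zero τ).lattice) :
    (starRingEnd ℂ) x ∈ (mkPP 1 one_ne_zero τ).lattice := by
  rw [mem_mkPP] at hx ⊢
  obtain ⟨a, b, rfl⟩ := hx
  refine ⟨a + b * m, -b, ?_⟩
  have h1 : (starRingEnd ℂ) (τ : ℂ) = m - τ := by
    apply Complex.ext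
    · simp only [Complex.conj_re, Complex.sub_re, Complex.intCast_re]
      have : (τ : ℂ).re = τ.re := rfl
      rw [this]; linarith
    · simp
  simp only [map_add, map_mul, map_one, map_intCast, h1]
  push_cast
  ring

theorem eta_pow_eq (τ : ℍ) {m : ℤ} (hm : 2 * τ.re = m) :
    eta τ ^ 24 = (‖eta τ‖ : ℂ) ^ 24 ∨ eta τ ^ 24 = -(‖eta τ‖ : ℂ) ^ 24 := by
  have h1 : (starRingEnd ℂ) ((2 * (Real.pi : ℂ)) ^ 12 * eta τ ^ 24) =
      (2 * (Real.pi : ℂ)) ^ 12 * eta τ ^ 24 := by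
    rw [← disc_mkPP]
    have h2 := conj_G _ (conj_mem_mkPP τ hm) 4
    have h3 := conj_G _ (conj_mem_mkPP τ hm) 6
    rw [PeriodPair.g₂, PeriodPair.g₃]
    simp only [map_sub, map_mul, map_pow, h2, h3, map_ofNat]
  have h2 : (starRingEnd ℂ) (eta τ ^ 24) = eta τ ^ 24 := by
    rw [map_mul, map_pow, map_mul, Complex.conj_ofReal, map_ofNat] at h1
    have h0 : (2 * (Real.pi : ℂ)) ^ 12 ≠ 0 := by
      simp [Real.pi_ne_zero]
    exact mul_left_cancel₀ h0 h1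
  obtain ⟨r, hr⟩ := Complex.conj_eq_iff_real.1 h2
  have h3 : ‖eta τ‖ ^ 24 = |r| := by
    rw [← norm_pow, hr, Complex.norm_real, Real.norm_eq_abs]
  rcases abs_choice r with h | h
  · left
    rw [hr, ← Complex.ofReal_pow, h3, h]
  · right
    rw [hr, ← Complex.ofReal_pow, h3, h]
    push_cast; ring

theorem isAlgebraic_ofReal {x : ℝ} (h : IsAlgebraic ℚ x) : IsAlgebraic ℚ (x : ℂ) :=
  h.algebraMap (A := ℂ)

/-- **If `j(τ)` is algebraic and `2 Re τ` is an integer then `π |η(τ)|²` is transcendental.** -/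
theorem pi_mul_norm_eta_sq (τ : ℍ) (hj : IsAlgebraic ℚ (jFun τ)) {m : ℤ} (hm : 2 * τ.re = m) :
    Transcendental ℚ (Real.pi * ‖eta τ‖ ^ 2) := by
  intro h
  have h1 : IsAlgebraic ℚ (((Real.pi * ‖eta τ‖ ^ 2 : ℝ) : ℂ) ^ 12) := (isAlgebraic_ofReal h).pow 12
  have h2 : IsAlgebraic ℚ (((Real.pi : ℂ) * eta τ ^ 2) ^ 12) := by
    rcases eta_pow_eq τ hm with h3 | h3
    · have : ((Real.pi : ℂ) * eta τ ^ 2) ^ 12 = ((Real.pi * ‖eta τ‖ ^ 2 : ℝ) : ℂ) ^ 12 := by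
        push_cast
        linear_combination (Real.pi : ℂ) ^ 12 * h3
      rw [this]; exact h1
    · have : ((Real.pi : ℂ) * eta τ ^ 2) ^ 12 = -((Real.pi * ‖eta τ‖ ^ 2 : ℝ) : ℂ) ^ 12 := by
        push_cast
        linear_combination (Real.pi : ℂ) ^ 12 * h3
      rw [this]; exact h1.neg
  obtain ⟨h3, h4⟩ := algebraic_of_eta τ hj h2
  exact schneider h3 h4 (one_mem_mkPP τ) one_ne_zero isAlgebraic_one

/-! ### The values of the Gamma function -/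

theorem gamma_quarter_pos : 0 < Real.Gamma (1 / 4) := Real.Gamma_pos_of_pos (by norm_num)

theorem gamma_third_pos : 0 < Real.Gamma (1 / 3) := Real.Gamma_pos_of_pos (by norm_num)

/-- **`Γ(1/4)⁴ / π` is transcendental.** -/
theorem gamma_quarter : Transcendental ℚ (Real.Gamma (1 / 4) ^ 4 / Real.pi) := by
  have hj : IsAlgebraic ℚ (jFun UpperHalfPlane.I) := by
    rw [jFun_I, show (1728 : ℂ) = ((1728 : ℕ) : ℂ) by norm_num]
    exact isAlgebraic_natCast 1728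
  have h := pi_mul_norm_eta_sq UpperHalfPlane.I hj (m := 0) (by simp)
  rw [show ((UpperHalfPlane.I : ℍ) : ℂ) = Complex.I from rfl, Kron.norm_eta_I] at h
  intro ha
  apply h
  have hpi : (0 : ℝ) < Real.pi := Real.pi_pos
  have hp : (Real.pi ^ (3 / 4 : ℝ)) ^ 4 = Real.pi ^ 3 := by
    rw [← Real.rpow_natCast (Real.pi ^ (3 / 4 : ℝ)) 4, ← Real.rpow_mul hpi.le,
      ← Real.rpow_natCast Real.pi 3]
    norm_num
  have h1 : (Real.pi * (Real.Gamma (1 / 4) / (2 * Real.pi ^ (3 / 4 : ℝ))) ^ 2) ^ 2 =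
      Real.Gamma (1 / 4) ^ 4 / Real.pi * (((16 : ℕ) : ℝ))⁻¹ := by
    have : (Real.pi * (Real.Gamma (1 / 4) / (2 * Real.pi ^ (3 / 4 : ℝ))) ^ 2) ^ 2 =
        Real.pi ^ 2 * (Real.Gamma (1 / 4) ^ 4 / (16 * (Real.pi ^ (3 / 4 : ℝ)) ^ 4)) := by
      rw [div_pow, mul_pow, div_pow, mul_pow]
      ring
    rw [this, hp]
    push_cast
    field_simp
  refine IsAlgebraic.of_pow (n := 2) (by norm_num) ?_
  rw [h1]
  exact ha.mul (isAlgebraic_natCast 16).inv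

theorem jFun_omega {τ : ℍ} (hτ : (τ : ℂ) = (1 + √3 * Complex.I) / 2) : jFun τ = 0 := by
  have h : τ = ModularGroup.T • ρ := by
    apply UpperHalfPlane.ext
    rw [hτ, UpperHalfPlane.modular_T_smul, UpperHalfPlane.coe_vadd]
    apply Complex.ext
    · simp [ρ]; norm_num
    · simp [ρ]
  rw [h, jFun_smul, jFun_ρ]

/-- **`Γ(1/3)³ / π` is transcendental.** -/
theorem gamma_third : Transcendental ℚ (Real.Gamma (1 / 3) ^ 3 / Real.pi) := by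
  have him : 0 < ((1 + √3 * Complex.I) / 2 : ℂ).im := by
    have : ((1 + √3 * Complex.I) / 2 : ℂ).im = √3 / 2 := by simp
    rw [this]; positivity
  let τ : ℍ := ⟨(1 + √3 * Complex.I) / 2, him⟩
  have hτ : (τ : ℂ) = (1 + √3 * Complex.I) / 2 := rfl
  have hj : IsAlgebraic ℚ (jFun τ) := by
    rw [jFun_omega hτ]
    exact isAlgebraic_zero
  have h := pi_mul_norm_eta_sq τ hj (m := 1) (by
    have : τ.re = (τ : ℂ).re := rfl
    rw [this, hτ]; simp)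
  rw [hτ, Kron.norm_eta_omega] at h
  intro ha
  apply h
  have hpi : (0 : ℝ) < Real.pi := Real.pi_pos
  have hG := gamma_third_pos
  have hp : ((3 : ℝ) ^ (1 / 8 : ℝ)) ^ 8 = 3 := by
    rw [← Real.rpow_natCast ((3 : ℝ) ^ (1 / 8 : ℝ)) 8, ← Real.rpow_mul (by norm_num)]
    norm_num
  have hp2 : (Real.Gamma (1 / 3) ^ (3 / 2 : ℝ)) ^ 2 = Real.Gamma (1 / 3) ^ 3 := by
    rw [← Real.rpow_natCast (Real.Gamma (1 / 3) ^ (3 / 2 : ℝ)) 2, ← Real.rpow_mul hG.le,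
      ← Real.rpow_natCast (Real.Gamma (1 / 3)) 3]
    norm_num
  have h1 : (Real.pi * (3 ^ (1 / 8 : ℝ) * Real.Gamma (1 / 3) ^ (3 / 2 : ℝ) /
      (2 * Real.pi)) ^ 2) ^ 4 =
      (Real.Gamma (1 / 3) ^ 3 / Real.pi) ^ 4 * (((3 : ℕ) : ℝ) * (((256 : ℕ) : ℝ))⁻¹) := by
    have : (Real.pi * (3 ^ (1 / 8 : ℝ) * Real.Gamma (1 / 3) ^ (3 / 2 : ℝ) /
        (2 * Real.pi)) ^ 2) ^ 4 =
        (((3 : ℝ) ^ (1 / 8 : ℝ)) ^ 8) * ((Real.Gamma (1 / 3) ^ (3 / 2 : ℝ)) ^ 2) ^ 4 /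
          (256 * Real.pi ^ 4) := by
      field_simp
      ring
    rw [this, hp, hp2]
    push_cast
    field_simp
  refine IsAlgebraic.of_pow (n := 4) (by norm_num) ?_
  rw [h1]
  exact (ha.pow 4).mul ((isAlgebraic_natCast 3).mul (isAlgebraic_natCast 256).inv)

/-! ### Elliptic integrals -/

open MeasureTheory Set in
/-- `∫₀¹ dt / √(1 - tⁿ) = B(1/n, 1/2) / n`. -/
theorem integral_inv_sqrt_one_sub_pow {n : ℕ} (hn : 0 < n) :
    ((∫ t in (0 : ℝ)..1, 1 / √(1 - t ^ n) : ℝ) : ℂ) =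
      (1 / n) * Complex.betaIntegral (1 / n) (1 / 2) := by
  have hn0 : (n : ℝ) ≠ 0 := by exact_mod_cast hn.ne'
  have hnC : (n : ℂ) ≠ 0 := by exact_mod_cast hn.ne'
  have hnp : (0 : ℝ) < n := by exact_mod_cast hn
  have hI : Ioi (0 : ℝ) ∩ Ioc 0 1 = Ioc 0 1 := inter_eq_right.2 fun x hx => hx.1
  set f : ℝ → ℂ := fun x => (x : ℂ) ^ ((1 / n : ℂ) - 1) * (1 - (x : ℂ)) ^ ((1 / 2 : ℂ) - 1) with hf
  have h1 : Complex.betaIntegral (1 / n) (1 / 2) =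
      ∫ x in Ioi (0 : ℝ), (Ioc (0 : ℝ) 1).indicator f x := by
    rw [setIntegral_indicator measurableSet_Ioc, hI, Complex.betaIntegral,
      intervalIntegral.integral_of_le zero_le_one]
  have h2 : ((∫ t in (0 : ℝ)..1, 1 / √(1 - t ^ n) : ℝ) : ℂ) =
      ∫ x in Ioi (0 : ℝ), (Ioc (0 : ℝ) 1).indicator (fun x : ℝ => ((1 / √(1 - x ^ n) : ℝ) : ℂ)) x := by
    rw [setIntegral_indicator measurableSet_Ioc, hI, ← intervalIntegral.integral_ofReal,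
      intervalIntegral.integral_of_le zero_le_one]
  rw [h1, h2, ← integral_comp_rpow_Ioi_of_pos (g := (Ioc (0 : ℝ) 1).indicator f) hnp,
    ← integral_const_mul]
  refine setIntegral_congr_fun measurableSet_Ioi fun x hx => ?_
  have hx0 : (0 : ℝ) < x := hx
  have hpow : x ^ (n : ℝ) = x ^ n := Real.rpow_natCast x n
  simp only [hpow]
  by_cases hx1 : x ≤ 1
  · have hm : x ∈ Ioc (0 : ℝ) 1 := ⟨hx0, hx1⟩
    have hm2 : x ^ n ∈ Ioc (0 : ℝ) 1 := ⟨pow_pos hx0 n, pow_le_one₀ hx0.le hx1⟩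
    rw [indicator_of_mem hm, indicator_of_mem hm2, hf]
    have h5 : (((x ^ n : ℝ) : ℂ)) ^ ((1 / n : ℂ) - 1) = ((x ^ (1 - (n : ℝ)) : ℝ) : ℂ) := by
      rw [show ((1 / n : ℂ) - 1) = (((1 / n : ℝ) - 1 : ℝ) : ℂ) by push_cast; ring,
        ← Complex.ofReal_cpow (pow_pos hx0 n).le, ← hpow, ← Real.rpow_mul hx0.le]
      congr 2
      field_simp
    have h6 : (1 - ((x ^ n : ℝ) : ℂ)) ^ ((1 / 2 : ℂ) - 1) = ((1 / √(1 - x ^ n) : ℝ) : ℂ) := by
      have h0 : 0 ≤ 1 - x ^ n := sub_nonneg.2 hm2.2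
      rw [show ((1 / 2 : ℂ) - 1) = ((-(1 / 2) : ℝ) : ℂ) by push_cast; ring,
        show (1 - ((x ^ n : ℝ) : ℂ)) = ((1 - x ^ n : ℝ) : ℂ) by push_cast; ring,
        ← Complex.ofReal_cpow h0, Real.rpow_neg h0, ← Real.sqrt_eq_rpow, one_div]
    simp only [h5, h6]
    rw [Complex.real_smul]
    have h7 : x ^ ((n : ℝ) - 1) * x ^ (1 - (n : ℝ)) = 1 := by
      rw [← Real.rpow_add hx0]; simp
    have h8 : ((x ^ ((n : ℝ) - 1) : ℝ) : ℂ) * ((x ^ (1 - (n : ℝ)) : ℝ) : ℂ) = 1 := by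
      rw [← Complex.ofReal_mul, h7, Complex.ofReal_one]
    rw [Complex.ofReal_mul, Complex.ofReal_natCast]
    set X := ((x ^ ((n : ℝ) - 1) : ℝ) : ℂ)
    set Y := ((x ^ (1 - (n : ℝ)) : ℝ) : ℂ)
    set S := ((1 / √(1 - x ^ n) : ℝ) : ℂ)
    have h9 : 1 / (n : ℂ) * (n * X * (Y * S)) = X * Y * S := by field_simp
    rw [h9, h8, one_mul]
  · have hm : x ∉ Ioc (0 : ℝ) 1 := fun h => hx1 h.2
    have hm2 : x ^ n ∉ Ioc (0 : ℝ) 1 := fun h => by
      have : 1 < x ^ n := one_lt_pow₀ (not_le.1 hx1) hn.ne'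
      exact absurd h.2 (not_le.2 this)
    rw [indicator_of_notMem hm, indicator_of_notMem hm2, smul_zero, mul_zero]

/-- `∫₀¹ dt / √(1 - tⁿ) = √π Γ(1/n) / (n Γ(1/n + 1/2))`. -/
theorem integral_eq_gamma {n : ℕ} (hn : 0 < n) :
    (∫ t in (0 : ℝ)..1, 1 / √(1 - t ^ n) : ℝ) =
      √Real.pi * Real.Gamma (1 / n) / (n * Real.Gamma (1 / n + 1 / 2)) := by
  have hn0 : (n : ℝ) ≠ 0 := by exact_mod_cast hn.ne'
  have hnC : (n : ℂ) ≠ 0 := by exact_mod_cast hn.ne'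
  have hnp : (0 : ℝ) < n := by exact_mod_cast hn
  have hre : 0 < (1 / n : ℂ).re := by
    rw [show (1 / n : ℂ) = ((1 / n : ℝ) : ℂ) by push_cast; ring, Complex.ofReal_re]
    positivity
  have h := Complex.betaIntegral_eq_Gamma_mul_div (1 / n) (1 / 2) hre (by norm_num)
  have h2 := integral_inv_sqrt_one_sub_pow hn
  rw [h] at h2
  rw [show (1 / n : ℂ) + 1 / 2 = ((1 / n + 1 / 2 : ℝ) : ℂ) by push_cast; ring,
    show (1 / n : ℂ) = ((1 / n : ℝ) : ℂ) by push_cast; ring,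
    show (1 / 2 : ℂ) = ((1 / 2 : ℝ) : ℂ) by push_cast; ring,
    Complex.Gamma_ofReal, Complex.Gamma_ofReal, Complex.Gamma_ofReal, Real.Gamma_one_half_eq] at h2
  have h3 : ((∫ t in (0 : ℝ)..1, 1 / √(1 - t ^ n) : ℝ) : ℂ) =
      ((√Real.pi * Real.Gamma (1 / n) / (n * Real.Gamma (1 / n + 1 / 2)) : ℝ) : ℂ) := by
    rw [h2]
    push_cast
    ring
  exact_mod_cast h3

/-- **The lemniscate constant**: `∫₀¹ dt / √(1 - t⁴)` (a quarter of the length of the lemniscate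
`r² = cos 2θ`) is transcendental. -/
theorem lemniscate : Transcendental ℚ (∫ t in (0 : ℝ)..1, 1 / √(1 - t ^ 4) : ℝ) := by
  intro h
  apply gamma_quarter
  have h1 := integral_eq_gamma (n := 4) (by norm_num)
  rw [show (1 / ((4 : ℕ) : ℝ) + 1 / 2 : ℝ) = 3 / 4 by norm_num,
    show ((4 : ℕ) : ℝ) = 4 by norm_num, Kron.gamma_three_quarters] at h1
  have hG := gamma_quarter_pos
  have hpi : (0 : ℝ) < Real.pi := Real.pi_pos
  have h2 : √2 ^ 2 = (2 : ℝ) := Real.sq_sqrt (by norm_num)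
  have h3 : √Real.pi ^ 2 = Real.pi := Real.sq_sqrt hpi.le
  have h4 : Real.Gamma (1 / 4) ^ 4 / Real.pi =
      (((32 : ℕ) : ℝ)) * (∫ t in (0 : ℝ)..1, 1 / √(1 - t ^ 4) : ℝ) ^ 2 := by
    rw [h1, div_pow, mul_pow, mul_pow, div_pow, mul_pow, h2, h3]
    push_cast
    field_simp
    norm_num
  rw [h4]
  exact (isAlgebraic_natCast 32).mul (h.pow 2)

/-- `∫₀¹ dt / √(1 - t³)` is transcendental. -/
theorem equianharmonic : Transcendental ℚ (∫ t in (0 : ℝ)..1, 1 / √(1 - t ^ 3) : ℝ) := by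
  intro h
  apply gamma_third
  have h1 := integral_eq_gamma (n := 3) (by norm_num)
  have hd := Real.Gamma_mul_Gamma_add_half (1 / 3)
  rw [show (2 * (1 / 3) : ℝ) = 2 / 3 by norm_num, Kron.gamma_two_thirds] at hd
  rw [show ((3 : ℕ) : ℝ) = 3 by norm_num] at h1
  have hG := gamma_third_pos
  have hG2 : 0 < Real.Gamma (1 / 3 + 1 / 2) := Real.Gamma_pos_of_pos (by norm_num)
  have hpi : (0 : ℝ) < Real.pi := Real.pi_pos
  have h2 : √3 ^ 2 = (3 : ℝ) := Real.sq_sqrt (by norm_num)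
  have h30 : (0 : ℝ) < √3 := by positivity
  have hsp : 0 < √Real.pi := Real.sqrt_pos.2 hpi
  set c : ℝ := (2 : ℝ) ^ (1 - 2 / 3 : ℝ) with hc
  have hc0 : 0 < c := Real.rpow_pos_of_pos (by norm_num) _
  have hc3 : c ^ 3 = 2 := by
    rw [hc, ← Real.rpow_natCast, ← Real.rpow_mul (by norm_num)]
    norm_num
  have h3 : (∫ t in (0 : ℝ)..1, 1 / √(1 - t ^ 3) : ℝ) * (6 * c) =
      √3 * (Real.Gamma (1 / 3) ^ 3 / Real.pi) := by
    have e : Real.Gamma (1 / 3 + 1 / 2) =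
        2 * Real.pi / (√3 * Real.Gamma (1 / 3)) * c * √Real.pi / Real.Gamma (1 / 3) := by
      rw [eq_div_iff hG.ne', mul_comm, hd]
    rw [h1, e]
    field_simp
    norm_num
  have h4 : (Real.Gamma (1 / 3) ^ 3 / Real.pi) ^ 6 = (((6 ^ 6 * 4 : ℕ) : ℝ)) *
      (((27 : ℕ) : ℝ))⁻¹ * (∫ t in (0 : ℝ)..1, 1 / √(1 - t ^ 3) : ℝ) ^ 6 := by
    have e1 : (Real.Gamma (1 / 3) ^ 3 / Real.pi) ^ 6 * (√3 ^ 2) ^ 3 =
        (∫ t in (0 : ℝ)..1, 1 / √(1 - t ^ 3) : ℝ) ^ 6 * 6 ^ 6 * (c ^ 3) ^ 2 := by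
      have e2 : ((∫ t in (0 : ℝ)..1, 1 / √(1 - t ^ 3) : ℝ) * (6 * c)) ^ 6 =
          (√3 * (Real.Gamma (1 / 3) ^ 3 / Real.pi)) ^ 6 := by rw [h3]
      linear_combination -e2
    rw [h2, hc3] at e1
    push_cast
    linear_combination e1 / 27
  refine IsAlgebraic.of_pow (n := 6) (by norm_num) ?_
  rw [h4]
  exact ((isAlgebraic_natCast _).mul (isAlgebraic_natCast 27).inv).mul (h.pow 6)

end Fermat.Agent.Cor.Sch
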