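/-
Schneider's theorem on the modular function: the cut (helper85).
-/
import Fermat.Agent.Corollaries.Sch.Defs

/-!
# Schneider's theorem on `j`: the cut

`τ` algebraic and `j(τ)` algebraic implies that `τ` is imaginary quadratic. Auxiliary functions:
polynomials in `℘(z)` and `℘(τ z)`, points `(j + 1/2) ω`, where `ω` and `τ ω` are periods.
-/

set_option autoImplicit false

namespace Fermat.Agent.Cor.Sch

/-- a polynomial in `℘(z)` and `℘(τ z)` -/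
noncomputable def fnJ (L : PeriodPair) (τ : ℂ) {a b : ℕ} (ξ : Fin a × Fin b → ℂ) (z : ℂ) : ℂ :=
  ∑ p, ξ p * (L.weierstrassP z ^ (p.1 : ℕ) * L.weierstrassP (τ * z) ^ (p.2 : ℕ))

/-- (JA) Schwarz's lemma for polynomials in `℘(z)` and `℘(τ z)` -/
def SchwarzJStmt : Prop := ∀ (L : PeriodPair) (τ ω : ℂ), τ ≠ 0 → ω ∈ L.lattice →
  ω / 2 ∉ L.lattice → τ * ω ∈ L.lattice → τ * ω / 2 ∉ L.lattice →
  ∀ m : ℕ, 0 < m → ∃ A : ℝ, 1 ≤ A ∧ ∀ (N a b s : ℕ) (ξ : Fin a × Fin b → ℂ) (B : ℝ), A ≤ N →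
    (∀ p, ‖ξ p‖ ≤ B) → (∀ j < m, ∀ t < s, iteratedDeriv t (fnJ L τ ξ) (pt ω j) = 0) →
    ∀ j < m, ‖iteratedDeriv s (fnJ L τ ξ) (pt ω j)‖ ≤
      s.factorial * (a * b * B) * (A * N) ^ (18 * N ^ 2 * (a + b)) * (A / N) ^ (m * s)

/-- (JB) `℘(z)` and `℘(τ z)` are algebraically independent if `τ` is not quadratic -/
def IndepJStmt : Prop := ∀ (L : PeriodPair) (τ : ℂ), L.ω₂ = τ * L.ω₁ →
  (∀ a b c : ℤ, a * τ ^ 2 + b * τ + c = 0 → a = 0) → ∀ (a b : ℕ) (ξ : Fin a × Fin b → ℂ), ξ ≠ 0 →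
    ∃ z : ℂ, z ∉ L.lattice ∧ τ * z ∉ L.lattice ∧ fnJ L τ ξ z ≠ 0

end Fermat.Agent.Cor.Sch
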