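/-
Schneider's theorem on `j`: the Taylor coefficients (helper85).
-/
import Fermat.Agent.Corollaries.Sch.DefsJ
import Fermat.Agent.Corollaries.Sch.Taylor
import Fermat.Agent.Corollaries.Sch.Coef

/-!
# Schneider's theorem on `j`: Taylor coefficients of polynomials in `℘(z)` and `℘(τ z)`
-/

set_option autoImplicit false

open Finset NumberField

namespace Fermat.Agent.Cor.Sch

theorem iteratedDeriv_comp_mul (f : ℂ → ℂ) (c : ℂ) (n : ℕ) :
    iteratedDeriv n (fun z => f (c * z)) = fun z => c ^ n * iteratedDeriv n f (c * z) := by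
  induction n with
  | zero => simp
  | succ n ih =>
    rw [iteratedDeriv_succ, ih, iteratedDeriv_succ]
    funext z
    rw [deriv_const_mul_field, deriv_comp_mul_left, smul_eq_mul, pow_succ, mul_assoc]

theorem mul_pt (τ ω : ℂ) (j : ℕ) : τ * pt ω j = pt (τ * ω) j := by
  rw [pt, pt]; ring

/-- The derivatives of the auxiliary function. -/
theorem iteratedDeriv_fnJ {L : PeriodPair} {τ ω : ℂ} (hω : ω ∈ L.lattice)
    (h2 : ω / 2 ∉ L.lattice) (hτω : τ * ω ∈ L.lattice) (hτ2 : τ * ω / 2 ∉ L.lattice) {a b : ℕ}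
    (ξ : Fin a × Fin b → ℂ) (j t : ℕ) : iteratedDeriv t (fnJ L τ ξ) (pt ω j) =
      ∑ p, ξ p * ∑ r ∈ range (t + 1), (t.choose r : ℂ) * Pw L ω p.1 r *
        (τ ^ (t - r) * Pw L (τ * ω) p.2 (t - r)) := by
  have hP : ∀ n : ℕ, ContDiffAt ℂ n L.weierstrassP (pt ω j) := fun n =>
    (L.analyticOnNhd_weierstrassP _ (pt_notMem hω h2 j)).contDiffAt
  have hP2 : ∀ n : ℕ, ContDiffAt ℂ n (fun z => L.weierstrassP (τ * z)) (pt ω j) := fun n => by
    have h1 : AnalyticAt ℂ L.weierstrassP (τ * pt ω j) := by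
      rw [mul_pt]
      exact L.analyticOnNhd_weierstrassP _ (pt_notMem hτω hτ2 j)
    have h3 : AnalyticAt ℂ (fun z : ℂ => τ * z) (pt ω j) := analyticAt_const.mul analyticAt_id
    have h4 : AnalyticAt ℂ (fun z => L.weierstrassP (τ * z)) (pt ω j) := h1.fun_comp h3
    exact h4.contDiffAt
  unfold fnJ
  rw [iteratedDeriv_fun_sum fun p _ =>
    ((contDiffAt_const (c := ξ p)).mul (((hP t).pow p.1).mul ((hP2 t).pow p.2)))]
  refine sum_congr rfl fun p _ => ?_
  rw [iteratedDeriv_const_mul_field, iteratedDeriv_fun_mul ((hP t).pow p.1) ((hP2 t).pow p.2)]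
  congr 1
  refine sum_congr rfl fun r _ => ?_
  have h5 := congrFun (iteratedDeriv_comp_mul (fun z => L.weierstrassP z ^ (p.2 : ℕ)) τ (t - r))
    (pt ω j)
  rw [h5, iteratedDeriv_pt hω, mul_pt, iteratedDeriv_pt hτω, Pw, Pw]

variable {K : Type} [Field K] [NumberField K] {h : K} {P P' : ℕ → K} {Q Q' : ℕ → ℕ → K}

/-- The coefficients of the linear system. -/
noncomputable def EJ (w : K) (Q Q' : ℕ → ℕ → K) (t i k : ℕ) : K :=
  ∑ r ∈ range (t + 1), (t.choose r : K) * Q i r * (w ^ (t - r) * Q' k (t - r))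

omit [NumberField K] in
theorem isIntegral_EJ (R : Rec h P Q) (R' : Rec h P' Q') {d : ℤ}
    (h0 : IsIntegral ℤ ((d : K) * P 0)) (h0' : IsIntegral ℤ ((d : K) * P' 0))
    (hh : IsIntegral ℤ ((d : K) * h)) {w : K} (hw : IsIntegral ℤ ((d : K) * w))
    {t i k D : ℕ} (hD : 2 * t + i + k ≤ D) : IsIntegral ℤ ((d : K) ^ D * EJ w Q Q' t i k) := by
  have hd : IsIntegral ℤ (d : K) := isIntegral_algebraMap (R := ℤ) (x := d)
  rw [EJ, mul_sum]
  apply IsIntegral.sum
  intro r hr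
  have hr' : r ≤ t := Nat.lt_succ_iff.1 (mem_range.1 hr)
  have e : (d : K) ^ D = (d : K) ^ (D - (r + i) - (t - r) - (t - r + k)) *
      ((d : K) ^ (r + i) * (d : K) ^ (t - r) * (d : K) ^ (t - r + k)) := by
    rw [← pow_add, ← pow_add, ← pow_add]
    congr 1; omega
  have e2 : (d : K) ^ D * ((t.choose r : K) * Q i r * (w ^ (t - r) * Q' k (t - r))) =
      (d : K) ^ (D - (r + i) - (t - r) - (t - r + k)) * (t.choose r : K) *
        (((d : K) ^ (r + i) * Q i r) * ((d * w) ^ (t - r) * ((d : K) ^ (t - r + k) *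
          Q' k (t - r)))) := by
    rw [e, mul_pow]; ring
  rw [e2]
  exact ((hd.pow _).mul (isIntegral_natCast _)).mul
    ((isIntegral_Q R h0 hh _ _).mul ((hw.pow _).mul (isIntegral_Q R' h0' hh _ _)))

theorem house_EJ_le (R : Rec h P Q) (R' : Rec h P' Q') {C V : ℝ}
    (hC : 6 + house h + house (P 0) ≤ C) (hC' : 6 + house h + house (P' 0) ≤ C) (hV1 : 1 ≤ V)
    {w : K} (hw : house w ≤ V) {t i k D : ℕ} (hD : t + i + k ≤ D) :
    house (EJ w Q Q' t i k) ≤ t.factorial * (4 * C * V) ^ D := by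
  have hh0 : 0 ≤ house h := house_nonneg h
  have hP0 : 0 ≤ house (P 0) := house_nonneg _
  have hC0 : 0 < C := by linarith
  have hC1 : 1 ≤ C := by linarith
  have h1 : ∀ r ∈ range (t + 1), house ((t.choose r : K) * Q i r * (w ^ (t - r) *
      Q' k (t - r))) ≤ t.factorial * (V ^ t * (2 * C) ^ (t + i + k)) := by
    intro r hr
    have hr' : r ≤ t := Nat.lt_succ_iff.1 (mem_range.1 hr)
    have h2 := GS.house_mul_le_mul (GS.house_mul_le_mul (house_natCast (K := K)
      (t.choose r)).le (house_Q_le R hC i r)) (GS.house_mul_le_mul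
        (GS.house_pow_le_pow hw (t - r)) (house_Q_le R' hC' k (t - r)))
    refine h2.trans ?_
    have e2 : (t.choose r : ℝ) * (r.factorial * (2 * C) ^ (r + i)) *
        (V ^ (t - r) * ((t - r).factorial * (2 * C) ^ (t - r + k))) =
        ((t.choose r : ℝ) * r.factorial * (t - r).factorial) *
          (V ^ (t - r) * ((2 * C) ^ (r + i) * (2 * C) ^ (t - r + k))) := by ring
    rw [e2, choose_mul_real hr', ← pow_add, show r + i + (t - r + k) = t + i + k by omega]
    have e4 : V ^ (t - r) ≤ V ^ t := pow_le_pow_right₀ hV1 (Nat.sub_le _ _)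
    gcongr
  have h2 := GS.house_sum_le (range (t + 1)) _ h1
  rw [card_range] at h2
  unfold EJ
  refine h2.trans ?_
  have h3 : ((t + 1 : ℕ) : ℝ) ≤ 2 ^ t := by exact_mod_cast Nat.succ_le_of_lt Nat.lt_two_pow_self
  have h4 : (2 : ℝ) ^ t * (V ^ t * (2 * C) ^ (t + i + k)) ≤ (4 * C * V) ^ (t + i + k) := by
    have e1 : (2 : ℝ) ^ t ≤ 2 ^ (t + i + k) := pow_le_pow_right₀ (by norm_num) (by omega)
    have e2 : V ^ t ≤ V ^ (t + i + k) := pow_le_pow_right₀ hV1 (by omega)
    calc (2 : ℝ) ^ t * (V ^ t * (2 * C) ^ (t + i + k)) ≤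
        2 ^ (t + i + k) * (V ^ (t + i + k) * (2 * C) ^ (t + i + k)) := by gcongr
      _ = (4 * C * V) ^ (t + i + k) := by rw [← mul_pow, ← mul_pow]; congr 1; ring
  have h5 : (4 * C * V) ^ (t + i + k) ≤ (4 * C * V) ^ D :=
    pow_le_pow_right₀ (by nlinarith) hD
  calc ((t + 1 : ℕ) : ℝ) * (t.factorial * (V ^ t * (2 * C) ^ (t + i + k))) ≤
      2 ^ t * (t.factorial * (V ^ t * (2 * C) ^ (t + i + k))) := by gcongr
    _ = t.factorial * (2 ^ t * (V ^ t * (2 * C) ^ (t + i + k))) := by ring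
    _ ≤ t.factorial * (4 * C * V) ^ D := by
      exact mul_le_mul_of_nonneg_left (h4.trans h5) (by positivity)

end Fermat.Agent.Cor.Sch
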