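/-
Schneider's theorem on `j`: algebraic independence of `℘(z)` and `℘(τ z)` (helper85).
-/
import Fermat.Agent.Corollaries.Sch.DefsJ
import Fermat.Agent.Corollaries.Sch.NonZero
import Fermat.Agent.Moduli.Hom

/-!
# Algebraic independence of `℘(z)` and `℘(τ z)`

`eq_or_eq_neg`: `℘(u) = ℘(v)` implies `u - v ∈ L` or `u + v ∈ L`; `exists_ne_zeroJ`: if `τ = ω₂ / ω₁`
satisfies no integral quadratic equation, then `℘(z)` and `℘(τ z)` are algebraically independent.
-/

set_option autoImplicit false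

open Finset Filter Topology

open scoped PeriodPair

namespace Fermat.Agent.Cor.Sch

variable {L : PeriodPair}

/-- the curve `y² = x³ - (g₂/4) x - g₃/4` -/
noncomputable def wc (L : PeriodPair) : WeierstrassCurve ℂ := ⟨0, 0, 0, -L.g₂ / 4, -L.g₃ / 4⟩

theorem unif_wc (hΔ : L.g₂ ^ 3 - 27 * L.g₃ ^ 2 ≠ 0) : Moduli.Unif L (wc L) where
  g₂ := by
    simp only [wc, WeierstrassCurve.c₄, WeierstrassCurve.b₂, WeierstrassCurve.b₄]
    ring
  g₃ := by
    simp only [wc, WeierstrassCurve.c₆, WeierstrassCurve.b₂, WeierstrassCurve.b₄,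
      WeierstrassCurve.b₆]
    ring
  Δ := by
    have : (wc L).Δ = L.g₂ ^ 3 - 27 * L.g₃ ^ 2 := by
      simp only [wc, WeierstrassCurve.Δ, WeierstrassCurve.b₂, WeierstrassCurve.b₄,
        WeierstrassCurve.b₆, WeierstrassCurve.b₈]
      ring
    rw [this]; exact hΔ

theorem sub_mem_of_eq (hΔ : L.g₂ ^ 3 - 27 * L.g₃ ^ 2 ≠ 0) {u v : ℂ} (hu : u ∉ L.lattice)
    (hv : v ∉ L.lattice) (he : L.weierstrassP u = L.weierstrassP v)
    (he' : L.derivWeierstrassP u = L.derivWeierstrassP v) : u - v ∈ L.lattice := by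
  have h := unif_wc hΔ
  have h1 : h.hom u = h.hom v := by
    rw [Moduli.Unif.hom_apply, Moduli.Unif.hom_apply, h.φ_of_notMem hu, h.φ_of_notMem hv]
    simp only [Moduli.Unif.px, Moduli.Unif.py, he, he']
  rw [← h.hom_ker, map_sub, h1, sub_self]

/-- `℘` takes every value only at two points, `u` and `-u`. -/
theorem eq_or_eq_neg (hΔ : L.g₂ ^ 3 - 27 * L.g₃ ^ 2 ≠ 0) {u v : ℂ} (hu : u ∉ L.lattice)
    (hv : v ∉ L.lattice) (he : L.weierstrassP u = L.weierstrassP v) :
    u - v ∈ L.lattice ∨ u + v ∈ L.lattice := by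
  have h1 : L.derivWeierstrassP u ^ 2 = L.derivWeierstrassP v ^ 2 := by
    rw [L.derivWeierstrassP_sq u hu, L.derivWeierstrassP_sq v hv, he]
  rcases sq_eq_sq_iff_eq_or_eq_neg.1 h1 with h2 | h2
  · exact Or.inl (sub_mem_of_eq hΔ hu hv he h2)
  · right
    have hv' : -v ∉ L.lattice := fun h => hv (by simpa using neg_mem h)
    have := sub_mem_of_eq hΔ hu hv' (by rw [L.weierstrassP_neg, he])
      (by rw [L.derivWeierstrassP_neg, h2])
    rwa [sub_neg_eq_add] at this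

/-- `℘` tends to infinity at every point of the lattice. -/
theorem tendsto_inv_zero (L : PeriodPair) {l : ℂ} (hl : l ∈ L.lattice) :
    Tendsto (fun z => (L.weierstrassP z)⁻¹) (𝓝[≠] l) (𝓝 0) := by
  have h : Tendsto L.weierstrassP (𝓝[≠] l) (Bornology.cobounded ℂ) := by
    rw [tendsto_cobounded_iff_meromorphicOrderAt_neg (L.meromorphic_weierstrassP l),
      L.order_weierstrassP l hl]
    decide
  exact tendsto_inv₀_cobounded.comp h

/-- the domain of the function `z ↦ P(℘(z), ℘(τ z))` -/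
theorem isOpen_dom (L : PeriodPair) (τ : ℂ) :
    IsOpen {z : ℂ | z ∈ L.lattice ∨ τ * z ∈ L.lattice}ᶜ := by
  have h1 : IsClosed (L.lattice : Set ℂ) := L.isClosed_lattice
  have h2 : IsClosed ((fun z : ℂ => τ * z) ⁻¹' (L.lattice : Set ℂ)) :=
    h1.preimage (by fun_prop)
  exact (h1.union h2).isOpen_compl

theorem isPreconnected_dom (L : PeriodPair) {τ : ℂ} (hτ : τ ≠ 0) :
    IsPreconnected {z : ℂ | z ∈ L.lattice ∨ τ * z ∈ L.lattice}ᶜ := by
  apply Moduli.isPreconnected_compl_of_countable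
  have h1 : (L.lattice : Set ℂ).Countable := countable_lattice L
  have h2 : ((fun z : ℂ => τ * z) ⁻¹' (L.lattice : Set ℂ)).Countable :=
    h1.preimage (mul_right_injective₀ hτ)
  exact h1.union h2

theorem analyticOnNhd_fnJ (L : PeriodPair) (τ : ℂ) {a b : ℕ} (ξ : Fin a × Fin b → ℂ) :
    AnalyticOnNhd ℂ (fnJ L τ ξ) {z : ℂ | z ∈ L.lattice ∨ τ * z ∈ L.lattice}ᶜ := by
  intro z hz
  have hz1 : z ∉ L.lattice := fun h => hz (Or.inl h)
  have hz2 : τ * z ∉ L.lattice := fun h => hz (Or.inr h)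
  have h1 := L.analyticOnNhd_weierstrassP z hz1
  have h2 : AnalyticAt ℂ (fun z => L.weierstrassP (τ * z)) z :=
    AnalyticAt.fun_comp (L.analyticOnNhd_weierstrassP (τ * z) hz2)
      (analyticAt_const.mul analyticAt_id)
  unfold fnJ
  refine Finset.analyticAt_fun_sum _ fun p _ => ?_
  exact analyticAt_const.mul ((h1.pow _).mul (h2.pow _))

/-- `℘(z)` and `℘(τ z)` are algebraically independent if `τ` is not quadratic. -/
theorem exists_ne_zeroJ (hΔ : L.g₂ ^ 3 - 27 * L.g₃ ^ 2 ≠ 0) {τ : ℂ} (h12 : L.ω₂ = τ * L.ω₁)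
    (hq : ∀ a b c : ℤ, (a : ℂ) * τ ^ 2 + b * τ + c = 0 → a = 0) (a b : ℕ)
    (ξ : Fin a × Fin b → ℂ) (hξ : ξ ≠ 0) :
    ∃ t, iteratedDeriv t (fnJ L τ ξ) (pt L.ω₁ 0) ≠ 0 := by
  classical
  by_contra hcon
  push Not at hcon
  have hω₁ : L.ω₁ ≠ 0 := by
    intro h; exact L.ω₁_div_two_notMem_lattice (by rw [h]; simp)
  have hω₂ : L.ω₂ ≠ 0 := by
    intro h; exact L.ω₂_div_two_notMem_lattice (by rw [h]; simp)
  have hτ : τ ≠ 0 := by
    rintro rfl
    exact hω₂ (by rw [h12, zero_mul])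
  have hpt : pt L.ω₁ 0 ∈ {z : ℂ | z ∈ L.lattice ∨ τ * z ∈ L.lattice}ᶜ := by
    have e : pt L.ω₁ 0 = L.ω₁ / 2 := by simp [pt]
    rintro (h | h)
    · rw [e] at h; exact L.ω₁_div_two_notMem_lattice h
    · rw [e, ← mul_div_assoc, ← h12] at h; exact L.ω₂_div_two_notMem_lattice h
  have hzero : Set.EqOn (fnJ L τ ξ) 0 {z : ℂ | z ∈ L.lattice ∨ τ * z ∈ L.lattice}ᶜ := by
    refine (analyticOnNhd_fnJ L τ ξ).eqOn_zero_of_preconnected_of_eventuallyEq_zero
      (isPreconnected_dom L hτ) hpt ?_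
    have h3 : analyticOrderAt (fnJ L τ ξ) (pt L.ω₁ 0) = ⊤ := by
      rw [ENat.eq_top_iff_forall_ge]
      intro n
      exact (natCast_le_analyticOrderAt_iff_iteratedDeriv_eq_zero
        (analyticOnNhd_fnJ L τ ξ _ hpt)).mpr fun k _ => hcon k
    exact analyticOrderAt_eq_top.1 h3
  -- the coefficients
  obtain ⟨q, hqdef⟩ : ∃ q : Fin a → Polynomial ℂ, q = fun i => ∑ k : Fin b,
    Polynomial.C (ξ (i, k)) * Polynomial.X ^ (k : ℕ) := ⟨_, rfl⟩
  have hq0 : ∃ i, q i ≠ 0 := by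
    by_contra hcon2
    push Not at hcon2
    apply hξ
    funext p
    obtain ⟨i, k⟩ := p
    have h1 := hcon2 i
    rw [hqdef] at h1
    have h2 : (∑ k : Fin b, Polynomial.C (ξ (i, k)) * Polynomial.X ^ (k : ℕ)) = 0 := h1
    rw [← coeff_sum_C_mul_X_pow (fun k : Fin b => ξ (i, k)) k, h2, Polynomial.coeff_zero]
    rfl
  obtain ⟨i₀, hi₀⟩ : ∃ i₀, Maximal (fun i => q i ≠ 0) i₀ := by
    obtain ⟨i, hi⟩ := hq0
    have hfin : ({i | q i ≠ 0} : Set (Fin a)).Finite := Set.toFinite _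
    exact hfin.exists_maximal ⟨i, hi⟩
  have htop : ∀ i, i₀ < i → q i = 0 := by
    intro i hi
    by_contra h
    exact absurd (hi₀.2 h hi.le) (not_le.2 hi)
  -- the points
  have hmem : ∀ n : ℕ, (n : ℂ) * L.ω₂ ∈ L.lattice := fun n => by
    rw [← nsmul_eq_mul]
    exact nsmul_mem L.ω₂_mem_lattice n
  have hnot : ∀ n : ℤ, n ≠ 0 → (n : ℂ) * (τ * L.ω₂) ∉ L.lattice := by
    intro n hn h
    obtain ⟨x, y, hxy⟩ := PeriodPair.mem_lattice.1 h
    apply hn
    apply hq n (-y) (-x)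
    apply mul_right_cancel₀ hω₁
    push_cast
    rw [h12] at hxy
    linear_combination -hxy
  have hroot : ∀ n : ℕ, (q i₀).IsRoot (L.weierstrassP (((n + 1 : ℕ) : ℂ) * (τ * L.ω₂))) := by
    intro n
    set l : ℂ := ((n + 1 : ℕ) : ℂ) * L.ω₂ with hl
    have hlmem : l ∈ L.lattice := hmem _
    have hτl : τ * l = ((n + 1 : ℕ) : ℂ) * (τ * L.ω₂) := by rw [hl]; ring
    have hτl2 : τ * l ∉ L.lattice := by
      rw [hτl]
      have := hnot ((n + 1 : ℕ) : ℤ) (by exact_mod_cast Nat.succ_ne_zero n)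
      push_cast at this ⊢
      exact this
    rw [← hτl]
    have hc : Tendsto (fun z => L.weierstrassP (τ * z)) (𝓝[≠] l) (𝓝 (L.weierstrassP (τ * l))) := by
      have h1 : ContinuousAt L.weierstrassP (τ * l) :=
        (L.analyticOnNhd_weierstrassP (τ * l) hτl2).continuousAt
      have h2 : Tendsto (fun z : ℂ => τ * z) (𝓝[≠] l) (𝓝 (τ * l)) :=
        ((continuous_const.mul continuous_id).tendsto l).mono_left nhdsWithin_le_nhds
      exact h1.tendsto.comp h2
    have hinv := tendsto_inv_zero L hlmem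
    have hlim : Tendsto (fun z => ∑ i : Fin a, (q i).eval (L.weierstrassP (τ * z)) *
        ((L.weierstrassP z)⁻¹) ^ ((i₀ : ℕ) - (i : ℕ))) (𝓝[≠] l)
        (𝓝 (∑ i : Fin a, (q i).eval (L.weierstrassP (τ * l)) * 0 ^ ((i₀ : ℕ) - (i : ℕ)))) := by
      refine tendsto_finsetSum _ fun i _ => ?_
      exact (((q i).continuous.tendsto _).comp hc).mul (hinv.pow _)
    have hsum : (∑ i : Fin a, (q i).eval (L.weierstrassP (τ * l)) * 0 ^ ((i₀ : ℕ) - (i : ℕ))) =
        (q i₀).eval (L.weierstrassP (τ * l)) := by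
      rw [sum_eq_single i₀]
      · simp
      · intro i _ hi
        rcases lt_or_gt_of_ne hi with h | h
        · have : (i₀ : ℕ) - (i : ℕ) ≠ 0 := by
            have : (i : ℕ) < i₀ := h
            omega
          rw [zero_pow this, mul_zero]
        · rw [htop i h, Polynomial.eval_zero, zero_mul]
      · intro h; exact absurd (mem_univ _) h
    rw [hsum] at hlim
    have hev : ∀ᶠ z in 𝓝[≠] l, (∑ i : Fin a, (q i).eval (L.weierstrassP (τ * z)) *
        ((L.weierstrassP z)⁻¹) ^ ((i₀ : ℕ) - (i : ℕ))) = 0 := by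
      have e1 : ∀ᶠ z in 𝓝[≠] l, z ∉ L.lattice := Moduli.eventually_notMem_lattice L l
      have e2 : ∀ᶠ z in 𝓝[≠] l, τ * z ∉ L.lattice := by
        have h1 : ∀ᶠ y in 𝓝 (τ * l), y ∉ L.lattice := Moduli.eventually_notMem_lattice' L hτl2
        have h2 : Tendsto (fun z : ℂ => τ * z) (𝓝[≠] l) (𝓝 (τ * l)) :=
          ((continuous_const.mul continuous_id).tendsto l).mono_left nhdsWithin_le_nhds
        exact h2.eventually h1
      have e3 : ∀ᶠ z in 𝓝[≠] l, L.weierstrassP z ≠ 0 := by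
        have h : Tendsto L.weierstrassP (𝓝[≠] l) (Bornology.cobounded ℂ) := by
          rw [tendsto_cobounded_iff_meromorphicOrderAt_neg (L.meromorphic_weierstrassP l),
            L.order_weierstrassP l hlmem]
          decide
        have h2 := (tendsto_norm_cobounded_atTop.comp h).eventually_gt_atTop 0
        filter_upwards [h2] with z hz h0
        rw [Function.comp_apply, h0, norm_zero] at hz
        exact lt_irrefl _ hz
      filter_upwards [e1, e2, e3] with z h1 h2 h3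
      have h4 : fnJ L τ ξ z = 0 := hzero (fun h => by rcases h with h | h; exacts [h1 h, h2 h])
      have h5 : fnJ L τ ξ z = ∑ i : Fin a, (q i).eval (L.weierstrassP (τ * z)) *
          L.weierstrassP z ^ (i : ℕ) := by
        rw [fnJ, Fintype.sum_prod_type, hqdef]
        refine sum_congr rfl fun i _ => ?_
        rw [Polynomial.eval_finsetSum, sum_mul]
        refine sum_congr rfl fun k _ => ?_
        rw [Polynomial.eval_mul, Polynomial.eval_C, Polynomial.eval_pow, Polynomial.eval_X]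
        ring
      have h6 : (∑ i : Fin a, (q i).eval (L.weierstrassP (τ * z)) *
          ((L.weierstrassP z)⁻¹) ^ ((i₀ : ℕ) - (i : ℕ))) =
          fnJ L τ ξ z * ((L.weierstrassP z)⁻¹) ^ (i₀ : ℕ) := by
        rw [h5, sum_mul]
        refine sum_congr rfl fun i _ => ?_
        rcases le_or_gt i i₀ with h | h
        · have h' : (i : ℕ) ≤ i₀ := h
          have e : ((L.weierstrassP z)⁻¹) ^ (i₀ : ℕ) =
              ((L.weierstrassP z)⁻¹) ^ (i : ℕ) * ((L.weierstrassP z)⁻¹) ^ ((i₀ : ℕ) - (i : ℕ)) := by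
            rw [← pow_add]; congr 1; omega
          have e2 : L.weierstrassP z ^ (i : ℕ) * ((L.weierstrassP z)⁻¹) ^ (i : ℕ) = 1 := by
            rw [← mul_pow, mul_inv_cancel₀ h3, one_pow]
          rw [e]
          linear_combination (-(q i).eval (L.weierstrassP (τ * z)) *
            ((L.weierstrassP z)⁻¹) ^ ((i₀ : ℕ) - (i : ℕ))) * e2
        · rw [htop i h]; simp
      rw [h6, h4, zero_mul]
    have hlim0 : Tendsto (fun z => ∑ i : Fin a, (q i).eval (L.weierstrassP (τ * z)) *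
        ((L.weierstrassP z)⁻¹) ^ ((i₀ : ℕ) - (i : ℕ))) (𝓝[≠] l) (𝓝 0) :=
      tendsto_const_nhds.congr' (by filter_upwards [hev] with z hz using hz.symm)
    exact tendsto_nhds_unique hlim hlim0
  have hinj : Function.Injective fun n : ℕ =>
      L.weierstrassP (((n + 1 : ℕ) : ℂ) * (τ * L.ω₂)) := by
    intro n m hnm
    have hn := hnot ((n + 1 : ℕ) : ℤ) (by exact_mod_cast Nat.succ_ne_zero n)
    have hm := hnot ((m + 1 : ℕ) : ℤ) (by exact_mod_cast Nat.succ_ne_zero m)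
    rw [Int.cast_natCast] at hn hm
    rcases eq_or_eq_neg hΔ hn hm hnm with h | h
    · by_contra hne
      apply hnot (((n + 1 : ℕ) : ℤ) - ((m + 1 : ℕ) : ℤ)) (by omega)
      have e : ((((n + 1 : ℕ) : ℤ) - ((m + 1 : ℕ) : ℤ) : ℤ) : ℂ) * (τ * L.ω₂) =
          ((n + 1 : ℕ) : ℂ) * (τ * L.ω₂) - ((m + 1 : ℕ) : ℂ) * (τ * L.ω₂) := by
        push_cast; ring
      rw [e]; exact h
    · exfalso
      apply hnot (((n + 1 : ℕ) : ℤ) + ((m + 1 : ℕ) : ℤ)) (by omega)
      have e : ((((n + 1 : ℕ) : ℤ) + ((m + 1 : ℕ) : ℤ) : ℤ) : ℂ) * (τ * L.ω₂) =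
          ((n + 1 : ℕ) : ℂ) * (τ * L.ω₂) + ((m + 1 : ℕ) : ℂ) * (τ * L.ω₂) := by
        push_cast; ring
      rw [e]; exact h
  have hinf : Set.Infinite {x | (q i₀).IsRoot x} :=
    Set.infinite_of_injective_forall_mem hinj hroot
  exact hi₀.1 (Polynomial.eq_zero_of_infinite_isRoot _ hinf)

end Fermat.Agent.Cor.Sch
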