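/-
Schneider's theorem on `j` from the lemma of Schwarz (helper85).
-/
import Fermat.Agent.Corollaries.Sch.CoreJ
import Fermat.Agent.Corollaries.Sch.IndepJ
import Fermat.Agent.Corollaries.Sch.Main
import Fermat.Agent.Moduli.Eisen

/-!
# Schneider's theorem on `j` from the lemma of Schwarz

`quadratic_of`: the quotient `ω₂ / ω₁` of the periods of an elliptic curve with algebraic invariants
is transcendental or imaginary quadratic; `quadratic_of_j`: `τ` and `j(τ)` algebraic implies that `τ`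
is imaginary quadratic.
-/

set_option autoImplicit false

open Finset

namespace Fermat.Agent.Cor.Sch

/-- The Taylor coefficients of the powers of `℘` at a half period lie in a given field. -/
theorem rec_of_mem {F : IntermediateField ℚ ℂ} {L : PeriodPair} {ω : ℂ} (hω : ω ∈ L.lattice)
    (h2 : ω / 2 ∉ L.lattice) (hh : L.g₂ / 2 ∈ F) (he : P L ω 0 ∈ F) :
    ∃ (P' : ℕ → F) (Q' : ℕ → ℕ → F), Rec (K := F) ⟨L.g₂ / 2, hh⟩ P' Q' ∧
      ∀ b n, algebraMap F ℂ (Q' b n) = Pw L ω b n := by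
  have hP : ∀ n, P L ω n ∈ F := by
    intro n
    induction n using Nat.strong_induction_on with
    | _ n ih =>
      rcases n with _ | _ | n
      · exact he
      · rw [zero_add, P_one hω]; exact zero_mem _
      · rw [P_succ_succ h2]
        refine sub_mem (mul_mem (ofNat_mem _ 6) (sum_mem fun k hk => ?_)) ?_
        · have hk' : k ≤ n := Nat.lt_succ_iff.1 (mem_range.1 hk)
          exact mul_mem (mul_mem (natCast_mem _ _) (ih k (by omega))) (ih (n - k) (by omega))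
        · split_ifs
          · exact hh
          · exact zero_mem _
  have hQ : ∀ b n, Pw L ω b n ∈ F := by
    intro b
    induction b with
    | zero =>
      intro n
      rw [Pw_zero]
      split_ifs
      · exact one_mem _
      · exact zero_mem _
    | succ b ih =>
      intro n
      rw [Pw_succ h2]
      exact sum_mem fun k _ => mul_mem (mul_mem (natCast_mem _ _) (ih k)) (hP _)
  refine ⟨fun n => ⟨P L ω n, hP n⟩, fun b n => ⟨Pw L ω b n, hQ b n⟩, ?_, fun b n => rfl⟩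
  refine ⟨Subtype.ext (P_one hω), fun n => ?_, fun n => ?_, fun b n => ?_⟩
  · apply (algebraMap F ℂ).injective
    rw [map_sub, map_mul, map_sum]
    simp only [map_mul, map_natCast, map_ofNat, apply_ite (algebraMap F ℂ), map_zero]
    exact P_succ_succ h2 n
  · apply (algebraMap F ℂ).injective
    simp only [apply_ite (algebraMap F ℂ), map_zero, map_one]
    exact Pw_zero n
  · apply (algebraMap F ℂ).injective
    rw [map_sum]
    simp only [map_mul, map_natCast]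
    exact Pw_succ h2 b n

/-- **The quotient of the periods** of a lattice with algebraic invariants is transcendental or
quadratic. -/
theorem quadratic_of (hA : SchwarzJStmt) {L : PeriodPair} (hg₂ : IsAlgebraic ℚ L.g₂)
    (hg₃ : IsAlgebraic ℚ L.g₃) (hΔ : L.g₂ ^ 3 - 27 * L.g₃ ^ 2 ≠ 0) {τ : ℂ}
    (h12 : L.ω₂ = τ * L.ω₁) (hτ : IsAlgebraic ℚ τ) :
    ∃ a b c : ℤ, a ≠ 0 ∧ (a : ℂ) * τ ^ 2 + b * τ + c = 0 := by
  classical
  by_contra hcon
  push Not at hcon
  have hq : ∀ a b c : ℤ, (a : ℂ) * τ ^ 2 + b * τ + c = 0 → a = 0 := by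
    intro a b c h
    by_contra ha
    exact hcon a b c ha h
  have hω : L.ω₁ ∈ L.lattice := L.ω₁_mem_lattice
  have h2 := L.ω₁_div_two_notMem_lattice
  have hτω : τ * L.ω₁ ∈ L.lattice := by rw [← h12]; exact L.ω₂_mem_lattice
  have hτ2 : τ * L.ω₁ / 2 ∉ L.lattice := by rw [← h12]; exact L.ω₂_div_two_notMem_lattice
  have hτ0 : τ ≠ 0 := by
    rintro rfl
    apply hτ2
    simp
  have h2alg : IsAlgebraic ℚ (2 : ℂ) := by
    exact_mod_cast isAlgebraic_natCast (R := ℚ) (A := ℂ) 2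
  have he : IsAlgebraic ℚ (P L L.ω₁ 0) := isAlgebraic_of_cubic hg₂ hg₃ (P_zero_eq hω h2)
  have he' : IsAlgebraic ℚ (P L (τ * L.ω₁) 0) :=
    isAlgebraic_of_cubic hg₂ hg₃ (P_zero_eq hτω hτ2)
  have hh : IsAlgebraic ℚ (L.g₂ / 2) := by
    rw [div_eq_mul_inv]; exact hg₂.mul h2alg.inv
  obtain ⟨S, hS⟩ : ∃ S : Set ℂ, S = {τ, L.g₂ / 2, P L L.ω₁ 0, P L (τ * L.ω₁) 0} := ⟨_, rfl⟩
  have hfin : Finite S := by rw [hS]; exact Set.toFinite _
  have hfd : FiniteDimensional ℚ (IntermediateField.adjoin ℚ S) := by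
    apply IntermediateField.finiteDimensional_adjoin
    intro x hx
    rw [hS] at hx
    rcases hx with rfl | rfl | rfl | rfl
    · exact hτ.isIntegral
    · exact hh.isIntegral
    · exact he.isIntegral
    · exact he'.isIntegral
  have hnf : NumberField (IntermediateField.adjoin ℚ S) := ⟨⟩
  have hwS : τ ∈ IntermediateField.adjoin ℚ S :=
    IntermediateField.subset_adjoin _ _ (by rw [hS]; simp)
  have hhS : L.g₂ / 2 ∈ IntermediateField.adjoin ℚ S :=
    IntermediateField.subset_adjoin _ _ (by rw [hS]; simp)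
  have heS : P L L.ω₁ 0 ∈ IntermediateField.adjoin ℚ S :=
    IntermediateField.subset_adjoin _ _ (by rw [hS]; simp)
  have heS' : P L (τ * L.ω₁) 0 ∈ IntermediateField.adjoin ℚ S :=
    IntermediateField.subset_adjoin _ _ (by rw [hS]; simp)
  obtain ⟨P₁, Q₁, R, hQ⟩ := rec_of_mem hω h2 hhS heS
  obtain ⟨P₂, Q₂, R', hQ'⟩ := rec_of_mem hτω hτ2 hhS heS'
  exact coreJ hA (algebraMap (IntermediateField.adjoin ℚ S) ℂ) hτ0 hω h2 hτω hτ2
    (fun a b ξ hξ => exists_ne_zeroJ hΔ h12 hq a b ξ hξ) R R' hQ hQ' (w := ⟨τ, hwS⟩) rfl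

open UpperHalfPlane ModularForm EisensteinSeries Fermat.Agent.Moduli Fermat.Agent.JLevelOne in
/-- If `j(τ)` is algebraic, a multiple of the lattice `ℤ + ℤ τ` has algebraic invariants, with
`g₂³ - 27 g₃² = 1`. -/
theorem exists_lattice_of_j (τ : ℍ) (hj : IsAlgebraic ℚ (jFun τ)) :
    ∃ (α : ℂ) (hα : α ≠ 0), IsAlgebraic ℚ (mkPP α hα τ).g₂ ∧ IsAlgebraic ℚ (mkPP α hα τ).g₃ ∧
      (mkPP α hα τ).g₂ ^ 3 - 27 * (mkPP α hα τ).g₃ ^ 2 = 1 := by
  obtain ⟨α, hα12⟩ := IsAlgClosed.exists_pow_nat_eq ((2 * (Real.pi : ℂ)) ^ 12 * discriminant τ)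
    (n := 12) (by norm_num)
  have hd0 := discriminant_ne_zero τ
  have hpi : (2 * (Real.pi : ℂ)) ^ 12 ≠ 0 := pow_ne_zero _ two_pi_ne_zero'
  have hα : α ≠ 0 := by
    rintro rfl
    rw [zero_pow (by norm_num)] at hα12
    exact mul_ne_zero hpi hd0 hα12.symm
  have hone : (2 * (Real.pi : ℂ) / α) ^ 12 * discriminant τ = 1 := by
    rw [div_pow, div_mul_eq_mul_div, hα12]
    exact div_self (mul_ne_zero hpi hd0)
  have hd : discriminant τ = (E₄ τ ^ 3 - E₆ τ ^ 2) / 1728 := discriminant_eq_E₄_cube_sub_E₆_sq τ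
  have hj1 : jFun τ * discriminant τ = E₄ τ ^ 3 := jFun_mul_discriminant τ
  have h1 : (mkPP α hα τ).g₂ ^ 3 = jFun τ * (((1728 : ℕ) : ℂ))⁻¹ := by
    rw [g₂_mkPP]
    push_cast
    linear_combination (-(2 * (Real.pi : ℂ) / α) ^ 12 / 1728) * hj1 + jFun τ / 1728 * hone
  have h3 : (mkPP α hα τ).g₂ ^ 3 - 27 * (mkPP α hα τ).g₃ ^ 2 = 1 := by
    rw [g₂_mkPP, g₃_mkPP, ← hone, hd]
    ring
  have h4 : (mkPP α hα τ).g₃ ^ 2 = ((mkPP α hα τ).g₂ ^ 3 - 1) * (((27 : ℕ) : ℂ))⁻¹ := by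
    push_cast
    linear_combination (-1 / 27 : ℂ) * h3
  have h5 : IsAlgebraic ℚ ((mkPP α hα τ).g₂ ^ 3) := by
    rw [h1]
    exact hj.mul (isAlgebraic_natCast 1728).inv
  refine ⟨α, hα, h5.of_pow (by norm_num), ?_, h3⟩
  have h6 : IsAlgebraic ℚ ((mkPP α hα τ).g₃ ^ 2) := by
    rw [h4]
    exact (h5.sub isAlgebraic_one).mul (isAlgebraic_natCast 27).inv
  exact h6.of_pow (by norm_num)

open UpperHalfPlane Fermat.Agent.Moduli Fermat.Agent.JLevelOne in
/-- **Schneider's theorem on `j`**, from the lemma of Schwarz. -/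
theorem quadratic_of_j (hA : SchwarzJStmt) (τ : ℍ) (hτ : IsAlgebraic ℚ (τ : ℂ))
    (hj : IsAlgebraic ℚ (jFun τ)) :
    ∃ a b c : ℤ, a ≠ 0 ∧ (a : ℂ) * (τ : ℂ) ^ 2 + b * (τ : ℂ) + c = 0 := by
  obtain ⟨α, hα, h2, h3, h1⟩ := exists_lattice_of_j τ hj
  exact quadratic_of hA h2 h3 (by rw [h1]; exact one_ne_zero) (L := mkPP α hα τ)
    (by rw [mkPP_ω₁, mkPP_ω₂, mul_comm]) hτ

end Fermat.Agent.Cor.Sch
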