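import Fermat.Agent.Corollaries.Sch.DefsJ
import Fermat.Agent.Corollaries.Sch.Schwarz

/-!
# Schwarz's lemma for polynomials in `℘(z)` and `℘(τ z)`
-/

set_option autoImplicit false

open Finset Filter Topology

namespace Fermat.Agent.Cor.Sch

namespace SchwarzJ

open Schwarz

variable (L : PeriodPair)

/-- differences with lattice points -/
theorem norm_sub_le_of_nm {N : ℕ} (hN : 1 ≤ N) {z : ℂ} (hz : nm L z ≤ N + 1 / 2) {μ : ℂ}
    (hμ : μ ∈ lam L N) : ‖z - μ‖ ≤ (1 + 3 * (‖L.ω₁‖ + ‖L.ω₂‖)) * N := by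
  have hNR : (1 : ℝ) ≤ N := by exact_mod_cast hN
  have hC₂ : 0 ≤ ‖L.ω₁‖ + ‖L.ω₂‖ := by positivity
  have h1 := norm_le_nm L z
  have h2 := norm_le_nm L μ
  have h3 := nm_le_of_mem L hμ
  have h4 := norm_sub_le z μ
  have h5 : nm L μ * (‖L.ω₁‖ + ‖L.ω₂‖) ≤ N * (‖L.ω₁‖ + ‖L.ω₂‖) :=
    mul_le_mul_of_nonneg_right h3 hC₂
  have h6 : nm L z * (‖L.ω₁‖ + ‖L.ω₂‖) ≤ (N + 1 / 2) * (‖L.ω₁‖ + ‖L.ω₂‖) :=
    mul_le_mul_of_nonneg_right hz hC₂
  nlinarith

theorem isBounded_nm (N : ℕ) : Bornology.IsBounded {z | nm L z < N + 1 / 2} := by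
  refine (Metric.isBounded_closedBall (x := (0 : ℂ))
    (r := (N + 1 / 2) * (‖L.ω₁‖ + ‖L.ω₂‖))).subset fun z hz => ?_
  rw [mem_closedBall_zero_iff]
  refine (norm_le_nm L z).trans (mul_le_mul_of_nonneg_right ?_ (by positivity))
  exact le_of_lt hz

theorem mem_compl_of_nm {N : ℕ} {z : ℂ} (hz : nm L z ≤ N + 1 / 2) :
    z ∈ ((L.lattice : Set ℂ) \ lam L N)ᶜ := fun h => h.2 (mem_lam L h.1 hz)

/-- the bound for `℘` times the denominator inside -/
theorem norm_rr_le {N : ℕ} (hN : 1 ≤ N) {M : ℝ} (hM : 1 ≤ M)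
    (hbd : ∀ z : ℂ, nm L z = N + 1 / 2 → ‖L.weierstrassP z‖ ≤ M) {z : ℂ}
    (hz : nm L z ≤ N + 1 / 2) :
    ‖rr L N z‖ ≤ M * ((1 + 3 * (‖L.ω₁‖ + ‖L.ω₂‖)) * N) ^ (18 * N ^ 2) := by
  have hNR : (1 : ℝ) ≤ N := by exact_mod_cast hN
  have hC₂ : 0 ≤ ‖L.ω₁‖ + ‖L.ω₂‖ := by positivity
  have hT : (1 : ℝ) ≤ (1 + 3 * (‖L.ω₁‖ + ‖L.ω₂‖)) * N :=
    one_le_mul_of_one_le_of_one_le (by linarith) hNR
  have hbdry : ∀ w : ℂ, nm L w = N + 1 / 2 →
      ‖rr L N w‖ ≤ M * ((1 + 3 * (‖L.ω₁‖ + ‖L.ω₂‖)) * N) ^ (18 * N ^ 2) := by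
    intro w hw
    have hwl : w ∉ lam L N := by
      intro h
      have := nm_le_of_mem L h
      linarith
    rw [rr, if_neg hwl, norm_mul]
    exact mul_le_mul (hbd w hw)
      (norm_den_le L hN hT fun μ hμ => norm_sub_le_of_nm L hN hw.le hμ) (norm_nonneg _)
      (by linarith)
  rcases hz.lt_or_eq with h | h
  · have hcl : closure {z | nm L z < N + 1 / 2} ⊆ ((L.lattice : Set ℂ) \ lam L N)ᶜ := by
      intro w hw
      exact mem_compl_of_nm L (closure_lt_subset_le (continuous_nm L) continuous_const hw)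
    have hd : DifferentiableOn ℂ (rr L N) (closure {z | nm L z < N + 1 / 2}) := fun w hw =>
      (differentiableAt_rr L (hcl hw)).differentiableWithinAt
    exact Complex.norm_le_of_forall_mem_frontier_norm_le (isBounded_nm L N) hd.diffContOnCl
      (fun w hw => hbdry w (frontier_lt_subset_eq (continuous_nm L) continuous_const hw))
      (subset_closure h)
  · exact hbdry z h

variable {a b : ℕ}

/-- the holomorphic function -/
noncomputable def hJ (N : ℕ) (τ : ℂ) (ξ : Fin a × Fin b → ℂ) (z : ℂ) : ℂ :=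
  ∑ p, ξ p * ((rr L N z ^ (p.1 : ℕ) * den L N z ^ (a - (p.1 : ℕ))) *
    (rr L N (τ * z) ^ (p.2 : ℕ) * den L N (τ * z) ^ (b - (p.2 : ℕ))))

theorem differentiable_den (N : ℕ) : Differentiable ℂ (den L N) := by
  unfold den
  fun_prop

theorem differentiableAt_hJ {N : ℕ} {τ : ℂ} (ξ : Fin a × Fin b → ℂ) {z : ℂ}
    (h1 : z ∈ ((L.lattice : Set ℂ) \ lam L N)ᶜ) (h2 : τ * z ∈ ((L.lattice : Set ℂ) \ lam L N)ᶜ) :
    DifferentiableAt ℂ (hJ L N τ ξ) z := by
  have d1 := differentiableAt_rr L h1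
  have d2 : DifferentiableAt ℂ (fun w => rr L N (τ * w)) z :=
    DifferentiableAt.comp z (differentiableAt_rr L h2) (by fun_prop)
  have d3 : DifferentiableAt ℂ (den L N) z := differentiable_den L N z
  have d4 : DifferentiableAt ℂ (fun w => den L N (τ * w)) z :=
    ((differentiable_den L N).comp (by fun_prop : Differentiable ℂ fun w : ℂ => τ * w)) z
  unfold hJ
  refine DifferentiableAt.fun_sum fun p _ => ?_
  exact (differentiableAt_const _).mul (((d1.pow _).mul (d3.pow _)).mul ((d2.pow _).mul (d4.pow _)))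

theorem hJ_eq {N : ℕ} {τ : ℂ} (ξ : Fin a × Fin b → ℂ) {z : ℂ} (h1 : z ∉ lam L N)
    (h2 : τ * z ∉ lam L N) :
    hJ L N τ ξ z = fnJ L τ ξ z * (den L N z ^ a * den L N (τ * z) ^ b) := by
  rw [hJ, fnJ, sum_mul]
  refine sum_congr rfl fun p _ => ?_
  have e1 : den L N z ^ a = den L N z ^ (p.1 : ℕ) * den L N z ^ (a - (p.1 : ℕ)) := by
    rw [← pow_add]
    congr 1
    have := p.1.isLt
    omega
  have e2 : den L N (τ * z) ^ b =
      den L N (τ * z) ^ (p.2 : ℕ) * den L N (τ * z) ^ (b - (p.2 : ℕ)) := by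
    rw [← pow_add]
    congr 1
    have := p.2.isLt
    omega
  rw [rr, if_neg h1, rr, if_neg h2, e1, e2, mul_pow, mul_pow]
  ring

theorem norm_hJ_le {N : ℕ} {τ : ℂ} {ξ : Fin a × Fin b → ℂ} {B : ℝ} (hB : ∀ p, ‖ξ p‖ ≤ B)
    {z : ℂ} {T M : ℝ} (hT : 1 ≤ T) (hM : 1 ≤ M) (h1 : ‖rr L N z‖ ≤ M * T)
    (h2 : ‖den L N z‖ ≤ T) (h3 : ‖rr L N (τ * z)‖ ≤ M * T) (h4 : ‖den L N (τ * z)‖ ≤ T) :
    ‖hJ L N τ ξ z‖ ≤ a * b * B * (M * T) ^ (a + b) := by
  have hMT : 1 ≤ M * T := one_le_mul_of_one_le_of_one_le hM hT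
  have hTM : T ≤ M * T := le_mul_of_one_le_left (by linarith) hM
  have key : ∀ (x y : ℂ) (n k : ℕ), k ≤ n → ‖x‖ ≤ M * T → ‖y‖ ≤ T →
      ‖x ^ k * y ^ (n - k)‖ ≤ (M * T) ^ n := by
    intro x y n k hk hx hy
    rw [norm_mul, norm_pow, norm_pow]
    calc ‖x‖ ^ k * ‖y‖ ^ (n - k) ≤ (M * T) ^ k * (M * T) ^ (n - k) :=
          mul_le_mul (pow_le_pow_left₀ (norm_nonneg _) hx _)
            (pow_le_pow_left₀ (norm_nonneg _) (hy.trans hTM) _) (by positivity) (by positivity)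
      _ = (M * T) ^ n := by
          rw [← pow_add]
          congr 1
          omega
  rw [hJ]
  refine (norm_sum_le _ _).trans ?_
  calc ∑ p : Fin a × Fin b, ‖ξ p * ((rr L N z ^ (p.1 : ℕ) * den L N z ^ (a - (p.1 : ℕ))) *
        (rr L N (τ * z) ^ (p.2 : ℕ) * den L N (τ * z) ^ (b - (p.2 : ℕ))))‖ ≤
      ∑ _p : Fin a × Fin b, B * (M * T) ^ (a + b) := by
        refine sum_le_sum fun p _ => ?_
        rw [norm_mul, norm_mul _ (rr L N (τ * z) ^ (p.2 : ℕ) * _), pow_add]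
        have hB0 : 0 ≤ B := (norm_nonneg _).trans (hB p)
        exact mul_le_mul (hB p) (mul_le_mul (key _ _ a p.1 p.1.isLt.le h1 h2)
          (key _ _ b p.2 p.2.isLt.le h3 h4) (norm_nonneg _) (by positivity)) (by positivity) hB0
    _ = a * b * B * (M * T) ^ (a + b) := by
        rw [sum_const, card_univ, Fintype.card_prod, Fintype.card_fin, Fintype.card_fin,
          nsmul_eq_mul]
        push_cast
        ring

/-- the final inequality -/
theorem final_leJ {N m s n : ℕ} (hN : 1 ≤ N) (hm : 0 < m) {A P c C₁ M W δ : ℝ} (hc : 1 ≤ c)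
    (hC₁ : 1 ≤ C₁) (hM : 1 ≤ M) (hW : 1 ≤ W) (hδ0 : 0 < δ) (hδ1 : δ ≤ 1)
    (hA1 : c * M * δ⁻¹ ≤ A) (hA2 : 2 * C₁ * W * δ⁻¹ ≤ A) (hP : 0 ≤ P) :
    (s.factorial : ℝ) * (W ^ (m * s) * ((P * (M * (c * N) ^ (18 * N ^ 2)) ^ n) /
      (N / (2 * C₁)) ^ (m * s)) / (δ ^ (18 * N ^ 2)) ^ n) / δ ^ s ≤
      s.factorial * P * (A * N) ^ (18 * N ^ 2 * n) * (A / N) ^ (m * s) := by
  have hNR : (1 : ℝ) ≤ N := by exact_mod_cast hN
  have hN0 : (0 : ℝ) < N := by linarith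
  have hD : 1 ≤ δ⁻¹ := (one_le_inv₀ hδ0).mpr hδ1
  have hD0 : 0 < δ⁻¹ := by linarith
  have h2 : (M * (c * N) ^ (18 * N ^ 2)) ^ n * δ⁻¹ ^ (18 * N ^ 2 * n) ≤
      (A * N) ^ (18 * N ^ 2 * n) := by
    have h3 : M ^ n ≤ M ^ (18 * N ^ 2 * n) := by
      refine pow_le_pow_right₀ hM ?_
      have : 1 ≤ 18 * N ^ 2 := by nlinarith
      nlinarith
    calc (M * (c * N) ^ (18 * N ^ 2)) ^ n * δ⁻¹ ^ (18 * N ^ 2 * n) =
        M ^ n * ((c * N) ^ (18 * N ^ 2)) ^ n * δ⁻¹ ^ (18 * N ^ 2 * n) := by rw [mul_pow]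
      _ ≤ M ^ (18 * N ^ 2 * n) * ((c * N) ^ (18 * N ^ 2)) ^ n * δ⁻¹ ^ (18 * N ^ 2 * n) := by
          gcongr
      _ = (c * M * δ⁻¹ * N) ^ (18 * N ^ 2 * n) := by
          rw [← pow_mul, ← mul_pow, ← mul_pow]
          congr 1
          ring
      _ ≤ (A * N) ^ (18 * N ^ 2 * n) :=
          pow_le_pow_left₀ (by positivity) (mul_le_mul_of_nonneg_right hA1 hN0.le) _
  have h3 : W ^ (m * s) / (N / (2 * C₁)) ^ (m * s) * δ⁻¹ ^ s ≤ (A / N) ^ (m * s) := by
    have h4 : δ⁻¹ ^ s ≤ δ⁻¹ ^ (m * s) :=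
      pow_le_pow_right₀ hD (Nat.le_mul_of_pos_left s hm)
    calc W ^ (m * s) / (N / (2 * C₁)) ^ (m * s) * δ⁻¹ ^ s ≤
        W ^ (m * s) / (N / (2 * C₁)) ^ (m * s) * δ⁻¹ ^ (m * s) := by gcongr
      _ = (2 * C₁ * W * δ⁻¹ / N) ^ (m * s) := by
          rw [← div_pow, ← mul_pow]
          congr 1
          field_simp
      _ ≤ (A / N) ^ (m * s) :=
          pow_le_pow_left₀ (by positivity) (div_le_div_of_nonneg_right hA2 hN0.le) _
  have hA0 : 0 ≤ A := le_trans (by positivity) hA1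
  have e : (s.factorial : ℝ) * (W ^ (m * s) * ((P * (M * (c * N) ^ (18 * N ^ 2)) ^ n) /
      (N / (2 * C₁)) ^ (m * s)) / (δ ^ (18 * N ^ 2)) ^ n) / δ ^ s =
      s.factorial * P * ((M * (c * N) ^ (18 * N ^ 2)) ^ n * δ⁻¹ ^ (18 * N ^ 2 * n)) *
        (W ^ (m * s) / (N / (2 * C₁)) ^ (m * s) * δ⁻¹ ^ s) := by
    rw [inv_pow, inv_pow, ← pow_mul δ]
    ring
  rw [e]
  refine mul_le_mul ?_ h3 (by positivity) (by positivity)
  exact mul_le_mul_of_nonneg_left h2 (by positivity)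

/-- the distance of the points from the lattice -/
theorem exists_dist {ω : ℂ} (hω : ω ∈ L.lattice) (hω2 : ω / 2 ∉ L.lattice) :
    ∃ δ : ℝ, 0 < δ ∧ δ ≤ 1 ∧ ∀ (j : ℕ) (l : ℂ), l ∈ L.lattice → 2 * δ ≤ ‖pt ω j - l‖ := by
  have hLo : IsOpen (L.lattice : Set ℂ)ᶜ := L.isClosed_lattice.isOpen_compl
  obtain ⟨ε, hε, hball⟩ := Metric.isOpen_iff.mp hLo (ω / 2) hω2
  refine ⟨min 1 (ε / 2), by positivity, min_le_left _ _, fun j l hl => ?_⟩
  have h1 : pt ω j - l = ω / 2 - (l - j * ω) := by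
    rw [pt]
    ring
  have hl' : l - j * ω ∈ L.lattice := by
    refine L.lattice.sub_mem hl ?_
    have := L.lattice.smul_mem (j : ℤ) hω
    simpa using this
  rw [h1]
  by_contra h2
  push Not at h2
  have h3 : l - j * ω ∈ Metric.ball (ω / 2) ε := by
    rw [mem_ball_iff_norm']
    have : min 1 (ε / 2) ≤ ε / 2 := min_le_right _ _
    linarith
  exact hball h3 hl'

end SchwarzJ

open Schwarz SchwarzJ

/-- **(JA)** Schwarz's lemma for polynomials in `℘(z)` and `℘(τ z)` -/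
theorem schwarzJStmt : SchwarzJStmt := by
  classical
  intro L τ ω hτ hω hω2 hτω hτω2 m hm
  have hω0 : ω ≠ 0 := by
    rintro rfl
    apply hω2
    simp
  obtain ⟨C₀, hC₀, hnm⟩ := exists_nm_le L
  obtain ⟨M, hM, hbd⟩ := exists_bound L
  have hLo : IsOpen (L.lattice : Set ℂ)ᶜ := L.isClosed_lattice.isOpen_compl
  obtain ⟨δ₁, hδ₁0, hδ₁1, hδ₁⟩ := exists_dist L hω hω2
  obtain ⟨δ₂, hδ₂0, hδ₂1, hδ₂⟩ := exists_dist L hτω hτω2
  have hptτ : ∀ j : ℕ, τ * pt ω j = pt (τ * ω) j := by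
    intro j
    rw [pt, pt]
    ring
  have hptN : ∀ j : ℕ, pt ω j ∉ L.lattice := by
    intro j h
    have := hδ₁ j _ h
    rw [sub_self, norm_zero] at this
    linarith
  have hptN2 : ∀ j : ℕ, τ * pt ω j ∉ L.lattice := by
    intro j h
    rw [hptτ] at h
    have := hδ₂ j _ h
    rw [sub_self, norm_zero] at this
    linarith
  have hinj : Function.Injective (pt ω) := by
    intro i j hij
    rw [pt, pt] at hij
    have h1 : (i : ℂ) * ω = j * ω := add_right_cancel hij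
    exact_mod_cast mul_right_cancel₀ hω0 h1
  -- the radius of the small circles
  have hτn : 0 ≤ ‖τ‖ := norm_nonneg τ
  set δ₀ : ℝ := min δ₁ δ₂ with hδ₀
  have hδ₀0 : 0 < δ₀ := lt_min hδ₁0 hδ₂0
  set δ : ℝ := δ₀ / (1 + ‖τ‖) with hδdef
  have hδ0 : 0 < δ := by positivity
  have hδτ : δ * (1 + ‖τ‖) = δ₀ := by
    rw [hδdef]
    field_simp
  have hδle : δ ≤ δ₀ := by nlinarith
  have hδτ' : ‖τ‖ * δ ≤ δ₀ := by nlinarith
  have hδ1 : δ ≤ 1 := hδle.trans ((min_le_left _ _).trans hδ₁1)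
  have hC₂ : 0 ≤ ‖L.ω₁‖ + ‖L.ω₂‖ := by positivity
  set c : ℝ := 1 + 3 * (‖L.ω₁‖ + ‖L.ω₂‖) with hc
  have hc1 : 1 ≤ c := by linarith
  set C₁ : ℝ := C₀ * (1 + ‖τ‖) with hC₁def
  have hC₁ : 1 ≤ C₁ := one_le_mul_of_one_le_of_one_le hC₀ (by linarith)
  have hmω : 0 ≤ m * ‖ω‖ := by positivity
  set W : ℝ := 2 * (m * ‖ω‖) + 1 with hW
  have hW1 : 1 ≤ W := by linarith
  have hD : 1 ≤ δ⁻¹ := (one_le_inv₀ hδ0).mpr hδ1
  have p1 : 0 ≤ c * M * δ⁻¹ := by positivity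
  have p2 : 0 ≤ 2 * C₁ * W * δ⁻¹ := by positivity
  have p3 : 0 ≤ 2 * C₁ * W := by positivity
  refine ⟨1 + c * M * δ⁻¹ + 2 * C₁ * W * δ⁻¹ + 2 * C₁ * W, by linarith,
    fun N a b s ξ B hAN hB hzero j hj => ?_⟩
  have hNR : (1 : ℝ) ≤ N := by linarith
  have hN : 1 ≤ N := by exact_mod_cast hNR
  have hN0 : (0 : ℝ) < N := by linarith
  have hNW : 2 * C₁ * W ≤ N := by linarith
  have hB0 : 0 ≤ a * b * B := by
    rcases Nat.eq_zero_or_pos a with h | ha
    · simp [h]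
    rcases Nat.eq_zero_or_pos b with h | hb
    · simp [h]
    have := (norm_nonneg _).trans (hB (⟨0, ha⟩, ⟨0, hb⟩))
    positivity
  set V₀ : Set ℂ := ((L.lattice : Set ℂ) \ lam L N)ᶜ with hV₀
  have hV₀o : IsOpen V₀ := L.isOpen_compl_lattice_sdiff
  set V : Set ℂ := V₀ ∩ (fun z => τ * z) ⁻¹' V₀ with hV
  have hVo : IsOpen V := hV₀o.inter (hV₀o.preimage (by fun_prop))
  set ρ : ℝ := N / C₁ with hρ
  have hρ0 : 0 < ρ := by positivity
  have hρ2 : (N : ℝ) / (2 * C₁) = ρ / 2 := by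
    rw [hρ]
    field_simp
  have hρW : W ≤ ρ / 2 := by
    rw [← hρ2, le_div_iff₀ (by positivity)]
    linarith
  have hnm1 : ∀ z : ℂ, ‖z‖ ≤ ρ → nm L z ≤ N + 1 / 2 ∧ nm L (τ * z) ≤ N + 1 / 2 := by
    intro z hz
    have h1 : C₁ * ‖z‖ ≤ N := by
      rw [hρ, le_div_iff₀ (by linarith)] at hz
      linarith
    have h2 := hnm z
    have h3 := hnm (τ * z)
    rw [norm_mul] at h3
    have h4 : C₀ * ‖z‖ ≤ C₁ * ‖z‖ := by
      refine mul_le_mul_of_nonneg_right ?_ (norm_nonneg _)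
      rw [hC₁def]
      nlinarith
    have h5 : C₀ * (‖τ‖ * ‖z‖) ≤ C₁ * ‖z‖ := by
      rw [hC₁def, ← mul_assoc]
      refine mul_le_mul_of_nonneg_right ?_ (norm_nonneg _)
      nlinarith
    constructor <;> linarith
  have hclV : Metric.closedBall (0 : ℂ) ρ ⊆ V := by
    intro z hz
    obtain ⟨h1, h2⟩ := hnm1 z (by simpa using hz)
    exact ⟨mem_compl_of_nm L h1, mem_compl_of_nm L h2⟩
  have hptV : ∀ i : ℕ, pt ω i ∈ V := fun i => ⟨fun h => hptN i h.1, fun h => hptN2 i h.1⟩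
  have hJd : DifferentiableOn ℂ (hJ L N τ ξ) V := fun z hz =>
    (differentiableAt_hJ L ξ hz.1 hz.2).differentiableWithinAt
  set Y : Set ℂ := (L.lattice : Set ℂ)ᶜ ∩ (fun z => τ * z) ⁻¹' (L.lattice : Set ℂ)ᶜ with hY
  have hYo : IsOpen Y := hLo.inter (hLo.preimage (by fun_prop))
  have hptY : ∀ i : ℕ, pt ω i ∈ Y := fun i => ⟨hptN i, hptN2 i⟩
  have hfD : DifferentiableOn ℂ (fnJ L τ ξ) Y := by
    intro z hz
    refine DifferentiableAt.differentiableWithinAt ?_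
    have h2 := L.differentiableOn_weierstrassP.differentiableAt (hLo.mem_nhds hz.1)
    have h3 : DifferentiableAt ℂ (fun w => L.weierstrassP (τ * w)) z :=
      DifferentiableAt.comp z (L.differentiableOn_weierstrassP.differentiableAt
        (hLo.mem_nhds hz.2)) (by fun_prop)
    unfold fnJ
    refine DifferentiableAt.fun_sum fun p _ => ?_
    exact (differentiableAt_const _).mul ((h2.pow _).mul (h3.pow _))
  have hYlam : ∀ z ∈ Y, z ∉ lam L N ∧ τ * z ∉ lam L N := fun z hz =>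
    ⟨fun h => hz.1 (mem_lattice_of_mem L h), fun h => hz.2 (mem_lattice_of_mem L h)⟩
  -- the factorisation
  obtain ⟨G, hG, hfac⟩ := exists_factor hVo hJd hinj (range m)
    (r := s) (fun i _ => hptV i) (fun i hi => by
      have hfa : AnalyticAt ℂ (fnJ L τ ξ) (pt ω i) := hfD.analyticAt (hYo.mem_nhds (hptY i))
      have hda : AnalyticAt ℂ (fun z => den L N z ^ a * den L N (τ * z) ^ b) (pt ω i) := by
        refine Differentiable.analyticAt ?_ _
        have d1 := differentiable_den L N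
        have d2 : Differentiable ℂ fun z => den L N (τ * z) :=
          d1.comp (by fun_prop)
        exact (d1.pow _).mul (d2.pow _)
      have h1 : (s : ℕ∞) ≤ analyticOrderAt (fnJ L τ ξ) (pt ω i) :=
        (natCast_le_analyticOrderAt_iff_iteratedDeriv_eq_zero hfa).mpr
          (hzero i (mem_range.mp hi))
      have h2 : hJ L N τ ξ =ᶠ[𝓝 (pt ω i)] fnJ L τ ξ * fun z =>
          den L N z ^ a * den L N (τ * z) ^ b := by
        filter_upwards [hYo.mem_nhds (hptY i)] with w hw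
        rw [hJ_eq L ξ (hYlam w hw).1 (hYlam w hw).2, Pi.mul_apply]
      rw [analyticOrderAt_congr h2, analyticOrderAt_mul hfa hda]
      exact h1.trans le_self_add)
  -- the boundary
  set MH : ℝ := a * b * B * (M * (c * N) ^ (18 * N ^ 2)) ^ (a + b) with hMH
  have hMH0 : 0 ≤ MH := by positivity
  have hT1 : 1 ≤ (c * N) ^ (18 * N ^ 2) := one_le_pow₀ (one_le_mul_of_one_le_of_one_le hc1 hNR)
  have hHle : ∀ z : ℂ, ‖z‖ ≤ ρ → ‖hJ L N τ ξ z‖ ≤ MH := by
    intro z hz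
    obtain ⟨h1, h2⟩ := hnm1 z hz
    have hcN : 1 ≤ c * N := one_le_mul_of_one_le_of_one_le hc1 hNR
    exact norm_hJ_le L hB hT1 hM (norm_rr_le L hN hM (hbd N) h1)
      (norm_den_le L hN hcN fun μ hμ => norm_sub_le_of_nm L hN h1 hμ)
      (norm_rr_le L hN hM (hbd N) h2)
      (norm_den_le L hN hcN fun μ hμ => norm_sub_le_of_nm L hN h2 hμ)
  have hbdry : ∀ z ∈ frontier (Metric.ball (0 : ℂ) ρ),
      ‖G z‖ ≤ MH / (N / (2 * C₁)) ^ (m * s) := by
    intro z hz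
    rw [frontier_ball _ hρ0.ne'] at hz
    have hz1 : ‖z‖ = ρ := by simpa using hz
    have h1 := hHle z hz1.le
    have h2 : (N / (2 * C₁)) ^ (m * s) ≤ ‖∏ i ∈ range m, (z - pt ω i) ^ s‖ := by
      rw [norm_prod]
      calc ((N : ℝ) / (2 * C₁)) ^ (m * s) = ∏ _i ∈ range m, ((N : ℝ) / (2 * C₁)) ^ s := by
            rw [prod_const, card_range, ← pow_mul, mul_comm s m]
        _ ≤ ∏ i ∈ range m, ‖(z - pt ω i) ^ s‖ := by
            refine prod_le_prod (fun _ _ => by positivity) fun i hi => ?_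
            rw [norm_pow]
            refine pow_le_pow_left₀ (by positivity) ?_ _
            have h3 := norm_sub_norm_le z (pt ω i)
            have h4 := norm_pt_le ω (mem_range.mp hi)
            rw [hρ2]
            linarith
    rw [hfac z, norm_mul] at h1
    rw [le_div_iff₀ (by positivity), mul_comm]
    exact (mul_le_mul_of_nonneg_right h2 (norm_nonneg _)).trans h1
  have hGd : DiffContOnCl ℂ G (Metric.ball (0 : ℂ) ρ) := by
    refine DifferentiableOn.diffContOnCl ?_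
    rw [closure_ball _ hρ0.ne']
    exact hG.mono hclV
  have hmax : ∀ z : ℂ, ‖z‖ ≤ ρ → ‖G z‖ ≤ MH / (N / (2 * C₁)) ^ (m * s) := by
    intro z hz
    refine Complex.norm_le_of_forall_mem_frontier_norm_le Metric.isBounded_ball hGd hbdry ?_
    rw [closure_ball _ hρ0.ne']
    simpa using hz
  -- Cauchy's estimate
  have hball : ∀ z : ℂ, ‖z - pt ω j‖ ≤ δ → ∀ l ∈ L.lattice, δ ≤ ‖z - l‖ ∧ δ ≤ ‖τ * z - l‖ := by
    intro z hz l hl
    constructor
    · have h1 := hδ₁ j l hl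
      have h2 : ‖pt ω j - l‖ ≤ ‖z - pt ω j‖ + ‖z - l‖ := by
        have := norm_sub_le (z - l) (z - pt ω j)
        rw [sub_sub_sub_cancel_left] at this
        linarith
      have h3 : δ₀ ≤ δ₁ := min_le_left _ _
      linarith
    · have h1 := hδ₂ j l hl
      rw [← hptτ] at h1
      have h2 : ‖τ * pt ω j - l‖ ≤ ‖τ * z - τ * pt ω j‖ + ‖τ * z - l‖ := by
        have := norm_sub_le (τ * z - l) (τ * z - τ * pt ω j)
        rw [sub_sub_sub_cancel_left] at this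
        linarith
      have h3 : δ₀ ≤ δ₂ := min_le_right _ _
      have h4 : ‖τ * z - τ * pt ω j‖ ≤ δ₀ := by
        rw [← mul_sub, norm_mul]
        exact (mul_le_mul_of_nonneg_left hz hτn).trans hδτ'
      linarith
  have hballY : ∀ z : ℂ, ‖z - pt ω j‖ ≤ δ → z ∈ Y := by
    intro z hz
    refine ⟨fun h => ?_, fun h => ?_⟩
    · have := (hball z hz z h).1
      rw [sub_self, norm_zero] at this
      linarith
    · have := (hball z hz (τ * z) h).2
      rw [sub_self, norm_zero] at this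
      linarith
  have hCau := Complex.norm_iteratedDeriv_le_of_forall_mem_sphere_norm_le (n := s) (c := pt ω j)
    (R := δ) (C := W ^ (m * s) * (MH / (N / (2 * C₁)) ^ (m * s)) /
      (δ ^ (18 * N ^ 2)) ^ (a + b))
    (f := fnJ L τ ξ) hδ0 ((hfD.mono fun z hz => by
      have hz' : ‖z - pt ω j‖ ≤ δ := by
        have := Metric.closure_ball_subset_closedBall hz
        rwa [mem_closedBall_iff_norm] at this
      exact hballY z hz').diffContOnCl) (fun z hz => by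
      have hz' : ‖z - pt ω j‖ = δ := mem_sphere_iff_norm.mp hz
      have hzlat := hball z hz'.le
      have hzY := hballY z hz'.le
      have hzn : ‖z‖ ≤ m * ‖ω‖ + 1 := by
        have h1 := norm_add_le (z - pt ω j) (pt ω j)
        rw [sub_add_cancel, hz'] at h1
        have h2 := norm_pt_le ω hj
        linarith
      have h1 := hmax z (by linarith)
      have h2 : ‖∏ i ∈ range m, (z - pt ω i) ^ s‖ ≤ W ^ (m * s) := by
        rw [norm_prod]
        calc ∏ i ∈ range m, ‖(z - pt ω i) ^ s‖ ≤ ∏ _i ∈ range m, W ^ s := by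
              refine prod_le_prod (fun _ _ => norm_nonneg _) fun i hi => ?_
              rw [norm_pow]
              refine pow_le_pow_left₀ (norm_nonneg _) ?_ _
              have h3 := norm_sub_le z (pt ω i)
              have h4 := norm_pt_le ω (mem_range.mp hi)
              linarith
          _ = W ^ (m * s) := by rw [prod_const, card_range, ← pow_mul, mul_comm]
      have h3 := hJ_eq L ξ (N := N) (τ := τ) (z := z) (hYlam z hzY).1 (hYlam z hzY).2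
      have h4 : δ ^ (18 * N ^ 2) ≤ ‖den L N z‖ :=
        le_norm_den L hN hδ0 hδ1 fun μ hμ => (hzlat μ (mem_lattice_of_mem L hμ)).1
      have h4' : δ ^ (18 * N ^ 2) ≤ ‖den L N (τ * z)‖ :=
        le_norm_den L hN hδ0 hδ1 fun μ hμ => (hzlat μ (mem_lattice_of_mem L hμ)).2
      have h5 : (δ ^ (18 * N ^ 2)) ^ (a + b) ≤ ‖den L N z‖ ^ a * ‖den L N (τ * z)‖ ^ b := by
        rw [pow_add]
        exact mul_le_mul (pow_le_pow_left₀ (by positivity) h4 _)
          (pow_le_pow_left₀ (by positivity) h4' _) (by positivity) (by positivity)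
      rw [le_div_iff₀ (by positivity)]
      calc ‖fnJ L τ ξ z‖ * (δ ^ (18 * N ^ 2)) ^ (a + b) ≤
          ‖fnJ L τ ξ z‖ * (‖den L N z‖ ^ a * ‖den L N (τ * z)‖ ^ b) :=
            mul_le_mul_of_nonneg_left h5 (norm_nonneg _)
        _ = ‖hJ L N τ ξ z‖ := by rw [h3, norm_mul, norm_mul, norm_pow, norm_pow]
        _ = ‖∏ i ∈ range m, (z - pt ω i) ^ s‖ * ‖G z‖ := by rw [hfac z, norm_mul]
        _ ≤ W ^ (m * s) * (MH / (N / (2 * C₁)) ^ (m * s)) :=
            mul_le_mul h2 h1 (norm_nonneg _) (by positivity))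
  refine hCau.trans ?_
  exact final_leJ hN hm hc1 hC₁ hM hW1 hδ0 hδ1 (by linarith) (by linarith) hB0

end Fermat.Agent.Cor.Sch
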