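/-
Schneider's theorem on the modular function `j` (helper85, helper32).
-/
import Fermat.Agent.Corollaries.Sch.MainJ
import Fermat.Agent.Corollaries.Sch.SchwarzJ
import Fermat.Agent.Corollaries.Sch.Gamma

/-!
# Schneider's theorem on `j` (1937)

* `schneider_j`: if `τ` and `j(τ)` are algebraic, then `τ` is imaginary quadratic;
* `transcendental_j`: if `τ` is algebraic of degree `≠ 2`, then `j(τ)` is transcendental;
* `transcendental_quotient`: the quotient of the two basic periods of a lattice with algebraic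
  invariants `g₂`, `g₃` is transcendental or quadratic.
-/

set_option autoImplicit false

namespace Fermat.Agent.Cor.Sch

open UpperHalfPlane Fermat.Agent.Moduli Fermat.Agent.JLevelOne

/-- **Schneider's theorem on `j`** (1937): if `τ` and `j(τ)` are algebraic, then `τ` is (imaginary)
quadratic. Here `jFun τ = E₄(τ)³ / Δ(τ)`. -/
theorem schneider_j (τ : ℍ) (hτ : IsAlgebraic ℚ (τ : ℂ)) (hj : IsAlgebraic ℚ (jFun τ)) :
    ∃ a b c : ℤ, a ≠ 0 ∧ (a : ℂ) * (τ : ℂ) ^ 2 + b * (τ : ℂ) + c = 0 :=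
  quadratic_of_j schwarzJStmt τ hτ hj

/-- **If `τ` is algebraic and not quadratic, then `j(τ)` is transcendental.** -/
theorem transcendental_j (τ : ℍ) (hτ : IsAlgebraic ℚ (τ : ℂ))
    (h2 : (minpoly ℚ (τ : ℂ)).natDegree ≠ 2) : Transcendental ℚ (jFun τ) := by
  intro hj
  obtain ⟨a, b, c, ha, h⟩ := schneider_j τ hτ hj
  apply h2
  obtain ⟨p, hp⟩ : ∃ p : Polynomial ℚ, p = Polynomial.C (a : ℚ) * Polynomial.X ^ 2 +
      Polynomial.C (b : ℚ) * Polynomial.X + Polynomial.C (c : ℚ) := ⟨_, rfl⟩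
  have ha' : (a : ℚ) ≠ 0 := by exact_mod_cast ha
  have hp2 : p.natDegree = 2 := by
    rw [hp]; exact Polynomial.natDegree_quadratic ha'
  have hp0 : p ≠ 0 := by
    intro h0
    rw [h0, Polynomial.natDegree_zero] at hp2
    omega
  have hroot : Polynomial.aeval (τ : ℂ) p = 0 := by
    rw [hp]
    simp only [map_add, map_mul, map_pow, Polynomial.aeval_C, Polynomial.aeval_X]
    simpa using h
  have hle : (minpoly ℚ (τ : ℂ)).natDegree ≤ 2 := by
    rw [← hp2]
    exact Polynomial.natDegree_le_of_dvd (minpoly.dvd ℚ _ hroot) hp0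
  have hpos : 0 < (minpoly ℚ (τ : ℂ)).natDegree := minpoly.natDegree_pos hτ.isIntegral
  have hne1 : (minpoly ℚ (τ : ℂ)).natDegree ≠ 1 := by
    intro h1
    have hmem := (minpoly.natDegree_eq_one_iff).1 h1
    obtain ⟨q, hq⟩ := hmem
    have him := τ.im_pos
    have : (τ : ℂ).im = 0 := by rw [← hq]; simp
    rw [coe_im] at this
    exact him.ne' this
  omega

/-- **The quotient of two basic periods** of a lattice with algebraic invariants is transcendental or
quadratic. -/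
theorem transcendental_quotient {L : PeriodPair} (hg₂ : IsAlgebraic ℚ L.g₂)
    (hg₃ : IsAlgebraic ℚ L.g₃) (hΔ : L.g₂ ^ 3 - 27 * L.g₃ ^ 2 ≠ 0) :
    Transcendental ℚ (L.ω₂ / L.ω₁) ∨
      ∃ a b c : ℤ, a ≠ 0 ∧ (a : ℂ) * (L.ω₂ / L.ω₁) ^ 2 + b * (L.ω₂ / L.ω₁) + c = 0 := by
  have hω₁ : L.ω₁ ≠ 0 := by
    intro h; exact L.ω₁_div_two_notMem_lattice (by rw [h]; simp)
  by_cases h : IsAlgebraic ℚ (L.ω₂ / L.ω₁)
  · exact Or.inr (quadratic_of schwarzJStmt hg₂ hg₃ hΔ (by field_simp) h)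
  · exact Or.inl h

end Fermat.Agent.Cor.Sch
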