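/-
Schneider's and Kronecker's theorems together (helper85).
-/
import Fermat.Agent.Corollaries.Sch.FinalJ
import Fermat.Agent.Corollaries.Kro.Final

/-!
# `τ` algebraic: `j(τ)` is algebraic if and only if `τ` is imaginary quadratic

* `isAlgebraic_j_iff`: for `τ` algebraic, `j(τ)` is algebraic if and only if `τ` is quadratic
  (Schneider; Kronecker, with helper29's `Kro.isIntegral_jinv`);
* `isIntegral_j_iff`: the same for "`j(τ)` is an algebraic integer";
* `pi_mul_eta_sq_of_quadratic`: `π η(τ)²` is transcendental for every imaginary quadratic `τ`;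
* `period_quadratic`: if `τ` is imaginary quadratic, the lattice `α (ℤ + ℤ τ)` has algebraic
  invariants for some transcendental `α` (the periods of an elliptic curve with complex
  multiplication over the algebraic numbers).
-/

set_option autoImplicit false

namespace Fermat.Agent.Cor.Sch

open UpperHalfPlane ModularForm Fermat.Agent.Moduli Fermat.Agent.JLevelOne

theorem isIntegral_jFun {τ : ℍ} {a b c : ℤ} (ha : a ≠ 0)
    (h : (a : ℂ) * (τ : ℂ) ^ 2 + b * (τ : ℂ) + c = 0) : IsIntegral ℤ (jFun τ) :=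
  Kro.isIntegral_jinv ha h

theorem isAlgebraic_of_isIntegral {x : ℂ} (h : IsIntegral ℤ x) : IsAlgebraic ℚ x :=
  (h.tower_top (A := ℚ)).isAlgebraic

/-- **Schneider, Kronecker**: for an algebraic `τ` in the upper half-plane, `j(τ)` is algebraic if and
only if `τ` is imaginary quadratic. -/
theorem isAlgebraic_j_iff {τ : ℍ} (hτ : IsAlgebraic ℚ (τ : ℂ)) :
    IsAlgebraic ℚ (jFun τ) ↔
      ∃ a b c : ℤ, a ≠ 0 ∧ (a : ℂ) * (τ : ℂ) ^ 2 + b * (τ : ℂ) + c = 0 := by
  constructor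
  · exact schneider_j τ hτ
  · rintro ⟨a, b, c, ha, h⟩
    exact isAlgebraic_of_isIntegral (isIntegral_jFun ha h)

/-- For an algebraic `τ` in the upper half-plane, `j(τ)` is an algebraic integer if and only if `τ` is
imaginary quadratic. -/
theorem isIntegral_j_iff {τ : ℍ} (hτ : IsAlgebraic ℚ (τ : ℂ)) :
    IsIntegral ℤ (jFun τ) ↔
      ∃ a b c : ℤ, a ≠ 0 ∧ (a : ℂ) * (τ : ℂ) ^ 2 + b * (τ : ℂ) + c = 0 := by
  constructor
  · exact fun h => schneider_j τ hτ (isAlgebraic_of_isIntegral h)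
  · rintro ⟨a, b, c, ha, h⟩
    exact isIntegral_jFun ha h

/-- **`π η(τ)²` is transcendental for every imaginary quadratic `τ`.** -/
theorem pi_mul_eta_sq_of_quadratic {τ : ℍ} {a b c : ℤ} (ha : a ≠ 0)
    (h : (a : ℂ) * (τ : ℂ) ^ 2 + b * (τ : ℂ) + c = 0) :
    Transcendental ℚ ((Real.pi : ℂ) * eta τ ^ 2) :=
  pi_mul_eta_sq τ (isAlgebraic_of_isIntegral (isIntegral_jFun ha h))

/-- `π |η(τ)|²` is transcendental for every imaginary quadratic `τ` with `2 Re τ ∈ ℤ`. -/
theorem pi_mul_norm_eta_sq_of_quadratic {τ : ℍ} {a b c : ℤ} (ha : a ≠ 0)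
    (h : (a : ℂ) * (τ : ℂ) ^ 2 + b * (τ : ℂ) + c = 0) {m : ℤ} (hm : 2 * τ.re = m) :
    Transcendental ℚ (Real.pi * ‖eta τ‖ ^ 2) :=
  pi_mul_norm_eta_sq τ (isAlgebraic_of_isIntegral (isIntegral_jFun ha h)) hm

/-- For an imaginary quadratic `τ` some multiple `α (ℤ + ℤ τ)` has algebraic invariants, and then all
non-zero periods are transcendental. -/
theorem period_quadratic {τ : ℍ} {a b c : ℤ} (ha : a ≠ 0)
    (h : (a : ℂ) * (τ : ℂ) ^ 2 + b * (τ : ℂ) + c = 0) :
    ∃ (α : ℂ) (hα : α ≠ 0), IsAlgebraic ℚ (mkPP α hα τ).g₂ ∧ IsAlgebraic ℚ (mkPP α hα τ).g₃ ∧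
      ∀ ω ∈ (mkPP α hα τ).lattice, ω ≠ 0 → Transcendental ℚ ω := by
  obtain ⟨α, hα, h2, h3, _⟩ := exists_lattice_of_j τ
    (isAlgebraic_of_isIntegral (isIntegral_jFun ha h))
  exact ⟨α, hα, h2, h3, fun ω hω h0 => schneider h2 h3 hω h0⟩

end Fermat.Agent.Cor.Sch
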