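/-
Algebraicity of the invariants of a commensurable lattice (helper85).
-/
import Fermat.Agent.Corollaries.Sch.Iff

/-!
# Torsion values

* `isAlgebraic_P_of_torsion`: if `g₂` and `g₃` are algebraic, `℘(t)` is algebraic for every torsion
  point `t`;
* `isAlgebraic_sumInvPow`: the sums `∑ (l - t)⁻⁴` and `∑ (l - t)⁻⁶` over the lattice are then
  algebraic too.
-/

set_option autoImplicit false

open Finset Filter Topology

open scoped PeriodPair

namespace Fermat.Agent.Cor.Sch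

open UpperHalfPlane ModularForm Fermat.Agent.Moduli Fermat.Agent.JLevelOne

variable {L : PeriodPair}

/-- A root of a non-zero polynomial with algebraic coefficients is algebraic. -/
theorem isAlgebraic_of_root {p : Polynomial (algebraicClosure ℚ ℂ)} (hp : p ≠ 0) {x : ℂ}
    (hx : (p.map (algebraMap (algebraicClosure ℚ ℂ) ℂ)).eval x = 0) : IsAlgebraic ℚ x := by
  have h1 : IsAlgebraic (algebraicClosure ℚ ℂ) x :=
    ⟨p, hp, by rw [Polynomial.aeval_def, ← Polynomial.eval_map]; exact hx⟩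
  have h3 : Algebra.IsAlgebraic ℚ (algebraicClosure ℚ ℂ) := algebraicClosure.isAlgebraic ℚ ℂ
  exact h1.restrictScalars ℚ

/-- **The values of `℘` at the torsion points** are algebraic if the invariants are algebraic. -/
theorem isAlgebraic_P_of_torsion (hg₂ : IsAlgebraic ℚ L.g₂) (hg₃ : IsAlgebraic ℚ L.g₃)
    (hΔ : L.g₂ ^ 3 - 27 * L.g₃ ^ 2 ≠ 0) {t : ℂ} {n : ℕ} (hn : n ≠ 0)
    (hnt : (n : ℂ) * t ∈ L.lattice) (ht : t ∉ L.lattice) : IsAlgebraic ℚ (L.weierstrassP t) := by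
  classical
  have h := unif_wc hΔ
  have h4 : IsAlgebraic ℚ (-L.g₂ / 4) := by
    have : -L.g₂ / 4 = -L.g₂ * (((4 : ℕ) : ℂ))⁻¹ := by push_cast; ring
    rw [this]; exact hg₂.neg.mul (isAlgebraic_natCast 4).inv
  have h4' : IsAlgebraic ℚ (-L.g₃ / 4) := by
    have : -L.g₃ / 4 = -L.g₃ * (((4 : ℕ) : ℂ))⁻¹ := by push_cast; ring
    rw [this]; exact hg₃.neg.mul (isAlgebraic_natCast 4).inv
  set W₀ : WeierstrassCurve (algebraicClosure ℚ ℂ) :=
    ⟨0, 0, 0, ⟨-L.g₂ / 4, mem_algebraicClosure_iff.2 h4⟩,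
      ⟨-L.g₃ / 4, mem_algebraicClosure_iff.2 h4'⟩⟩ with hW₀
  have hmap : W₀.map (algebraMap (algebraicClosure ℚ ℂ) ℂ) = wc L := by
    rw [hW₀, wc]
    ext <;> simp
  have h1 : n • h.hom t = 0 := by
    rw [← map_nsmul, h.hom_ker, nsmul_eq_mul]
    exact hnt
  rw [Moduli.Unif.hom_apply, h.φ_of_notMem ht, Torsion.nsmul_eq_zero_iff] at h1
  have h2 : ((W₀.ΨSq n).map (algebraMap (algebraicClosure ℚ ℂ) ℂ)).eval
      (Moduli.Unif.px (wc L) L t) = 0 := by
    rw [← WeierstrassCurve.map_ΨSq, hmap]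
    exact h1
  have h3 : W₀.ΨSq n ≠ 0 := W₀.ΨSq_ne_zero (by exact_mod_cast hn)
  have h5 := isAlgebraic_of_root h3 h2
  have h6 : Moduli.Unif.px (wc L) L t = L.weierstrassP t := by
    rw [Moduli.Unif.px]
    simp [wc, WeierstrassCurve.b₂]
  rwa [h6] at h5

/-- `∑ (l - t)⁻⁴` and `∑ (l - t)⁻⁶` are algebraic at the torsion points. -/
theorem isAlgebraic_sumInvPow (hg₂ : IsAlgebraic ℚ L.g₂) (hg₃ : IsAlgebraic ℚ L.g₃)
    (hΔ : L.g₂ ^ 3 - 27 * L.g₃ ^ 2 ≠ 0) {t : ℂ} {n : ℕ} (hn : n ≠ 0)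
    (hnt : (n : ℂ) * t ∈ L.lattice) (ht : t ∉ L.lattice) :
    IsAlgebraic ℚ (L.sumInvPow t 4) ∧ IsAlgebraic ℚ (L.sumInvPow t 6) := by
  have hP := isAlgebraic_P_of_torsion hg₂ hg₃ hΔ hn hnt ht
  have hnat : ∀ k : ℕ, IsAlgebraic ℚ ((k : ℕ) : ℂ) := fun k => isAlgebraic_natCast k
  have hP' : IsAlgebraic ℚ (L.derivWeierstrassP t) := by
    refine IsAlgebraic.of_pow (n := 2) (by norm_num) ?_
    rw [L.derivWeierstrassP_sq t ht]
    have e : 4 * L.weierstrassP t ^ 3 - L.g₂ * L.weierstrassP t - L.g₃ =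
        ((4 : ℕ) : ℂ) * L.weierstrassP t ^ 3 - L.g₂ * L.weierstrassP t - L.g₃ := by push_cast; ring
    rw [e]
    exact (((hnat 4).mul (hP.pow 3)).sub (hg₂.mul hP)).sub hg₃
  have hPe : L.weierstrassPExcept t = L.weierstrassP := L.weierstrassPExcept_of_notMem t ht
  have h2 := L.iteratedDeriv_weierstrassPExcept_self t (n := 2)
  have h4 := L.iteratedDeriv_weierstrassPExcept_self t (n := 4)
  rw [hPe] at h2 h4
  rw [if_neg (by norm_num)] at h2 h4
  have hdd : iteratedDeriv 2 L.weierstrassP t =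
      6 * (L.weierstrassP t * L.weierstrassP t) - L.g₂ / 2 := by
    rw [iteratedDeriv_succ, iteratedDeriv_one, deriv_deriv L ht]; ring
  have hDD : IsAlgebraic ℚ (iteratedDeriv 2 L.weierstrassP t) := by
    rw [hdd]
    have e : 6 * (L.weierstrassP t * L.weierstrassP t) - L.g₂ / 2 =
        ((6 : ℕ) : ℂ) * (L.weierstrassP t * L.weierstrassP t) - L.g₂ * (((2 : ℕ) : ℂ))⁻¹ := by
      push_cast; ring
    rw [e]
    exact ((hnat 6).mul (hP.mul hP)).sub (hg₂.mul (hnat 2).inv)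
  have hev : deriv (deriv L.weierstrassP) =ᶠ[𝓝 t] fun z =>
      6 * (L.weierstrassP z * L.weierstrassP z) - L.g₂ / 2 := by
    filter_upwards [(isOpen_compl L).mem_nhds ht] with z hz
    rw [deriv_deriv L hz]; ring
  have hc : ContDiffAt ℂ 2 L.weierstrassP t := (L.analyticOnNhd_weierstrassP t ht).contDiffAt
  have h44 : iteratedDeriv 4 L.weierstrassP t =
      6 * ∑ k ∈ range 3, ((2 : ℕ).choose k : ℂ) * iteratedDeriv k L.weierstrassP t *
        iteratedDeriv (2 - k) L.weierstrassP t := by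
    rw [show (4 : ℕ) = 2 + 1 + 1 from rfl, iteratedDeriv_succ', iteratedDeriv_succ',
      hev.iteratedDeriv_eq, iteratedDeriv_fun_sub
      ((contDiffAt_const (c := (6 : ℂ))).mul (hc.mul hc)) contDiffAt_const,
      iteratedDeriv_const_mul_field, iteratedDeriv_fun_mul hc hc, iteratedDeriv_const]
    simp
  have hD1 : iteratedDeriv 1 L.weierstrassP t = L.derivWeierstrassP t := by
    rw [iteratedDeriv_one, L.deriv_weierstrassP]
  have hDDDD : IsAlgebraic ℚ (iteratedDeriv 4 L.weierstrassP t) := by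
    have e : iteratedDeriv 4 L.weierstrassP t = ((12 : ℕ) : ℂ) * (L.weierstrassP t *
        iteratedDeriv 2 L.weierstrassP t + L.derivWeierstrassP t * L.derivWeierstrassP t) := by
      rw [h44, sum_range_succ, sum_range_succ, sum_range_one]
      simp only [show (2 : ℕ) - 0 = 2 from rfl, show (2 : ℕ) - 1 = 1 from rfl,
        show (2 : ℕ) - 2 = 0 from rfl, iteratedDeriv_zero, hD1, Nat.choose_zero_right,
        Nat.choose_one_right, Nat.choose_self]
      push_cast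
      ring
    rw [e]
    exact (hnat 12).mul ((hP.mul hDD).add (hP'.mul hP'))
  constructor
  · have e : L.sumInvPow t 4 = iteratedDeriv 2 L.weierstrassP t * (((6 : ℕ) : ℂ))⁻¹ := by
      rw [h2]
      norm_num [Nat.factorial]
      ring
    rw [e]; exact hDD.mul (hnat 6).inv
  · have e : L.sumInvPow t 6 = iteratedDeriv 4 L.weierstrassP t * (((120 : ℕ) : ℂ))⁻¹ := by
      rw [h4]
      norm_num [Nat.factorial]
      ring
    rw [e]; exact hDDDD.mul (hnat 120).inv

end Fermat.Agent.Cor.Sch
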