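/-
Algebraicity of the invariants of a larger lattice (helper85).
-/
import Fermat.Agent.Corollaries.Sch.Torsion

/-!
# Commensurable lattices

* `isAlgebraic_G`: if the lattice `α (ℤ + ℤ A τ)` has algebraic invariants, so has `α (ℤ + ℤ τ)`;
* `isAlgebraic_disc_quotient`: `Δ(τ) / Δ(A τ)` is algebraic if `j(A τ)` is algebraic.
-/

set_option autoImplicit false

open Finset Filter Topology

open scoped PeriodPair

namespace Fermat.Agent.Cor.Sch

open UpperHalfPlane ModularForm Fermat.Agent.Moduli Fermat.Agent.JLevelOne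

/-! ### Lattice sums of a larger lattice -/

section Sum

variable {α : ℂ} {hα : α ≠ 0} {τ τ₁ : ℍ} {A : ℕ}

theorem coord_inj (hα : α ≠ 0) (τ : ℍ) {m n m' n' : ℤ}
    (h : (m : ℂ) * α + n * (α * τ) = m' * α + n' * (α * τ)) : m = m' ∧ n = n' := by
  have h1 : ((m - m' : ℤ) : ℂ) + ((n - n' : ℤ) : ℂ) * (τ : ℂ) = 0 := by
    apply mul_left_cancel₀ hα
    push_cast
    linear_combination h
  have h2 := congrArg Complex.im h1
  simp only [Complex.add_im, Complex.intCast_im, Complex.mul_im, Complex.intCast_re, zero_mul,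
    add_zero, zero_add, Complex.zero_im, coe_im] at h2
  have h3 : n - n' = 0 := by
    rcases mul_eq_zero.1 h2 with h | h
    · exact_mod_cast h
    · exact absurd h τ.im_pos.ne'
  rw [h3, Int.cast_zero, zero_mul, add_zero] at h1
  have h4 : m - m' = 0 := by exact_mod_cast h1
  omega

/-- `α (ℤ + ℤ τ)` is the union of the `A` cosets of `α (ℤ + ℤ A τ)`. -/
theorem exists_equiv (hα : α ≠ 0) (hA : 0 < A) (h : (τ₁ : ℂ) = A * τ) :
    ∃ e : Fin A × (mkPP α hα τ₁).lattice ≃ (mkPP α hα τ).lattice,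
      ∀ p, ((e p : (mkPP α hα τ).lattice) : ℂ) = (p.2 : ℂ) + (p.1 : ℕ) * (α * τ) := by
  have hA' : (A : ℤ) ≠ 0 := by exact_mod_cast hA.ne'
  let f : Fin A × (mkPP α hα τ₁).lattice → (mkPP α hα τ).lattice := fun p =>
    ⟨(p.2 : ℂ) + (p.1 : ℕ) * (α * τ), by
      obtain ⟨m, n, hmn⟩ := mem_mkPP.1 p.2.2
      refine mem_mkPP.2 ⟨m, n * A + (p.1 : ℕ), ?_⟩
      rw [← hmn, h]
      push_cast
      ring⟩
  have hf : Function.Bijective f := by
    constructor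
    · rintro ⟨j, l⟩ ⟨j', l'⟩ hp
      have hp' := congrArg Subtype.val hp
      change (l : ℂ) + (j : ℕ) * (α * τ) = (l' : ℂ) + (j' : ℕ) * (α * τ) at hp'
      obtain ⟨m, n, hmn⟩ := mem_mkPP.1 l.2
      obtain ⟨m', n', hmn'⟩ := mem_mkPP.1 l'.2
      have h1 : (m : ℂ) * α + ((n * A + (j : ℕ) : ℤ) : ℂ) * (α * τ) =
          m' * α + ((n' * A + (j' : ℕ) : ℤ) : ℂ) * (α * τ) := by
        rw [← hmn, ← hmn', h] at hp'
        push_cast
        linear_combination hp'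
      obtain ⟨_, h2⟩ := coord_inj hα τ h1
      have h3 : ((j : ℕ) : ℤ) = ((j' : ℕ) : ℤ) := by
        have e1 : ((j : ℕ) : ℤ) % A = (j : ℕ) :=
          Int.emod_eq_of_lt (by positivity) (by exact_mod_cast j.2)
        have e2 : ((j' : ℕ) : ℤ) % A = (j' : ℕ) :=
          Int.emod_eq_of_lt (by positivity) (by exact_mod_cast j'.2)
        rw [← e1, ← e2, ← Int.mul_add_emod_self_right n A ((j : ℕ) : ℤ), h2,
          Int.mul_add_emod_self_right]
      have h4 : j = j' := Fin.ext (by exact_mod_cast h3)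
      subst h4
      have h5 : l = l' := Subtype.ext (add_right_cancel hp')
      rw [h5]
    · rintro ⟨x, hx⟩
      obtain ⟨m, n, hmn⟩ := mem_mkPP.1 hx
      have hj0 : 0 ≤ n % A := Int.emod_nonneg _ hA'
      have hj1 : n % A < A := Int.emod_lt_of_pos _ (by exact_mod_cast hA)
      refine ⟨(⟨(n % A).toNat, by omega⟩, ⟨(m : ℂ) * α + ((n / A : ℤ) : ℂ) * (α * τ₁),
        mem_mkPP.2 ⟨m, n / A, rfl⟩⟩), ?_⟩
      apply Subtype.ext
      change (m : ℂ) * α + ((n / A : ℤ) : ℂ) * (α * τ₁) + ((n % A).toNat : ℂ) * (α * τ) = x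
      have e1 : (((n % A).toNat : ℕ) : ℂ) = ((n % A : ℤ) : ℂ) := by
        have : (((n % A).toNat : ℕ) : ℤ) = n % A := Int.toNat_of_nonneg hj0
        exact_mod_cast congrArg (fun z : ℤ => (z : ℂ)) this
      have e2 : ((n : ℤ) : ℂ) = ((n / A : ℤ) : ℂ) * A + ((n % A : ℤ) : ℂ) := by
        have : n = n / A * A + n % A := by rw [mul_comm]; exact (Int.mul_ediv_add_emod n A).symm
        exact_mod_cast congrArg (fun z : ℤ => (z : ℂ)) this
      rw [e1, h, ← hmn, e2]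
      ring
  exact ⟨Equiv.ofBijective f hf, fun p => rfl⟩

/-- The Eisenstein sums of the larger lattice. -/
theorem G_eq_sum (hα : α ≠ 0) (hA : 0 < A) (h : (τ₁ : ℂ) = A * τ) {k : ℕ} (hk : 2 < k) :
    (mkPP α hα τ).G k = ∑ j : Fin A, (mkPP α hα τ₁).sumInvPow (-((j : ℕ) * (α * τ))) k := by
  obtain ⟨e, he⟩ := exists_equiv hα hA h
  obtain ⟨F, hF⟩ : ∃ F : Fin A × (mkPP α hα τ₁).lattice → ℂ, F = fun p =>
      (((p.2 : ℂ) - (-((p.1 : ℕ) * (α * τ)))) ^ k)⁻¹ := ⟨_, rfl⟩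
  obtain ⟨F₀, hF₀⟩ : ∃ F₀ : (mkPP α hα τ).lattice → ℂ, F₀ = fun x : (mkPP α hα τ).lattice =>
      ((x : ℂ) ^ k)⁻¹ := ⟨_, rfl⟩
  have hFe : ∀ p, F₀ (e p) = F p := by
    intro p
    rw [hF₀, hF]
    simp only [he, sub_neg_eq_add]
  have hs : Summable F₀ := by
    have h1 := ((mkPP α hα τ).hasSum_sumInvPow 0 hk).summable
    rw [hF₀]
    refine h1.congr fun x => ?_
    rw [sub_zero]
  have hs2 : Summable F := by
    have h1 : Summable (F₀ ∘ e) := (e.summable_iff (f := F₀)).2 hs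
    exact h1.congr fun p => hFe p
  have h0 : (mkPP α hα τ).G k = ∑' x, F₀ x := by
    rw [hF₀]; rfl
  have h1 : ∑' x, F₀ x = ∑' p, F p := by
    rw [← e.tsum_eq F₀]
    exact tsum_congr fun p => hFe p
  have hs3 : ∀ j : Fin A, Summable fun l => F (j, l) := by
    intro j
    rw [hF]
    exact ((mkPP α hα τ₁).hasSum_sumInvPow (-((j : ℕ) * (α * τ))) hk).summable
  rw [h0, h1, hs2.tsum_prod' hs3, tsum_fintype]
  refine sum_congr rfl fun j _ => ?_
  rw [hF]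
  rfl

/-- **The invariants of a larger lattice are algebraic** if those of a sublattice are. -/
theorem isAlgebraic_G (hα : α ≠ 0) (hA : 0 < A) (h : (τ₁ : ℂ) = A * τ)
    (hg₂ : IsAlgebraic ℚ (mkPP α hα τ₁).g₂) (hg₃ : IsAlgebraic ℚ (mkPP α hα τ₁).g₃)
    (hΔ : (mkPP α hα τ₁).g₂ ^ 3 - 27 * (mkPP α hα τ₁).g₃ ^ 2 ≠ 0) :
    IsAlgebraic ℚ (mkPP α hα τ).g₂ ∧ IsAlgebraic ℚ (mkPP α hα τ).g₃ := by
  have hnat : ∀ k : ℕ, IsAlgebraic ℚ ((k : ℕ) : ℂ) := fun k => isAlgebraic_natCast k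
  have hG4 : IsAlgebraic ℚ ((mkPP α hα τ₁).G 4) := by
    have : (mkPP α hα τ₁).G 4 = (mkPP α hα τ₁).g₂ * (((60 : ℕ) : ℂ))⁻¹ := by
      rw [PeriodPair.g₂]; push_cast; ring
    rw [this]; exact hg₂.mul (hnat 60).inv
  have hG6 : IsAlgebraic ℚ ((mkPP α hα τ₁).G 6) := by
    have : (mkPP α hα τ₁).G 6 = (mkPP α hα τ₁).g₃ * (((140 : ℕ) : ℂ))⁻¹ := by
      rw [PeriodPair.g₃]; push_cast; ring
    rw [this]; exact hg₃.mul (hnat 140).inv
  have key : ∀ j : Fin A, IsAlgebraic ℚ ((mkPP α hα τ₁).sumInvPow (-((j : ℕ) * (α * τ))) 4) ∧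
      IsAlgebraic ℚ ((mkPP α hα τ₁).sumInvPow (-((j : ℕ) * (α * τ))) 6) := by
    intro j
    rcases Nat.eq_zero_or_pos (j : ℕ) with h0 | h0
    · rw [h0, Nat.cast_zero, zero_mul, neg_zero, PeriodPair.sumInvPow_zero]
      exact ⟨hG4, hG6⟩
    · refine isAlgebraic_sumInvPow hg₂ hg₃ hΔ hA.ne' ?_ ?_
      · refine mem_mkPP.2 ⟨0, -(j : ℕ), ?_⟩
        rw [h]; push_cast; ring
      · intro hmem
        obtain ⟨m, n, hmn⟩ := mem_mkPP.1 hmem
        have h1 : (m : ℂ) * α + ((n * A : ℤ) : ℂ) * (α * τ) =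
            ((0 : ℤ) : ℂ) * α + ((-(j : ℕ) : ℤ) : ℂ) * (α * τ) := by
          rw [h] at hmn
          push_cast
          linear_combination hmn
        obtain ⟨_, h2⟩ := coord_inj hα τ h1
        have h3 : (A : ℤ) ∣ ((j : ℕ) : ℤ) := ⟨-n, by linarith⟩
        have h4 : A ∣ (j : ℕ) := by exact_mod_cast h3
        exact absurd (Nat.le_of_dvd h0 h4) (not_le.2 j.2)
  have hsum : ∀ k, (∀ j : Fin A, IsAlgebraic ℚ
      ((mkPP α hα τ₁).sumInvPow (-((j : ℕ) * (α * τ))) k)) → IsAlgebraic ℚ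
        (∑ j : Fin A, (mkPP α hα τ₁).sumInvPow (-((j : ℕ) * (α * τ))) k) := by
    intro k hk
    rw [← mem_algebraicClosure_iff]
    exact sum_mem fun j _ => mem_algebraicClosure_iff.2 (hk j)
  constructor
  · rw [PeriodPair.g₂, G_eq_sum hα hA h (by norm_num)]
    exact (hnat 60).mul (hsum 4 fun j => (key j).1)
  · rw [PeriodPair.g₃, G_eq_sum hα hA h (by norm_num)]
    exact (hnat 140).mul (hsum 6 fun j => (key j).2)

end Sum

theorem disc_mkPP' {α : ℂ} (hα : α ≠ 0) (τ : ℍ) :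
    (mkPP α hα τ).g₂ ^ 3 - 27 * (mkPP α hα τ).g₃ ^ 2 =
      (2 * (Real.pi : ℂ) / α) ^ 12 * discriminant τ := by
  have hd : discriminant τ = (E₄ τ ^ 3 - E₆ τ ^ 2) / 1728 := discriminant_eq_E₄_cube_sub_E₆_sq τ
  rw [g₂_mkPP, g₃_mkPP, hd]
  ring

/-- **`Δ(τ) / Δ(A τ)` is algebraic** if `j(A τ)` is algebraic. -/
theorem isAlgebraic_disc_quotient {τ τ₁ : ℍ} {A : ℕ} (hA : 0 < A) (h : (τ₁ : ℂ) = A * τ)
    (hj : IsAlgebraic ℚ (jFun τ₁)) : IsAlgebraic ℚ (discriminant τ / discriminant τ₁) := by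
  obtain ⟨α, hα, h2, h3, h1⟩ := exists_lattice_of_j τ₁ hj
  obtain ⟨h4, h5⟩ := isAlgebraic_G hα hA h h2 h3 (by rw [h1]; exact one_ne_zero)
  rw [disc_mkPP'] at h1
  have h6 : discriminant τ / discriminant τ₁ =
      (mkPP α hα τ).g₂ ^ 3 - ((27 : ℕ) : ℂ) * (mkPP α hα τ).g₃ ^ 2 := by
    have h7 := disc_mkPP' hα τ
    push_cast
    rw [h7, div_eq_iff (discriminant_ne_zero τ₁)]
    linear_combination (-discriminant τ) * h1
  rw [h6]
  exact (h4.pow 3).sub ((isAlgebraic_natCast 27).mul (h5.pow 2))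

end Fermat.Agent.Cor.Sch
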