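/-
The Chowla-Selberg periods are transcendental (helper85).
-/
import Fermat.Agent.Corollaries.Sch.Commens
import Fermat.Agent.Corollaries.Kron.FormTau

/-!
# The transcendence of the Chowla-Selberg products

`K` an imaginary quadratic field of discriminant `d`, with class number `h` and `w` roots of unity.

* `isAlgebraic_eta_quotient`: the quotients `|η(τ)| / |η(τ')|` are algebraic for the roots `τ`, `τ'` of
  the forms of discriminant `d`;
* `chowla_selberg_transcendental`: `π ^ h ∏_{0 < a < |d|} Γ(a / |d|) ^ ((w / 2) (d / a))` is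
  transcendental;
* `chowla_selberg_transcendental'`: the same without a field, for every fundamental discriminant
  `d < -4`.
-/

set_option autoImplicit false

open Finset

open scoped PeriodPair

namespace Fermat.Agent.Cor.Sch

open UpperHalfPlane ModularForm Fermat.Agent.Moduli Fermat.Agent.JLevelOne NumberField Module

open Fermat.Agent.Cor.Ray (BForm)

open Fermat.Agent.Cor.Diri (kron)

/-- The absolute value of an algebraic number is algebraic. -/
theorem isAlgebraic_norm {z : ℂ} (hz : IsAlgebraic ℚ z) : IsAlgebraic ℚ ‖z‖ := by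
  have h1 : IsAlgebraic ℚ ((starRingEnd ℂ) z) :=
    hz.algHom ((Complex.conjAe.restrictScalars ℚ : ℂ ≃ₐ[ℚ] ℂ) : ℂ →ₐ[ℚ] ℂ)
  have h2 : IsAlgebraic ℚ (((‖z‖ ^ 2 : ℝ)) : ℂ) := by
    have : (((‖z‖ ^ 2 : ℝ)) : ℂ) = z * (starRingEnd ℂ) z := by
      rw [Complex.mul_conj, Complex.normSq_eq_norm_sq]
    rw [this]; exact hz.mul h1
  have h3 : IsAlgebraic ℚ (‖z‖ ^ 2) :=
    (isAlgebraic_algebraMap_iff (R := ℚ) (S := ℝ) (A := ℂ) (algebraMap ℝ ℂ).injective).1 h2
  exact h3.of_pow (by norm_num)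

theorem isAlgebraic_sqrt_int (d : ℤ) : IsAlgebraic ℚ (√|(d : ℝ)|) := by
  refine IsAlgebraic.of_pow (n := 2) (by norm_num) ?_
  rw [Real.sq_sqrt (abs_nonneg _), ← Int.cast_abs]
  exact isAlgebraic_intCast _

theorem disc_congr {τ τ' : ℍ} {k : ℤ} (h : (τ' : ℂ) = τ + k) :
    discriminant τ' = discriminant τ := by
  have hl : (mkPP 1 one_ne_zero τ').lattice = (mkPP 1 one_ne_zero τ).lattice := by
    ext z
    rw [mem_mkPP, mem_mkPP]
    constructor
    · rintro ⟨m, n, rfl⟩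
      refine ⟨m + n * k, n, ?_⟩
      rw [h]; push_cast; ring
    · rintro ⟨m, n, rfl⟩
      refine ⟨m - n * k, n, ?_⟩
      rw [h]; push_cast; ring
  have h1 := disc_mkPP' one_ne_zero τ'
  have h2 := disc_mkPP' one_ne_zero τ
  rw [PeriodPair.g₂, PeriodPair.g₃, G_congr hl, G_congr hl] at h1
  rw [PeriodPair.g₂, PeriodPair.g₃, h1] at h2
  have h3 : (2 * (Real.pi : ℂ) / 1) ^ 12 ≠ 0 := by
    rw [div_one]; exact pow_ne_zero _ two_pi_ne_zero'
  exact mul_left_cancel₀ h3 h2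

theorem exists_parity {a b c d : ℤ} (h : b ^ 2 - 4 * a * c = d) : ∃ k : ℤ, b = d % 2 - 2 * k := by
  have h4 : (b ^ 2 - b) % 2 = 0 := by
    rcases Int.emod_two_eq_zero_or_one b with h | h
    · obtain ⟨u, hu⟩ : ∃ u, b = 2 * u := ⟨b / 2, by omega⟩
      have : b ^ 2 - b = 2 * (2 * u ^ 2 - u) := by rw [hu]; ring
      omega
    · obtain ⟨u, hu⟩ : ∃ u, b = 2 * u + 1 := ⟨b / 2, by omega⟩
      have : b ^ 2 - b = 2 * (2 * u ^ 2 + u) := by rw [hu]; ring
      omega
  have h5 : 4 * a * c = 2 * (2 * (a * c)) := by ring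
  exact ⟨(d % 2 - b) / 2, by omega⟩

section Root

variable {d : ℤ}

theorem sqrt_pos (hd : d < 0) : 0 < √|(d : ℝ)| := by
  have : (d : ℝ) < 0 := by exact_mod_cast hd
  exact Real.sqrt_pos.2 (abs_pos.2 this.ne)

theorem sqrt_sq_eq (hd : d < 0) : ((√|(d : ℝ)| : ℝ) : ℂ) ^ 2 = -(d : ℂ) := by
  have h1 : (d : ℝ) < 0 := by exact_mod_cast hd
  have h2 : √|(d : ℝ)| ^ 2 = -(d : ℝ) := by rw [Real.sq_sqrt (abs_nonneg _), abs_of_neg h1]
  exact_mod_cast congrArg (fun x : ℝ => (x : ℂ)) h2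

/-- the point `(-b + √d) / 2` -/
noncomputable def tb (hd : d < 0) (b : ℤ) : ℍ :=
  ⟨(-(b : ℂ) + √|(d : ℝ)| * Complex.I) / 2, by
    have : ((-(b : ℂ) + √|(d : ℝ)| * Complex.I) / 2).im = √|(d : ℝ)| / 2 := by
      simp
    rw [this]
    exact half_pos (sqrt_pos hd)⟩

theorem coe_tb (hd : d < 0) (b : ℤ) :
    ((tb hd b : ℍ) : ℂ) = (-(b : ℂ) + √|(d : ℝ)| * Complex.I) / 2 := rfl

theorem tb_quadratic (hd : d < 0) (b : ℤ) :
    ((4 : ℤ) : ℂ) * ((tb hd b : ℍ) : ℂ) ^ 2 + ((4 * b : ℤ) : ℂ) * ((tb hd b : ℍ) : ℂ) +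
      ((b ^ 2 - d : ℤ) : ℂ) = 0 := by
  rw [coe_tb]
  have h := sqrt_sq_eq hd
  push_cast
  linear_combination Complex.I ^ 2 * h + (-(d : ℂ)) * Complex.I_sq

theorem isAlgebraic_jFun_tb (hd : d < 0) (b : ℤ) : IsAlgebraic ℚ (jFun (tb hd b)) :=
  isAlgebraic_of_isIntegral (isIntegral_jFun (by norm_num) (tb_quadratic hd b))

theorem two_mul_re_tb (hd : d < 0) (b : ℤ) : 2 * (tb hd b).re = ((-b : ℤ) : ℝ) := by
  have h1 : (tb hd b).re = (((tb hd b : ℍ) : ℂ)).re := rfl
  rw [h1, coe_tb]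
  simp
  ring

/-- the root of the form, as a point of the upper half-plane -/
noncomputable def rt (hd : d < 0) (f : BForm.RForm d) : ℍ :=
  ⟨Kron.root d f.1.1, by
    rw [Kron.root_im]
    have h1 : (0 : ℝ) < f.1.1.a := by exact_mod_cast f.1.2.2.2
    have h2 := sqrt_pos hd
    positivity⟩

theorem coe_rt (hd : d < 0) (f : BForm.RForm d) : ((rt hd f : ℍ) : ℂ) = Kron.root d f.1.1 := rfl

/-- **The quotients of the values of the eta function at the roots of the forms** are algebraic. -/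
theorem isAlgebraic_eta_quotient (hd : d < 0) (f : BForm.RForm d) :
    IsAlgebraic ℚ (‖eta (Kron.root d f.1.1)‖ / ‖eta ((tb hd (d % 2) : ℍ) : ℂ)‖) := by
  have ha : 0 < f.1.1.a := f.1.2.2.2
  have hdisc : f.1.1.b ^ 2 - 4 * f.1.1.a * f.1.1.c = d := f.1.2.2.1
  obtain ⟨A, hA⟩ : ∃ A : ℕ, (A : ℤ) = f.1.1.a := ⟨f.1.1.a.toNat, Int.toNat_of_nonneg ha.le⟩
  have hA0 : 0 < A := by
    have : (0 : ℤ) < A := by rw [hA]; exact ha
    exact_mod_cast this
  have hAC : (A : ℂ) = ((f.1.1.a : ℤ) : ℂ) := by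
    have := congrArg (fun z : ℤ => (z : ℂ)) hA
    simpa using this
  have ha0 : ((f.1.1.a : ℤ) : ℂ) ≠ 0 := by exact_mod_cast ha.ne'
  have h1 : ((tb hd f.1.1.b : ℍ) : ℂ) = A * ((rt hd f : ℍ) : ℂ) := by
    rw [coe_tb, coe_rt, Kron.root, hAC]
    field_simp
  have h2 := isAlgebraic_disc_quotient hA0 h1 (isAlgebraic_jFun_tb hd f.1.1.b)
  -- the parity of `b`
  have hpar : ∃ k : ℤ, f.1.1.b = d % 2 - 2 * k := exists_parity hdisc
  obtain ⟨k, hk⟩ := hpar
  have h3 : ((tb hd f.1.1.b : ℍ) : ℂ) = ((tb hd (d % 2) : ℍ) : ℂ) + k := by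
    rw [coe_tb, coe_tb, hk]
    push_cast
    ring
  rw [disc_congr h3] at h2
  have h4 := isAlgebraic_norm h2
  rw [norm_div] at h4
  have e1 : ‖discriminant (rt hd f)‖ = ‖eta (Kron.root d f.1.1)‖ ^ 24 := by
    have : discriminant (rt hd f) = eta (Kron.root d f.1.1) ^ 24 := rfl
    rw [this, norm_pow]
  have e2 : ‖discriminant (tb hd (d % 2))‖ = ‖eta ((tb hd (d % 2) : ℍ) : ℂ)‖ ^ 24 := by
    have : discriminant (tb hd (d % 2)) = eta ((tb hd (d % 2) : ℍ) : ℂ) ^ 24 := rfl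
    rw [this, norm_pow]
  rw [e1, e2, ← div_pow] at h4
  exact h4.of_pow (by norm_num)

end Root

/-- A finite product of algebraic numbers is algebraic. -/
theorem isAlgebraic_prod {ι : Type*} (s : Finset ι) (f : ι → ℝ) (h : ∀ i ∈ s, IsAlgebraic ℚ (f i)) :
    IsAlgebraic ℚ (∏ i ∈ s, f i) := by
  rw [← mem_algebraicClosure_iff]
  exact prod_mem fun i hi => mem_algebraicClosure_iff.2 (h i hi)

universe u

/-- **The Chowla-Selberg product is transcendental** for every imaginary quadratic field. -/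
theorem chowla_selberg_transcendental {K : Type u} [Field K] [NumberField K]
    (h2 : finrank ℚ K = 2) (hd : discr K < 0) :
    Transcendental ℚ (Real.pi ^ classNumber K *
      ∏ a ∈ Finset.Ioo 0 (discr K).natAbs, Real.Gamma (a / (discr K).natAbs) ^
        (((NumberField.Units.torsionOrder K / 2 : ℕ) : ℤ) * kron (discr K) a)) := by
  classical
  intro hT
  obtain ⟨d, hdd⟩ : ∃ d, d = discr K := ⟨_, rfl⟩
  have hcs := Kron.chowla_selberg_forms h2 hd
  have hcl : classNumber K = Nat.card (BForm.RForm (discr K)) := by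
    rw [Diri.classNumber_eq_hForm h2 hd, BForm.hForm_eq_card_red hd]
  set G : ℝ := ∏ a ∈ Finset.Ioo 0 (discr K).natAbs, Real.Gamma (a / (discr K).natAbs) ^
        (((NumberField.Units.torsionOrder K / 2 : ℕ) : ℤ) * kron (discr K) a) with hG
  have hfin : Finite (BForm.RForm (discr K)) := by
    apply Nat.finite_of_card_ne_zero
    rw [← hcl]
    exact classNumber_ne_zero K
  have hft : Fintype (BForm.RForm (discr K)) := Fintype.ofFinite _
  rw [Nat.card_eq_fintype_card] at hcl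
  rw [finprod_eq_prod_of_fintype] at hcs
  set s : ℝ := √|((discr K : ℤ) : ℝ)| with hs
  have hs0 : 0 < s := sqrt_pos hd
  set η₀ : ℝ := ‖eta ((tb hd (discr K % 2) : ℍ) : ℂ)‖ with hη₀
  have hη0 : 0 < η₀ := norm_pos_iff.2 (eta_ne_zero (tb hd (discr K % 2)).2)
  set C : ℝ := ∏ f : BForm.RForm (discr K), s / (2 * (f.1.1.a : ℝ)) *
    (‖eta (Kron.root (discr K) f.1.1)‖ / η₀) ^ 4 with hC
  have hC1 : IsAlgebraic ℚ C := by
    refine isAlgebraic_prod _ _ fun f _ => ?_
    have e1 : IsAlgebraic ℚ (s / (2 * (f.1.1.a : ℝ))) := by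
      rw [div_eq_mul_inv]
      have : (2 * (f.1.1.a : ℝ)) = ((2 * f.1.1.a : ℤ) : ℝ) := by push_cast; ring
      rw [this]
      exact (isAlgebraic_sqrt_int _).mul (isAlgebraic_intCast _).inv
    exact e1.mul ((isAlgebraic_eta_quotient hd f).pow 4)
  have hC0 : C ≠ 0 := by
    refine Finset.prod_ne_zero_iff.2 fun f _ => ?_
    have ha : (0 : ℝ) < f.1.1.a := by exact_mod_cast f.1.2.2.2
    have he : 0 < ‖eta (Kron.root (discr K) f.1.1)‖ := norm_pos_iff.2 (eta_ne_zero (rt hd f).2)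
    positivity
  have hX : ∏ f : BForm.RForm (discr K), s / (2 * (f.1.1.a : ℝ)) *
      ‖eta (Kron.root (discr K) f.1.1)‖ ^ 4 = C * (η₀ ^ 4) ^ classNumber K := by
    rw [hC, hcl, ← Finset.card_univ, ← Finset.prod_const, ← Finset.prod_mul_distrib]
    refine Finset.prod_congr rfl fun f _ => ?_
    rw [div_pow]
    field_simp
  rw [hX] at hcs
  have hh : 0 < classNumber K := Nat.pos_of_ne_zero (classNumber_ne_zero K)
  have hpi := Real.pi_pos
  have hGe : G = (4 * Real.pi * s) ^ classNumber K * (C * (η₀ ^ 4) ^ classNumber K) := by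
    have h4 : (4 * Real.pi * s) ^ classNumber K ≠ 0 := by positivity
    rw [hcs, mul_inv_cancel_left₀ h4]
  have hfinal : (Real.pi * η₀ ^ 2) ^ (2 * classNumber K) =
      (Real.pi ^ classNumber K * G) * (((4 : ℕ) : ℝ) ^ classNumber K * s ^ classNumber K * C)⁻¹ := by
    rw [hGe, eq_mul_inv_iff_mul_eq₀ (by positivity)]
    rw [pow_mul, mul_pow (4 * Real.pi) s, mul_pow 4 Real.pi]
    push_cast
    ring
  apply pi_mul_norm_eta_sq (tb hd (discr K % 2)) (isAlgebraic_jFun_tb hd _)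
    (two_mul_re_tb hd _)
  refine IsAlgebraic.of_pow (n := 2 * classNumber K) (by omega) ?_
  rw [hfinal]
  exact hT.mul ((((isAlgebraic_natCast 4).pow _).mul ((isAlgebraic_sqrt_int _).pow _)).mul hC1).inv

/-- **The Chowla-Selberg product is transcendental** for every fundamental discriminant `d < -4`,
`h` the number of reduced forms of discriminant `d`. -/
theorem chowla_selberg_transcendental' {m d : ℤ} (hm : Squarefree m) (h0 : m < 0)
    (hmd : d = if m % 4 = 1 then m else 4 * m) (h4 : d < -4) :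
    Transcendental ℚ (Real.pi ^ BForm.hForm d *
      ∏ a ∈ Finset.Ioo 0 d.natAbs, Real.Gamma (a / d.natAbs) ^ kron d a) := by
  obtain ⟨K, _, _, α, h2, -, hdK⟩ := Diri.exists_quadratic_field hm (by omega)
  rw [← hmd] at hdK
  have h := chowla_selberg_transcendental (K := K) h2 (by omega)
  have hw : NumberField.Units.torsionOrder K = 2 := Diri.torsionOrder_eq_two h2 (by omega)
  rw [Diri.classNumber_eq_hForm h2 (by omega), hw, hdK] at h
  simpa using h

end Fermat.Agent.Cor.Sch
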